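import Fermat.Agent.CFT.Tangent.LocalBasic
import Fermat.Agent.CFT.Idele.Decomp

/-!
Finite levels and the structure of decomposition groups at finite level.
-/

set_option autoImplicit false
set_option synthInstance.maxHeartbeats 200000
set_option linter.style.haveILetI false

noncomputable section

namespace Fermat.Agent.CFT.Tangent

open Fermat.Agent.Deform Fermat.Agent.Arith Module
open scoped Pointwise

/-- Functions on the Galois group that vanish on an open subgroup. -/
def IsFiniteLevel {M : Type} [Zero M] (b : Gal → M) : Prop :=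
  ∃ L : IntermediateField ℚ QBar, FiniteDimensional ℚ L ∧ ∀ σ : Gal, (∀ x ∈ L, σ x = x) → b σ = 0

variable {k : Type} [Field k]

/-- A common normal level for a finite dimensional space of functions and a representation. -/
theorem exists_common_level {r : Gal →* M2 k} (hr : GaloisFactorsThroughFiniteLevel r)
    (V : Submodule k (Gal → M2 k)) [Module.Finite k V] (hV : ∀ b ∈ V, IsFiniteLevel b) :
    ∃ L : IntermediateField ℚ QBar, FiniteDimensional ℚ L ∧ Normal ℚ L ∧
      ∀ σ : Gal, (∀ x ∈ L, σ x = x) → r σ = 1 ∧ ∀ b ∈ V, b σ = 0 := by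
  obtain ⟨L₀, hL₀, h₀⟩ := hr
  let e := Module.finBasis k V
  choose Lb hLb hb using fun i => hV (e i : Gal → M2 k) (e i).2
  let M : IntermediateField ℚ QBar := L₀ ⊔ ⨆ i, Lb i
  haveI : FiniteDimensional ℚ M := inferInstance
  haveI : Normal ℚ QBar := IsAlgClosure.normal ℚ QBar
  haveI : IsGalois ℚ QBar := ⟨⟩
  refine ⟨IntermediateField.normalClosure ℚ M QBar, inferInstance,
    normalClosure.normal ℚ M QBar, fun σ hσ => ?_⟩
  have hM : ∀ x ∈ M, σ x = x := fun x hx => hσ x (M.le_normalClosure hx)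
  refine ⟨h₀ σ fun x hx => hM x (le_sup_left (α := IntermediateField ℚ QBar) hx), fun b hbV => ?_⟩
  have hz : ∀ i, (e i : Gal → M2 k) σ = 0 := fun i =>
    hb i σ fun x hx => hM x (le_sup_right (α := IntermediateField ℚ QBar)
      (le_iSup (fun j => Lb j) i hx))
  have hsum := congrArg Subtype.val (e.sum_repr ⟨b, hbV⟩)
  rw [Submodule.coe_sum] at hsum
  simp only [Submodule.coe_smul] at hsum
  rw [← hsum]
  simp [Finset.sum_apply, hz]

/-- At finite level a decomposition group is generated by Frobenius and inertia. -/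
theorem exists_frobenius_mul_inertia {q : ℕ} [Fact q.Prime] (L : IntermediateField ℚ QBar)
    [Normal ℚ L] [FiniteDimensional ℚ L] {F : Gal} (hF : (padicPlace q).IsFrobeniusAt F q)
    {σ : Gal} (hσ : σ ∈ (padicPlace q).decompositionSubgroup ℚ) :
    ∃ i : ℕ, ∃ τ ∈ (padicPlace q).inertiaSubgroupIn ℚ, ∀ x ∈ L, σ x = (F ^ i * τ) x := by
  set E := Local.localField q L with hE
  obtain ⟨hstab, hfr⟩ := isFrobeniusAt_iff_forall_mem.mp hF
  have hcomm : ∀ (g : Gal) (x : L), ((AlgEquiv.restrictNormalHom L g x : L) : QBar) = g (x : QBar) :=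
    fun g x => AlgEquiv.restrictNormal_commutes g L x
  obtain ⟨s, hs⟩ := (Local.mem_range_toGlobal_iff q L (AlgEquiv.restrictNormalHom L F)).mpr
    fun x hx => by rw [hcomm]; exact map_mem_of_mem_decomposition hstab hx
  obtain ⟨t, ht⟩ := (Local.mem_range_toGlobal_iff q L (AlgEquiv.restrictNormalHom L σ)).mpr
    fun x hx => by rw [hcomm]; exact map_mem_of_mem_decomposition hσ hx
  have hbar : ∀ y : Local.intRing E,
      Local.resMap E (Local.galInt s y) = Local.resMap E y ^ q := by
    intro y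
    obtain ⟨x, hx⟩ := Local.localEmb_dense q L (y : E) one_pos
    have hx1 : ‖Local.localEmb q L x‖ ≤ 1 := by
      rw [show Local.localEmb q L x = (y : E) + -((y : E) - Local.localEmb q L x) by ring]
      refine (IsUltrametricDist.norm_add_le_max _ _).trans (max_le y.2 ?_)
      rw [norm_neg]; exact hx.le
    have h1 : ‖s (Local.localEmb q L x) - Local.localEmb q L x ^ q‖ < 1 := by
      have h := (Local.mem_nonunits_padicPlace_iff q).mp
        (hfr x ((Local.mem_padicPlace_iff_norm q).mpr hx1))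
      rw [← hcomm, map_sub, map_pow, ← hs, Local.padicEmbedding_toGlobal] at h
      exact h
    have e1 : Local.resMap E y = Local.resMap E ⟨Local.localEmb q L x, hx1⟩ :=
      (Local.resMap_eq_iff E).mpr hx
    rw [e1, ← map_pow, ← Local.resAut_resMap s y, e1, Local.resAut_resMap, Local.resMap_eq_iff]
    exact h1
  have hfrob : Local.resAut E s =
      FiniteField.frobeniusAlgEquivOfAlgebraic (ZMod q) (Local.ResField E) := by
    refine AlgEquiv.ext fun c => ?_
    obtain ⟨y, rfl⟩ := Local.resMap_surjective E c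
    rw [Local.resAut_resMap, hbar]
    simp [ZMod.card]
  obtain ⟨i, hi⟩ := (FiniteField.bijective_frobeniusAlgEquivOfAlgebraic_pow (ZMod q)
    (Local.ResField E)).2 (Local.resAut E t)
  have hin : (s ^ (i : ℕ))⁻¹ * t ∈ Local.inertia E := by
    show Local.resAut E _ = 1
    rw [map_mul, map_inv, map_pow, hfrob, inv_mul_eq_one]
    exact hi
  obtain ⟨τ, hτ, hτeq⟩ := Local.exists_inertia_of_mem_inertia q L hin
  refine ⟨i, τ, hτ, fun x hx => ?_⟩
  have h2 : AlgEquiv.restrictNormalHom L σ = AlgEquiv.restrictNormalHom L (F ^ (i : ℕ) * τ) := by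
    rw [map_mul, map_pow, hτeq, map_mul, map_inv, map_pow, hs, ht, mul_inv_cancel_left]
  rw [← hcomm σ ⟨x, hx⟩, h2, hcomm]

/-- A cocycle of level `L` takes equal values on elements that agree on `L`. -/
theorem IsAdCocycle.eq_of_agree {r : Gal →* M2 k} {b : Gal → M2 k} (hb : IsAdCocycle r b)
    {L : IntermediateField ℚ QBar} (hL : ∀ σ : Gal, (∀ x ∈ L, σ x = x) → b σ = 0)
    {σ σ' : Gal} (h : ∀ x ∈ L, σ x = σ' x) : b σ = b σ' :=
  hb.congr (hL _ fun x hx => by
    rw [AlgEquiv.mul_apply, h x hx]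
    exact σ'.symm_apply_apply x)

theorem map_eq_of_agree {r : Gal →* M2 k} {L : IntermediateField ℚ QBar}
    (hL : ∀ σ : Gal, (∀ x ∈ L, σ x = x) → r σ = 1) {σ σ' : Gal} (h : ∀ x ∈ L, σ x = σ' x) :
    r σ = r σ' := by
  have e := hL (σ'⁻¹ * σ) fun x hx => by
    rw [AlgEquiv.mul_apply, h x hx]; exact σ'.symm_apply_apply x
  calc r σ = r σ' * r (σ'⁻¹ * σ) := by rw [← map_mul, mul_inv_cancel_left]
    _ = r σ' := by rw [e, mul_one]

end Fermat.Agent.CFT.Tangent
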