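import Fermat.Agent.CFT.Tangent.SplitField
import Fermat.Agent.CFT.TWPrimes.Irred
import Fermat.Agent.CFT.TWPrimes.Cocycle
import Fermat.Agent.CFT.Euler.Values
import Fermat.Agent.CFT.Euler.SplitCompare

/-!
Trace zero matrices as a module under conjugation, the trace pairing, and its twisted form in the
roots of unity of `ℚ̄`.
-/

set_option autoImplicit false
set_option linter.unusedSectionVars false
set_option linter.style.haveILetI false

noncomputable section

namespace Fermat.Agent.CFT.Tangent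

open Fermat.Agent.Arith Fermat.Agent.Deform Fermat.Agent.CFT.Euler Fermat.Agent.CFT.Idele

variable {k : Type} [Field k] {G : Type} [Group G]

/-- Trace zero matrices, acted on by conjugation. -/
def AdMod (_ρ : G →* M2 k) : Type := LinearMap.ker (Matrix.traceLinearMap (Fin 2) k k)

namespace AdMod

variable (ρ : G →* M2 k)

instance : AddCommGroup (AdMod ρ) :=
  inferInstanceAs (AddCommGroup (LinearMap.ker (Matrix.traceLinearMap (Fin 2) k k)))

instance : Module k (AdMod ρ) :=
  inferInstanceAs (Module k (LinearMap.ker (Matrix.traceLinearMap (Fin 2) k k)))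

instance [Finite k] : Finite (AdMod ρ) :=
  inferInstanceAs (Finite (LinearMap.ker (Matrix.traceLinearMap (Fin 2) k k)))

instance : Module.Finite k (AdMod ρ) :=
  inferInstanceAs (Module.Finite k (LinearMap.ker (Matrix.traceLinearMap (Fin 2) k k)))

variable {ρ}

/-- The underlying matrix. -/
def val : AdMod ρ →ₗ[k] M2 k := (LinearMap.ker (Matrix.traceLinearMap (Fin 2) k k)).subtype

theorem trace_val (X : AdMod ρ) : (val X).trace = 0 := X.2

theorem val_injective : Function.Injective (val (ρ := ρ)) := Subtype.val_injective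

/-- A trace zero matrix as an element. -/
def mk (X : M2 k) (hX : X.trace = 0) : AdMod ρ := ⟨X, hX⟩

theorem val_mk (X : M2 k) (hX : X.trace = 0) : val (mk (ρ := ρ) X hX) = X := rfl

instance : DistribMulAction G (AdMod ρ) where
  smul g X := mk (ρ g * val X * ρ g⁻¹) (by rw [trace_conj_map, trace_val])
  one_smul X := val_injective (by
    show ρ 1 * val X * ρ 1⁻¹ = val X
    rw [inv_one, map_one, one_mul, mul_one])
  mul_smul a b X := val_injective (by
    show ρ (a * b) * val X * ρ (a * b)⁻¹ = ρ a * (ρ b * val X * ρ b⁻¹) * ρ a⁻¹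
    simp only [map_mul, mul_inv_rev, mul_assoc])
  smul_zero g := val_injective (by
    show ρ g * val (0 : AdMod ρ) * ρ g⁻¹ = val (0 : AdMod ρ)
    rw [map_zero, mul_zero, zero_mul])
  smul_add g X Y := val_injective (by
    show ρ g * val (X + Y) * ρ g⁻¹ = _
    rw [map_add, mul_add, add_mul]
    rfl)

theorem val_smul (g : G) (X : AdMod ρ) : val (g • X) = ρ g * val X * ρ g⁻¹ := rfl

theorem nsmul_eq_zero (p : ℕ) [CharP k p] (X : AdMod ρ) : p • X = 0 := by
  rw [← Nat.cast_smul_eq_nsmul k, CharP.cast_eq_zero k p, zero_smul]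

end AdMod

variable (p : ℕ) [hp : Fact p.Prime] [CharP k p]

theorem exists_functional : ∃ l : k →+ ZMod p, l 1 ≠ 0 := by
  have hk : ∀ x : k, p • x = 0 := fun x => by
    rw [nsmul_eq_mul, CharP.cast_eq_zero k p, zero_mul]
  letI : Module (ZMod p) k := AddCommGroup.zmodModule (G := k) (n := p) hk
  obtain ⟨l, hl⟩ : ∃ l : k →ₗ[ZMod p] ZMod p, l (1:k) ≠ 0 := by
    by_contra hne
    push Not at hne
    exact one_ne_zero ((Module.forall_dual_apply_eq_zero_iff (ZMod p) (1 : k)).mp hne)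
  exact ⟨l.toAddMonoidHom, hl⟩

variable (k) in
/-- A nonzero functional on the coefficient field. -/
def lamF : k →+ ZMod p := (exists_functional (k := k) p).choose

theorem eq_zero_of_lamF {a : k} (h : ∀ b, lamF k p (a * b) = 0) : a = 0 := by
  by_contra ha
  have h1 := h a⁻¹
  rw [mul_inv_cancel₀ ha] at h1
  exact (exists_functional (k := k) p).choose_spec h1

/-- The trace pairing with a matrix. -/
def pairF (ρ : G →* M2 k) : M2 k →+ AdMod ρ →+ ZMod p :=
  AddMonoidHom.mk' (fun Y => AddMonoidHom.mk' (fun X => lamF k p (AdMod.val X * Y).trace)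
      fun X X' => by rw [map_add, add_mul, Matrix.trace_add, map_add])
    fun Y Y' => AddMonoidHom.ext fun X => by
      show lamF k p (AdMod.val X * (Y + Y')).trace =
        lamF k p (AdMod.val X * Y).trace + lamF k p (AdMod.val X * Y').trace
      rw [mul_add, Matrix.trace_add, map_add]

theorem pairF_apply (ρ : G →* M2 k) (Y : M2 k) (X : AdMod ρ) :
    pairF p ρ Y X = lamF k p (AdMod.val X * Y).trace := rfl

theorem eq_zero_of_pairF (ρ : G →* M2 k) (h2 : (2 : k) ≠ 0) {Y : M2 k} (hY : Y.trace = 0)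
    (h : pairF p ρ Y = 0) : Y = 0 := by
  have key : ∀ X : M2 k, X.trace = 0 → (X * Y).trace = 0 := fun X hX => by
    refine eq_zero_of_lamF p fun b => ?_
    have h1 := DFunLike.congr_fun h (b • AdMod.mk (ρ := ρ) X hX)
    rw [pairF_apply, map_smul, AdMod.val_mk, smul_mul_assoc, Matrix.trace_smul, smul_eq_mul] at h1
    rw [mul_comm]
    exact h1
  have e01 := key !![0, 1; 0, 0] (by simp [Matrix.trace_fin_two])
  have e10 := key !![0, 0; 1, 0] (by simp [Matrix.trace_fin_two])
  have e00 := key !![1, 0; 0, -1] (by simp [Matrix.trace_fin_two])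
  simp [Matrix.trace_fin_two, Matrix.vecMul, dotProduct, Fin.sum_univ_two] at e01 e10 e00
  rw [Matrix.trace_fin_two] at hY
  have h00 : Y 0 0 = 0 := (mul_eq_zero.mp (show (2 : k) * Y 0 0 = 0 by
    linear_combination e00 + hY)).resolve_left h2
  ext i j
  fin_cases i <;> fin_cases j
  · exact h00
  · exact e10
  · exact e01
  · show Y 1 1 = 0
    linear_combination hY - h00

theorem exists_pairF_eq [Finite k] (ρ : G →* M2 k) (h2 : (2 : k) ≠ 0) (ν : AdMod ρ →+ ZMod p) :
    ∃ Y : M2 k, Y.trace = 0 ∧ pairF p ρ Y = ν := by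
  haveI : Finite (AdMod ρ →+ ZMod p) := finite_dual
  let f : AdMod ρ → (AdMod ρ →+ ZMod p) := fun Y => pairF p ρ (AdMod.val Y)
  have hinj : Function.Injective f := fun Y Y' h => sub_eq_zero.mp (AdMod.val_injective (by
    rw [map_zero]
    refine eq_zero_of_pairF p ρ h2 (AdMod.trace_val (Y - Y')) ?_
    rw [map_sub AdMod.val, map_sub]
    exact sub_eq_zero.mpr h))
  have hbij := (Nat.bijective_iff_injective_and_card f).mpr
    ⟨hinj, (card_dual (AdMod.nsmul_eq_zero p)).symm⟩
  obtain ⟨Y, hY⟩ := hbij.2 ν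
  exact ⟨AdMod.val Y, AdMod.trace_val Y, hY⟩

/-- A primitive root of unity of order `p` in `ℚ̄`. -/
theorem exists_zetaP : ∃ z : QBarˣ, IsPrimitiveRoot (z : QBar) p := by
  haveI : NeZero p := ⟨hp.out.ne_zero⟩
  obtain ⟨ζ, hζ⟩ := HasEnoughRootsOfUnity.exists_primitiveRoot QBar p
  exact ⟨(hζ.isUnit hp.out.ne_zero).unit, by rwa [IsUnit.unit_spec]⟩

/-- The chosen root of unity. -/
def zetaP : QBarˣ := (exists_zetaP p).choose

theorem zetaP_spec : IsPrimitiveRoot (zetaP p : QBar) p := (exists_zetaP p).choose_spec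

theorem zetaP_pow : zetaP p ^ p = 1 :=
  Units.ext (by rw [Units.val_pow_eq_pow_val, (zetaP_spec p).pow_eq_one, Units.val_one])

/-- The powers of the root of unity. -/
def muP : ZMod p →+ Additive QBarˣ :=
  ZMod.lift p ⟨zmultiplesHom _ (Additive.ofMul (zetaP p)), by
    rw [zmultiplesHom_apply, natCast_zsmul, ← ofMul_pow, zetaP_pow, ofMul_one]⟩

theorem muP_natCast (n : ℕ) : muP p (n : ZMod p) = Additive.ofMul (zetaP p ^ n) := by
  rw [muP, show (n : ZMod p) = ((n : ℤ) : ZMod p) from (Int.cast_natCast n).symm, ZMod.lift_coe]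
  show (n : ℤ) • Additive.ofMul (zetaP p) = _
  rw [natCast_zsmul, ofMul_pow]

theorem muP_injective : Function.Injective (muP p) := (injective_iff_map_eq_zero _).mpr fun n hn => by
  haveI : NeZero p := ⟨hp.out.ne_zero⟩
  obtain ⟨m, rfl⟩ : ∃ m : ℕ, (m : ZMod p) = n := ⟨n.val, ZMod.natCast_zmod_val n⟩
  rw [muP_natCast] at hn
  refine (ZMod.natCast_eq_zero_iff m p).mpr ((zetaP_spec p).dvd_of_pow_eq_one m ?_)
  exact (Units.val_pow_eq_pow_val _ _).symm.trans
    ((congrArg (fun z : Additive QBarˣ => (z.toMul : QBar)) hn).trans Units.val_one)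

theorem exists_muP_eq {z : Additive QBarˣ} (hz : p • z = 0) : ∃ n, muP p n = z := by
  haveI : NeZero p := ⟨hp.out.ne_zero⟩
  obtain ⟨i, -, hi⟩ := (zetaP_spec p).eq_pow_of_pow_eq_one (ξ := (z.toMul : QBar)) (by
    rw [← Units.val_pow_eq_pow_val, ← toMul_nsmul, hz, toMul_zero, Units.val_one])
  refine ⟨(i : ZMod p), ?_⟩
  rw [muP_natCast]
  exact Additive.toMul.injective (Units.ext ((Units.val_pow_eq_pow_val _ _).trans hi))

theorem exists_cycA (σ : GQ) : ∃ a : ℕ, ∀ μ : QBar, μ ^ p = 1 → σ μ = μ ^ a := by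
  haveI : NeZero p := ⟨hp.out.ne_zero⟩
  obtain ⟨a, -, ha⟩ := (zetaP_spec p).eq_pow_of_pow_eq_one (ξ := σ (zetaP p : QBar)) (by
    rw [← map_pow, (zetaP_spec p).pow_eq_one, map_one])
  refine ⟨a, fun μ hμ => ?_⟩
  obtain ⟨j, -, rfl⟩ := (zetaP_spec p).eq_pow_of_pow_eq_one hμ
  rw [map_pow, ← ha, ← pow_mul, ← pow_mul, mul_comm]

theorem smul_muP {σ : GQ} {a : ℕ} (ha : ∀ μ : QBar, μ ^ p = 1 → σ μ = μ ^ a) (n : ZMod p) :
    σ • muP p n = muP p ((a : ZMod p) * n) := by
  haveI : NeZero p := ⟨hp.out.ne_zero⟩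
  obtain ⟨m, rfl⟩ : ∃ m : ℕ, (m : ZMod p) = n := ⟨n.val, ZMod.natCast_zmod_val n⟩
  rw [← Nat.cast_mul, muP_natCast, muP_natCast]
  refine Additive.toMul.injective (Units.ext ?_)
  show σ ((zetaP p ^ m : QBarˣ) : QBar) = ((zetaP p ^ (a * m) : QBarˣ) : QBar)
  rw [Units.val_pow_eq_pow_val, Units.val_pow_eq_pow_val, map_pow,
    ha _ (zetaP_spec p).pow_eq_one, ← pow_mul]

/-- The twisted pairing: a matrix as a homomorphism into the roots of unity. -/
def deltaM (ρ : G →* M2 k) : M2 k →+ AdMod ρ →+ Additive QBarˣ :=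
  AddMonoidHom.mk' (fun Y => (muP p).comp (pairF p ρ Y)) fun Y Y' => by
    rw [map_add, AddMonoidHom.comp_add]

theorem deltaM_apply (ρ : G →* M2 k) (Y : M2 k) (X : AdMod ρ) :
    deltaM p ρ Y X = muP p (pairF p ρ Y X) := rfl

theorem eq_zero_of_deltaM (ρ : G →* M2 k) (h2 : (2 : k) ≠ 0) {Y : M2 k} (hY : Y.trace = 0)
    (h : deltaM p ρ Y = 0) : Y = 0 :=
  eq_zero_of_pairF p ρ h2 hY (AddMonoidHom.ext fun X => muP_injective p (by
    rw [AddMonoidHom.zero_apply, map_zero]
    exact DFunLike.congr_fun h X))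

theorem eq_of_deltaM (ρ : G →* M2 k) (h2 : (2 : k) ≠ 0) {Y Y' : M2 k} (hY : Y.trace = 0)
    (hY' : Y'.trace = 0) (h : deltaM p ρ Y = deltaM p ρ Y') : Y = Y' :=
  sub_eq_zero.mp (eq_zero_of_deltaM p ρ h2 (by rw [Matrix.trace_sub, hY, hY', sub_zero])
    (by rw [map_sub, h, sub_self]))

theorem exists_deltaM_eq [Finite k] (ρ : G →* M2 k) (h2 : (2 : k) ≠ 0)
    (e : AdMod ρ →+ Additive QBarˣ) (he : ∀ X, p • e X = 0) :
    ∃ Y : M2 k, Y.trace = 0 ∧ deltaM p ρ Y = e := by
  choose n hn using fun X => exists_muP_eq p (he X)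
  let ν : AdMod ρ →+ ZMod p := AddMonoidHom.mk' n fun X X' => muP_injective p (by
    rw [map_add, hn, hn, hn, map_add])
  obtain ⟨Y, hY, hν⟩ := exists_pairF_eq p ρ h2 ν
  refine ⟨Y, hY, AddMonoidHom.ext fun X => ?_⟩
  rw [deltaM_apply, hν]
  exact hn X

section Galois

variable (r : GQ →* M2 k) {K : IntermediateField ℚ QBar} [FiniteDimensional ℚ K] [Normal ℚ K]
  (hK : ∀ σ, res K σ = 1 → r σ = 1)

theorem val_res_smul (σ : GQ) (X : AdMod (galRep r hK)) :
    AdMod.val (res K σ • X) = r σ * AdMod.val X * r σ⁻¹ := by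
  rw [AdMod.val_smul, galRep_res, ← map_inv, galRep_res]

/-- Conjugation by the Galois group becomes the twisted adjoint action. -/
theorem smul_deltaM (hcyc : ∀ (σ : GQ) (a : ℕ), (∀ μ : QBar, μ ^ p = 1 → σ μ = μ ^ a) →
      (r σ).det = (a : k)) (σ : GQ) (Y : M2 k) (X : AdMod (galRep r hK)) :
    σ • deltaM p (galRep r hK) Y ((res K σ)⁻¹ • X) =
      deltaM p (galRep r hK) (TWPrimes.ad r σ Y) X := by
  obtain ⟨a, ha⟩ := exists_cycA p σ
  rw [deltaM_apply, deltaM_apply, smul_muP p ha, pairF_apply, pairF_apply, ← map_inv, val_res_smul,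
    inv_inv, TWPrimes.ad_apply, hcyc σ a ha, mul_smul_comm, Matrix.trace_smul, smul_eq_mul,
    ← nsmul_eq_mul (α := k), map_nsmul, nsmul_eq_mul]
  congr 3
  rw [mul_assoc, mul_assoc, Matrix.trace_mul_comm]
  simp only [mul_assoc]

theorem fixPts_eq_bot (hr : TWPrimes.TWHyp r) :
    fixPts (K ≃ₐ[ℚ] K) (AdMod (galRep r hK)) = ⊥ := by
  rw [eq_bot_iff]
  intro X hX
  by_contra h0
  refine hr.no_adjoint_line (fun h => h0 (AdMod.val_injective (h.trans (map_zero _).symm)))
    (AdMod.trace_val X) fun σ => ⟨1, ?_⟩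
  have h := congrArg AdMod.val (hX (res K σ))
  rw [val_res_smul] at h
  rw [one_smul]
  conv_rhs => rw [← h]
  rw [mul_assoc (r σ * AdMod.val X), map_inv_mul, mul_one]

/-- A regular element bounds the invariants. -/
theorem card_fixPts_le [Finite k] (h2 : (2 : k) ≠ 0) (H : Subgroup (K ≃ₐ[ℚ] K)) (φ : GQ)
    (hφ : res K φ ∈ H) (hd : (r φ).det = 1) (ht : (r φ).trace ^ 2 ≠ 4) :
    Nat.card (fixPts H (AdMod (galRep r hK))) ≤ Nat.card k := by
  set C : M2 k := r φ - ((r φ).trace / 2) • 1 with hC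
  have hCt : C.trace = 0 := by
    rw [hC, Matrix.trace_sub, Matrix.trace_smul, Matrix.trace_one, Fintype.card_fin, smul_eq_mul]
    push_cast
    field_simp
    ring
  have hC0 : C ≠ 0 := fun h => ht (by
    have e := congrArg Matrix.det (sub_eq_zero.mp h)
    rw [hd, Matrix.det_smul, Fintype.card_fin, Matrix.det_one, mul_one] at e
    field_simp at e
    linear_combination -e)
  have key : ∀ X : fixPts H (AdMod (galRep r hK)),
      ∃ c : k, AdMod.val (X : AdMod (galRep r hK)) = c • C := fun X => by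
    refine TWPrimes.exists_smul_of_commute h2 (AdMod.trace_val _) hCt hC0 ?_
    have h := congrArg AdMod.val (X.2 ⟨res K φ, hφ⟩)
    change AdMod.val (res K φ • (X : AdMod (galRep r hK))) = _ at h
    rw [val_res_smul] at h
    have h1 : r φ * AdMod.val (X : AdMod (galRep r hK)) = AdMod.val (X : AdMod (galRep r hK)) * r φ := by
      conv_rhs => rw [← h]
      rw [mul_assoc (r φ * _), map_inv_mul, mul_one]
    rw [hC, mul_sub, sub_mul, h1, mul_smul_comm, smul_mul_assoc, mul_one, one_mul]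
  choose c hc using key
  exact Nat.card_le_card_of_injective c fun X X' h => Subtype.ext (AdMod.val_injective (by
    rw [hc, hc, h]))

/-- The invariant functionals of an involution of determinant `-1`. -/
theorem card_le_fixDual [Finite k] (h2 : (2 : k) ≠ 0) (c : Subgroup (K ≃ₐ[ℚ] K))
    (g : K ≃ₐ[ℚ] K) (hc : ∀ h ∈ c, h = 1 ∨ h = g) (M : M2 k) (hM : galRep r hK g = M)
    (hMt : M.trace = 0) (hM0 : M ≠ 0) :
    Nat.card k ≤ Nat.card (fixDual p c (AdMod (galRep r hK))) := by
  haveI : Finite (AdMod (galRep r hK) →+ ZMod p) := finite_dual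
  let f : k → fixDual p c (AdMod (galRep r hK)) := fun a =>
    ⟨pairF p _ (a • M), fun h X => by
      show pairF p _ (a • M) ((h : K ≃ₐ[ℚ] K) • X) = pairF p _ (a • M) X
      rcases hc _ h.2 with e | e <;> rw [e]
      · rw [one_smul]
      · rw [pairF_apply, pairF_apply, AdMod.val_smul, hM, mul_smul_comm, mul_smul_comm,
          Matrix.trace_smul, Matrix.trace_smul, mul_assoc (M * _), ← hM, map_inv_mul, mul_one,
          Matrix.trace_mul_comm]⟩
  refine Nat.card_le_card_of_injective f fun a a' h => ?_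
  have h' : pairF p (galRep r hK) ((a - a') • M) = 0 := by
    rw [sub_smul, map_sub, sub_eq_zero]
    exact congrArg Subtype.val h
  have := eq_zero_of_pairF p _ h2 (by rw [Matrix.trace_smul, hMt, smul_zero]) h'
  exact sub_eq_zero.mp ((smul_eq_zero.mp this).resolve_right hM0)

end Galois

end Fermat.Agent.CFT.Tangent
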