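import Fermat.Agent.CFT.Tangent.AdModule
import Fermat.Agent.CFT.Euler.GlobalCount
import Fermat.Agent.CFT.Euler.KummerClass
import Fermat.Agent.CFT.TWPrimes.Vanishing
import Fermat.Agent.CFT.TWPrimes.Main
import Fermat.Prelude.Def_GaloisRep_ComplexConjugation

/-!
Kummer classes as matrix cocycles for the twisted adjoint action; vanishing of the first cohomology
with values in the roots of unity; the complex conjugations.
-/

set_option autoImplicit false
set_option synthInstance.maxHeartbeats 200000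
set_option linter.unusedSectionVars false
set_option linter.style.haveILetI false

noncomputable section

namespace Fermat.Agent.CFT.Tangent

open Fermat.Agent.Arith Fermat.Agent.Deform Fermat.Agent.CFT.Euler Fermat.Agent.CFT.Idele
open Fermat.Agent.CFT.Duality IntermediateField NumberField

local instance factPrimeKummerMatrix (q : Nat.Primes) : Fact (q : ℕ).Prime := ⟨q.2⟩

variable {k : Type} [Field k] [Finite k] (p : ℕ) [hp : Fact p.Prime] [CharP k p]
  (r : GQ →* M2 k) {K : IntermediateField ℚ QBar} [FiniteDimensional ℚ K] [Normal ℚ K]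
  (hK : ∀ σ, res K σ = 1 → r σ = 1)
  (hcyc : ∀ (σ : GQ) (a : ℕ), (∀ μ : QBar, μ ^ p = 1 → σ μ = μ ^ a) → (r σ).det = (a : k))

include hcyc in
omit [Finite k] in
/-- All prime-to-`p` integers are determinants. -/
theorem exists_det_eq (a : ℕ) (ha : ¬p ∣ a) : ∃ σ, (r σ).det = (a : k) := by
  haveI : NeZero p := ⟨hp.out.ne_zero⟩
  obtain ⟨ξ, hξ⟩ := HasEnoughRootsOfUnity.exists_primitiveRoot QBar p
  obtain ⟨σ, hσ⟩ := Fermat.Agent.Arith.Chebotarev.autToPow_surjective hξ
    (ZMod.unitOfCoprime a ((Nat.Prime.coprime_iff_not_dvd hp.out).mpr ha).symm)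
  refine ⟨σ, hcyc σ a fun μ hμ => ?_⟩
  obtain ⟨i, -, rfl⟩ := hξ.eq_pow_of_pow_eq_one hμ
  have e := hξ.autToPow_spec ℚ σ
  rw [hσ, ZMod.coe_unitOfCoprime, ZMod.val_natCast, ← pow_eq_pow_mod a hξ.pow_eq_one] at e
  rw [map_pow, ← e, pow_right_comm]

section Units

variable (K) (T : Finset Nat.Primes) (hζK : ((zetaP p : QBarˣ) : QBar) ∈ K)

/-- The root of unity as a `T`-unit. -/
def zetaT : TUnits K T :=
  ⟨Additive.ofMul (Units.mk0 (⟨(zetaP p : QBar), hζK⟩ : K)
    (fun h => (zetaP p).ne_zero (congrArg Subtype.val h))), fun q _ σ => by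
    set z : Kˣ := Units.mk0 (⟨(zetaP p : QBar), hζK⟩ : K)
      (fun h => (zetaP p).ne_zero (congrArg Subtype.val h))
    have hz : z ^ p = 1 := Units.ext (Subtype.ext (by
      rw [Units.val_pow_eq_pow_val, SubmonoidClass.coe_pow]
      exact (zetaP_spec p).pow_eq_one))
    show val (prinL K z) q σ ∈ Local.unitGroup (E K q)
    rw [Local.mem_unitGroup]
    refine (pow_eq_one_iff_of_nonneg (norm_nonneg _) hp.out.ne_zero).mp ?_
    rw [← norm_pow, ← Units.val_pow_eq_pow_val,
      show val (prinL K z) q σ = valHom q σ (prinL K z) from rfl,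
      ← map_pow, ← map_pow, hz, map_one, map_one, Units.val_one, norm_one]⟩

theorem toBar_zetaT : TUnits.toBar K T (zetaT p K T hζK) = Additive.ofMul (zetaP p) :=
  Additive.toMul.injective (Units.ext rfl)

theorem nsmul_zetaT : p • zetaT p K T hζK = 0 := TUnits.toBar_injective K T (by
  rw [map_nsmul, toBar_zetaT, map_zero, ← ofMul_pow, zetaP_pow, ofMul_one])

/-- The powers of the root of unity as `T`-units. -/
def muT : ZMod p →+ TUnits K T :=
  ZMod.lift p ⟨zmultiplesHom _ (zetaT p K T hζK), by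
    rw [zmultiplesHom_apply, natCast_zsmul, nsmul_zetaT]⟩

theorem toBar_muT (n : ZMod p) : TUnits.toBar K T (muT p K T hζK n) = muP p n := by
  haveI : NeZero p := ⟨hp.out.ne_zero⟩
  obtain ⟨m, rfl⟩ : ∃ m : ℕ, (m : ZMod p) = n := ⟨n.val, ZMod.natCast_zmod_val n⟩
  rw [muP_natCast, muT, show (m : ZMod p) = ((m : ℤ) : ZMod p) from (Int.cast_natCast m).symm,
    ZMod.lift_coe]
  show TUnits.toBar K T ((m : ℤ) • zetaT p K T hζK) = _
  rw [natCast_zsmul, map_nsmul, toBar_zetaT, ofMul_pow]

end Units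

variable {T : Finset Nat.Primes} (h2 : (2 : k) ≠ 0)

include h2 hcyc in
/-- Twisted homomorphisms into the units have trivial first cohomology. -/
theorem tUnitsH1Zero_adMod (hr : TWPrimes.TWHyp r) (hKr : ∀ σ, r σ = 1 → res K σ = 1)
    (hζK : ((zetaP p : QBarˣ) : QBar) ∈ K) : TUnitsH1Zero K T (AdMod (galRep r hK)) := by
  intro c hc
  have hkill : ∀ σ X, p • ((TUnits.toBar K T).comp (c (res K σ))) X = 0 := fun σ X => by
    rw [← map_nsmul, AdMod.nsmul_eq_zero, map_zero]
  choose b hbt hb using fun σ => exists_deltaM_eq p (galRep r hK) h2 _ (hkill σ)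
  have hcoc : TWPrimes.IsCocycle r b := by
    refine ⟨hbt, fun σ τ => eq_of_deltaM p (galRep r hK) h2 (hbt _) ?_ (AddMonoidHom.ext fun X => ?_)⟩
    · rw [Matrix.trace_add, TWPrimes.trace_ad, hbt, hbt, mul_zero, add_zero]
    · rw [map_add, AddMonoidHom.add_apply, ← smul_deltaM p r hK hcyc, hb, hb, hb,
        AddMonoidHom.comp_apply, AddMonoidHom.comp_apply, AddMonoidHom.comp_apply, map_mul, hc,
        map_add, TUnits.toBar_smul]
  have hker : ∀ σ, r σ = 1 → b σ = 0 := fun σ hσ => by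
    refine eq_zero_of_deltaM p (galRep r hK) h2 (hbt σ) (AddMonoidHom.ext fun X => ?_)
    have h1 := hc 1 1 X
    rw [mul_one, inv_one, one_smul, one_smul, left_eq_add] at h1
    rw [hb, AddMonoidHom.comp_apply, hKr σ hσ, h1, map_zero]
    rfl
  obtain ⟨Y, -, hY⟩ := TWPrimes.exists_coboundary p (exists_det_eq p r hcyc) hr hcoc hker
  refine ⟨(muT p K T hζK).comp (pairF p (galRep r hK) Y), fun g X => ?_⟩
  obtain ⟨σ, rfl⟩ : ∃ σ, res K σ = g := ⟨Idele.lift K g, res_lift K g⟩
  refine TUnits.toBar_injective K T ?_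
  rw [map_sub, TUnits.toBar_smul, AddMonoidHom.comp_apply, AddMonoidHom.comp_apply, toBar_muT,
    toBar_muT, ← deltaM_apply, ← deltaM_apply, smul_deltaM p r hK hcyc,
    ← AddMonoidHom.sub_apply, ← map_sub,
    show TWPrimes.ad r σ Y - Y = b σ from (hY σ).symm, hb]
  rfl

variable [Fintype (K ≃ₐ[ℚ] K)] (X : Pres p (K ≃ₐ[ℚ] K) (AdMod (galRep r hK)))
  (hfull : ∀ x : X.P, x ∈ X.K) (u : equivHom (C := TUnits K T) X.hS)

include h2 in
theorem exists_kumMat (σ : GQ) :
    ∃ Y : M2 k, Y.trace = 0 ∧ deltaM p (galRep r hK) Y = kum X u hfull σ :=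
  exists_deltaM_eq p (galRep r hK) h2 _ fun Z => kum_pow X u hfull (AdMod.nsmul_eq_zero p) σ Z

/-- The Kummer class as a matrix cocycle. -/
def kumMat (σ : GQ) : M2 k := (exists_kumMat p r hK h2 X hfull u σ).choose

theorem trace_kumMat (σ : GQ) : (kumMat p r hK h2 X hfull u σ).trace = 0 :=
  (exists_kumMat p r hK h2 X hfull u σ).choose_spec.1

theorem deltaM_kumMat (σ : GQ) :
    deltaM p (galRep r hK) (kumMat p r hK h2 X hfull u σ) = kum X u hfull σ :=
  (exists_kumMat p r hK h2 X hfull u σ).choose_spec.2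

include hcyc in
theorem isCocycle_kumMat : TWPrimes.IsCocycle r (kumMat p r hK h2 X hfull u) := by
  refine ⟨trace_kumMat p r hK h2 X hfull u, fun σ τ => ?_⟩
  refine eq_of_deltaM p (galRep r hK) h2 (trace_kumMat p r hK h2 X hfull u _) ?_
    (AddMonoidHom.ext fun Z => ?_)
  · rw [Matrix.trace_add, TWPrimes.trace_ad, trace_kumMat, trace_kumMat, mul_zero, add_zero]
  · rw [map_add, AddMonoidHom.add_apply, ← smul_deltaM p r hK hcyc, deltaM_kumMat, deltaM_kumMat,
      deltaM_kumMat, Euler.kum_mul]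

theorem exists_level_kumMat : ∃ F : IntermediateField ℚ QBar, FiniteDimensional ℚ F ∧
    ∀ σ : GQ, (∀ x ∈ F, σ x = x) → kumMat p r hK h2 X hfull u σ = 0 := by
  obtain ⟨F, hF, hF'⟩ := exists_level_kum X u hfull
  exact ⟨F, hF, fun σ hσ => eq_zero_of_deltaM p _ h2 (trace_kumMat p r hK h2 X hfull u σ)
    ((deltaM_kumMat p r hK h2 X hfull u σ).trans (hF' σ hσ))⟩

include hcyc in
/-- A global coboundary comes from an extension. -/
theorem mem_range_of_kumMat (Y : M2 k)
    (hY : ∀ σ, kumMat p r hK h2 X hfull u σ = TWPrimes.cobd r Y σ) :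
    u ∈ (X.res (TUnits K T)).range := by
  refine mem_range_of_kum_eq X u hfull (AdMod.nsmul_eq_zero p) (deltaM p (galRep r hK) Y)
    fun σ Z => ?_
  rw [← deltaM_kumMat p r hK h2 X hfull u, hY, TWPrimes.cobd, map_sub, AddMonoidHom.sub_apply,
    smul_deltaM p r hK hcyc]

include hcyc in
/-- A class which extends locally is a local coboundary. -/
theorem exists_cobd_of_local (q : Nat.Primes) [Fintype (decomp K q)]
    (Y : equivHom (C := LocUnits K q) (X.restrict (decomp K q)).hK)
    (hY : ∀ s : X.S, Y.1 (AddSubgroup.inclusion X.le s) = tLoc q (u.1 s)) :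
    ∃ Z : M2 k, Z.trace = 0 ∧ ∀ σ ∈ (padicPlace (q : ℕ)).decompositionSubgroup ℚ,
      kumMat p r hK h2 X hfull u σ = TWPrimes.cobd r Z σ := by
  obtain ⟨e, he, hke⟩ := exists_kum_eq_of_local X u hfull (AdMod.nsmul_eq_zero p) q Y hY
  obtain ⟨Z, hZt, hZ⟩ := exists_deltaM_eq p (galRep r hK) h2 e he
  refine ⟨Z, hZt, fun σ hσ => eq_of_deltaM p (galRep r hK) h2 (trace_kumMat p r hK h2 X hfull u σ)
    ?_ (AddMonoidHom.ext fun W => ?_)⟩
  · rw [TWPrimes.cobd, Matrix.trace_sub, TWPrimes.trace_ad, hZt, mul_zero, sub_zero]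
  · rw [deltaM_kumMat, hke σ hσ W, TWPrimes.cobd, map_sub, AddMonoidHom.sub_apply,
      ← smul_deltaM p r hK hcyc, hZ]

omit [Fintype (K ≃ₐ[ℚ] K)] in
include hcyc h2 in
/-- The chosen complex conjugation of the splitting field. -/
theorem exists_infStab_gen (hp2 : p ≠ 2) (hζK : ((zetaP p : QBarˣ) : QBar) ∈ K) :
    haveI : NumberField K := ⟨⟩
    ∃ (g : K ≃ₐ[ℚ] K) (M : M2 k), (∀ h ∈ infStab K, h = 1 ∨ h = g) ∧
      galRep r hK g = M ∧ M.trace = 0 ∧ M ≠ 0 := by
  haveI : NumberField K := ⟨⟩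
  haveI : IsGalois ℚ K := ⟨⟩
  let φ : K →+* ℂ := (complexEmbedding.toRingHom).comp K.val.toRingHom
  obtain ⟨h, hh⟩ : ∃ h : K ≃ₐ[ℚ] K, h • InfinitePlace.mk φ = Classical.arbitrary (InfinitePlace K) :=
    InfinitePlace.exists_smul_eq_of_comap_eq (Subsingleton.elim _ _)
  set s := Idele.lift K h
  set σ : GQ := s * complexConjugation * s⁻¹ with hσ
  have hcc : ∀ μ : QBar, μ ^ p = 1 → complexConjugation μ = μ ^ (p - 1) := fun μ hμ => by
    refine complexEmbedding.injective ?_
    show complexEmbedding (complexConjugation μ) = complexEmbedding (μ ^ (p - 1))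
    rw [complexEmbedding_complexConjugation, map_pow]
    have h1 : complexEmbedding μ ^ p = 1 := by rw [← map_pow, hμ, map_one]
    rw [← Complex.inv_eq_conj (Complex.norm_eq_one_of_pow_eq_one h1 hp.out.ne_zero),
      inv_eq_of_mul_eq_one_right]
    rw [← pow_succ', Nat.sub_add_cancel hp.out.one_le, h1]
  have hcc' : ∀ μ : QBar, μ ^ p = 1 → σ μ = μ ^ (p - 1) := fun μ hμ => by
    have hμ' : (s⁻¹ μ) ^ p = 1 := by rw [← map_pow, hμ, map_one]
    rw [hσ, AlgEquiv.mul_apply, AlgEquiv.mul_apply, hcc _ hμ', map_pow]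
    congr 1
    exact s.apply_symm_apply μ
  have hdet : (r σ).det = -1 := by
    rw [hcyc σ (p - 1) hcc', Nat.cast_sub hp.out.one_le, CharP.cast_eq_zero k p, Nat.cast_one,
      zero_sub]
  have hsq : r σ * r σ = 1 := by
    rw [← map_mul, hσ, show s * complexConjugation * s⁻¹ * (s * complexConjugation * s⁻¹) =
      s * (complexConjugation * complexConjugation) * s⁻¹ by group, complexConjugation_mul_self,
      mul_one, mul_inv_cancel, map_one]
  have hne : r σ ≠ 0 := fun h0 => by simp [h0] at hsq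
  have htr : (r σ).trace = 0 := by
    have h1 := TWPrimes.mul_self_eq (r σ)
    rw [hsq, hdet, neg_smul, one_smul, sub_neg_eq_add, right_eq_add] at h1
    exact (smul_eq_zero.mp h1).resolve_right hne
  refine ⟨res K σ, r σ, fun x hx => ?_, galRep_res r hK σ, htr, hne⟩
  have hg1 : res K σ ≠ 1 := fun h0 => by
    have h1 := congrArg (fun g : K ≃ₐ[ℚ] K => ((g ⟨(zetaP p : QBar), hζK⟩ : K) : QBar)) h0
    change ((res K σ ⟨(zetaP p : QBar), hζK⟩ : K) : QBar) = (zetaP p : QBar) at h1
    rw [res_apply, hcc' _ (zetaP_spec p).pow_eq_one] at h1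
    have h3 : 3 ≤ p := by have := hp.out.two_le; omega
    have := (zetaP_spec p).pow_inj (i := p - 1) (j := 1) (by omega) (by omega) (by rw [h1, pow_one])
    omega
  have hgmem : res K σ ∈ infStab K := by
    show res K σ • Classical.arbitrary (InfinitePlace K) = _
    have hc : res K complexConjugation • InfinitePlace.mk φ = InfinitePlace.mk φ := by
      rw [InfinitePlace.smul_mk]
      refine (InfinitePlace.mk_eq_iff.mpr (Or.inr (RingHom.ext fun x => ?_)))
      show starRingEnd ℂ (complexEmbedding ((res K complexConjugation).symm x : K)) = _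
      rw [← complexEmbedding_complexConjugation, ← res_apply, AlgEquiv.apply_symm_apply]
      rfl
    rw [← hh, hσ, map_mul, map_mul, map_inv, res_lift, mul_smul, mul_smul, inv_smul_smul, hc]
  by_contra hx'
  push Not at hx'
  have h3 : 3 ≤ Nat.card (infStab K) := by
    classical
    haveI : Fintype (infStab K) := Fintype.ofFinite _
    rw [Nat.card_eq_fintype_card]
    refine le_trans ?_ (Finset.card_le_univ
      ({1, ⟨res K σ, hgmem⟩, ⟨x, hx⟩} : Finset (infStab K)))
    rw [Finset.card_insert_of_notMem, Finset.card_pair]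
    · exact fun e => hx'.2 (congrArg Subtype.val e).symm
    · rw [Finset.mem_insert, Finset.mem_singleton, not_or]
      exact ⟨fun e => hg1 (congrArg Subtype.val e).symm,
        fun e => hx'.1 (congrArg Subtype.val e).symm⟩
  rcases InfinitePlace.nat_card_stabilizer_eq_one_or_two ℚ (Classical.arbitrary (InfinitePlace K))
    with e | e <;>
  · rw [show Nat.card (infStab K) = _ from e] at h3
    omega

end Fermat.Agent.CFT.Tangent
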