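import Fermat.Agent.CFT.Tangent.LocalPlace
import Fermat.Agent.CFT.TWPrimes.Mat
import Fermat.Agent.Mazur.Eisenstein.Tame

/-!
Local bounds for tangent classes: unramified and unipotent conditions.
-/

set_option autoImplicit false
set_option synthInstance.maxHeartbeats 200000
set_option linter.style.haveILetI false

noncomputable section

namespace Fermat.Agent.CFT.Tangent

open Fermat.Agent.Deform Fermat.Agent.Arith Module
open scoped Pointwise

variable {k : Type} [Field k] {r : Gal →* M2 k}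

/-- The bound at an unramified prime. -/
theorem finrank_le_unramified {q : ℕ} [Fact q.Prime] (hr : GaloisFactorsThroughFiniteLevel r)
    (V : Submodule k (Gal → M2 k)) [Module.Finite k V]
    (hcoc : ∀ b ∈ V, IsAdCocycle r b) (hlev : ∀ b ∈ V, IsFiniteLevel b)
    (htr : ∀ b ∈ V, ∀ σ, (b σ).trace = 0)
    (hr1 : ∀ τ ∈ (padicPlace q).inertiaSubgroupIn ℚ, r τ = 1)
    (hb0 : ∀ b ∈ V, ∀ τ ∈ (padicPlace q).inertiaSubgroupIn ℚ, b τ = 0) :
    finrank k V ≤ finrank k (V ⊓ cobdOn r ((padicPlace q).decompositionSubgroup ℚ) :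
        Submodule k (Gal → M2 k)) +
      finrank k (fixedOn r ((padicPlace q).decompositionSubgroup ℚ)) := by
  set D := (padicPlace q).decompositionSubgroup ℚ with hDdef
  obtain ⟨F, hF⟩ := exists_isFrobeniusAt (Local.padicPlace_liesOverPrime q) (Fact.out : q.Prime)
  obtain ⟨L, hLf, hLn, hL⟩ := exists_common_level hr V hlev
  let sl : Submodule k (M2 k) := LinearMap.ker (Matrix.traceLinearMap (Fin 2) k k)
  have hsl : ∀ X, X ∈ sl ↔ X.trace = 0 := fun X => LinearMap.mem_ker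
  let T : sl →ₗ[k] sl :=
    { toFun := fun X => ⟨cobdLin r (X : M2 k) F, (hsl _).mpr (trace_cobdLin r _ F)⟩
      map_add' := fun X Y => Subtype.ext (congrFun (map_add (cobdLin r) (X : M2 k) Y) F)
      map_smul' := fun c X => Subtype.ext (congrFun (map_smul (cobdLin r) c (X : M2 k)) F) }
  let Λ : V →ₗ[k] sl ⧸ LinearMap.range T := (LinearMap.range T).mkQ.comp
    (LinearMap.codRestrict sl ((LinearMap.proj F).comp V.subtype)
      fun b => (hsl _).mpr (htr _ b.2 F))
  have hagree : ∀ σ ∈ D, ∃ i : ℕ, r σ = r (F ^ i) ∧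
      ∀ b, IsAdCocycle r b → (∀ τ : Gal, (∀ x ∈ L, τ x = x) → b τ = 0) →
        (∀ τ ∈ (padicPlace q).inertiaSubgroupIn ℚ, b τ = 0) → b σ = b (F ^ i) := by
    intro σ hσ
    obtain ⟨i, τ, hτ, he⟩ := exists_frobenius_mul_inertia L hF hσ
    refine ⟨i, ?_, fun b hb hbL hbI => ?_⟩
    · rw [map_eq_of_agree (fun τ h => (hL τ h).1) he, map_mul, hr1 τ hτ, mul_one]
    · rw [hb.eq_of_agree hbL he, hb, hbI τ hτ, mul_zero, zero_mul, zero_add]
  have hW : finrank k (sl ⧸ LinearMap.range T) ≤ finrank k (fixedOn r D) := by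
    have h1 := T.finrank_range_add_finrank_ker
    have h2 := (LinearMap.range T).finrank_quotient_add_finrank
    have h3 : finrank k (LinearMap.ker T) ≤ finrank k (fixedOn r D) := by
      rw [← (Submodule.equivSubtypeMap sl (LinearMap.ker T)).finrank_eq.symm]
      refine Submodule.finrank_mono ?_
      rintro _ ⟨X, hX, rfl⟩
      have hX' : r F * (X : M2 k) * r F⁻¹ = X :=
        sub_eq_zero.mp (congrArg Subtype.val (LinearMap.mem_ker.mp hX))
      refine ⟨(hsl _).mp X.2, fun s hs => ?_⟩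
      obtain ⟨i, hi, -⟩ := hagree s hs
      have hi' : r s⁻¹ = r (F ^ i)⁻¹ := by
        calc r s⁻¹ = r s⁻¹ * (r (F ^ i) * r (F ^ i)⁻¹) := by rw [map_mul_inv, mul_one]
          _ = r (F ^ i)⁻¹ := by rw [← mul_assoc, ← hi, map_inv_mul, one_mul]
      show r s * (X : M2 k) * r s⁻¹ = X
      rw [hi, hi']
      clear hi hi'
      induction i with
      | zero => simp
      | succ i ih =>
        calc r (F ^ (i + 1)) * (X : M2 k) * r (F ^ (i + 1))⁻¹
            = r (F ^ i) * (r F * (X : M2 k) * r F⁻¹) * r (F ^ i)⁻¹ := by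
              rw [pow_succ, mul_inv_rev, map_mul, map_mul]; simp only [mul_assoc]
          _ = (X : M2 k) := by rw [hX', ih]
    omega
  refine (finrank_le_inf_add le_sup_left Λ fun b hb => ?_).trans (Nat.add_le_add_left hW _)
  obtain ⟨X, hX⟩ := (Submodule.Quotient.mk_eq_zero _).mp hb
  refine ⟨X, (hsl _).mp X.2, fun s hs => ?_⟩
  have hXF : cobdLin r (X : M2 k) F = (b : Gal → M2 k) F := congrArg Subtype.val hX
  have hc : IsAdCocycle r ((b : Gal → M2 k) - cobdLin r (X : M2 k)) :=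
    (hcoc _ b.2).sub (isAdCocycle_cobdLin r _)
  obtain ⟨i, -, hi⟩ := hagree s hs
  have hcob : ∀ σ : Gal, r σ = 1 → cobdLin r (X : M2 k) σ = 0 := fun σ hσ => by
    have h := map_mul_inv r σ
    rw [hσ, one_mul] at h
    rw [cobdLin_apply, hσ, h, one_mul, mul_one, sub_self]
  have h0 := hi _ hc
    (fun τ hτ => by rw [Pi.sub_apply, (hL τ hτ).2 _ b.2, hcob τ (hL τ hτ).1, sub_zero])
    (fun τ hτ => by rw [Pi.sub_apply, hb0 _ b.2 τ hτ, hcob τ (hr1 τ hτ), sub_zero])
  rw [hc.pow_eq_zero (by rw [Pi.sub_apply, hXF, sub_self]), Pi.sub_apply, sub_eq_zero] at h0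
  exact h0

/-- The bound at a prime where inertia acts by nontrivial unipotents. -/
theorem finrank_le_unipotent (p : ℕ) [Fact p.Prime] [CharP k p] (h2 : (2 : k) ≠ 0)
    {q : ℕ} [Fact q.Prime] (hqp : q ≠ p) (hr : GaloisFactorsThroughFiniteLevel r)
    (V : Submodule k (Gal → M2 k)) [Module.Finite k V]
    (hcoc : ∀ b ∈ V, IsAdCocycle r b) (hlev : ∀ b ∈ V, IsFiniteLevel b)
    (htr : ∀ b ∈ V, ∀ σ, (b σ).trace = 0)
    (hr1 : ∀ τ ∈ (padicPlace q).inertiaSubgroupIn ℚ, (r τ).trace = 2 ∧ (r τ).det = 1)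
    (hne : ∃ τ ∈ (padicPlace q).inertiaSubgroupIn ℚ, r τ ≠ 1)
    (hb0 : ∀ b ∈ V, ∀ τ ∈ (padicPlace q).inertiaSubgroupIn ℚ, (b τ * r τ).trace = 0) :
    finrank k V ≤ finrank k (V ⊓ cobdOn r ((padicPlace q).decompositionSubgroup ℚ) :
        Submodule k (Gal → M2 k)) +
      finrank k (fixedOn r ((padicPlace q).decompositionSubgroup ℚ)) := by
  have hp : p.Prime := Fact.out
  have hq : q.Prime := Fact.out
  have hA := Local.padicPlace_liesOverPrime q
  set D := (padicPlace q).decompositionSubgroup ℚ with hDdef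
  set I := (padicPlace q).inertiaSubgroupIn ℚ with hIdef
  obtain ⟨L, hLf, hLn, hL⟩ := exists_common_level hr V hlev
  -- the joint kernel
  let K : Subgroup Gal :=
    { carrier := {σ | r σ = 1 ∧ ∀ b ∈ V, b σ = 0}
      one_mem' := ⟨map_one r, fun b hb => (hcoc b hb).one⟩
      mul_mem' := fun {a c} ha hc => ⟨by rw [map_mul, ha.1, hc.1, one_mul], fun b hb => by
        rw [hcoc b hb, hc.2 b hb, ha.2 b hb]; simp⟩
      inv_mem' := fun {a} ha => by
        have h1 : r a⁻¹ = 1 := by have h := map_inv_mul r a; rwa [ha.1, mul_one] at h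
        refine ⟨h1, fun b hb => ?_⟩
        have h := hcoc b hb a⁻¹ a
        rw [inv_mul_cancel, (hcoc b hb).one, ha.2 b hb, mul_zero, zero_mul, zero_add] at h
        exact h.symm }
  haveI hKn : K.Normal := ⟨fun σ hσ g => by
    refine ⟨by rw [map_mul, map_mul, hσ.1, mul_one, map_mul_inv], fun b hb => ?_⟩
    have h1 : r (g * σ * g⁻¹) = 1 := by rw [map_mul, map_mul, hσ.1, mul_one, map_mul_inv]
    have h1' : r (g * σ * g⁻¹)⁻¹ = 1 := by
      have h := map_inv_mul r (g * σ * g⁻¹); rwa [h1, mul_one] at h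
    rw [(hcoc b hb).conj, hσ.2 b hb, h1, h1', mul_zero, zero_mul, zero_add, one_mul, mul_one,
      sub_self]⟩
  let L' : IntermediateField ℚ QBar := IntermediateField.fixedField K
  haveI : Normal ℚ QBar := IsAlgClosure.normal ℚ QBar
  haveI : IsGalois ℚ QBar := ⟨⟩
  have hKL : L.fixingSubgroup ≤ K := fun σ hσ => hL σ ((IntermediateField.mem_fixingSubgroup_iff L σ).mp hσ)
  have hKopen : IsOpen (K : Set Gal) := Subgroup.isOpen_mono hKL L.fixingSubgroup_isOpen
  have hKclosed : IsClosed (K : Set Gal) := Subgroup.isClosed_of_isOpen K hKopen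
  have hfixK : L'.fixingSubgroup = K := InfiniteGalois.fixingSubgroup_fixedField ⟨K, hKclosed⟩
  haveI : FiniteDimensional ℚ L' := by
    have : L' ≤ L := by
      intro x hx
      rw [← InfiniteGalois.fixedField_fixingSubgroup L, IntermediateField.mem_fixedField_iff]
      exact fun g hg => (IntermediateField.mem_fixedField_iff K x).mp hx g (hKL hg)
    exact FiniteDimensional.of_injective (IntermediateField.inclusion this).toLinearMap
      (IntermediateField.inclusion this).injective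
  haveI : IsGalois ℚ L' := (InfiniteGalois.normal_iff_isGalois L').mp (hfixK ▸ hKn)
  have hmemK : ∀ σ : Gal, (∀ x ∈ L', σ x = x) → σ ∈ K := fun σ hσ =>
    hfixK ▸ (IntermediateField.mem_fixingSubgroup_iff L' σ).mpr hσ
  -- unipotents
  have hsq : ∀ τ ∈ I, (r τ - 1) * (r τ - 1) = 0 := fun τ hτ => by
    have h := TWPrimes.mul_self_eq (r τ)
    rw [(hr1 τ hτ).1, (hr1 τ hτ).2] at h
    rw [sub_mul, mul_sub, h, mul_one, one_mul]
    module
  have hpp : ∀ τ ∈ I, τ ^ (p * p) ∈ K := by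
    intro τ hτ
    have hrp : r (τ ^ p) = 1 := by
      have h := TWPrimes.pow_one_add (hsq τ hτ) p
      rwa [add_sub_cancel, CharP.cast_eq_zero, zero_smul, add_zero, ← map_pow] at h
    have hrp' : r (τ ^ p)⁻¹ = 1 := by
      have h := map_inv_mul r (τ ^ p); rwa [hrp, mul_one] at h
    refine ⟨by rw [pow_mul, map_pow, hrp, one_pow], fun b hb => ?_⟩
    have hn : ∀ n : ℕ, b ((τ ^ p) ^ n) = (n : k) • b (τ ^ p) := by
      intro n
      induction n with
      | zero => simpa using (hcoc b hb).one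
      | succ n ih =>
        rw [pow_succ', hcoc b hb, hrp, hrp', one_mul, mul_one, ih, Nat.cast_succ, add_smul, one_smul]
    rw [pow_mul, hn, CharP.cast_eq_zero, zero_smul]
  have hpow : ∀ σ ∈ I, ∃ c : ℕ, ∀ x ∈ L', (σ ^ p ^ c) x = x := fun σ hσ =>
    ⟨2, fun x hx => (IntermediateField.mem_fixedField_iff K x).mp hx _ (by
      rw [sq]; exact hpp σ hσ)⟩
  obtain ⟨π, hπ⟩ := IsAlgClosed.exists_pow_nat_eq (q : QBar) hp.pos
  obtain ⟨σ₀, hσ₀, hσ₀π⟩ := Mazur.Eisenstein.exists_inertia_ne hA hq hp hπ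
  have hgen : ∀ τ ∈ I, ∃ m : ℕ, ∀ x ∈ L', τ x = (σ₀ ^ m) x := fun τ hτ =>
    Mazur.Eisenstein.exists_pow_eq hA hq hp (Ne.symm hqp) hπ hσ₀ hσ₀π L' hpow hτ
  have hrL' : ∀ σ : Gal, (∀ x ∈ L', σ x = x) → r σ = 1 := fun σ hσ => (hmemK σ hσ).1
  set N := r σ₀ - 1 with hNdef
  have hN : N * N = 0 := hsq σ₀ hσ₀
  have hrpow : ∀ m : ℕ, r (σ₀ ^ m) = 1 + (m : k) • N := fun m => by
    rw [map_pow, ← TWPrimes.pow_one_add hN m, hNdef, add_sub_cancel]
  have hN0 : N ≠ 0 := by
    intro h0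
    obtain ⟨τ, hτ, hτne⟩ := hne
    obtain ⟨m, hm⟩ := hgen τ hτ
    exact hτne (by rw [map_eq_of_agree hrL' hm, hrpow, h0, smul_zero, add_zero])
  have hNtr : N.trace = 0 := TWPrimes.trace_eq_zero_of_sq hN
  have hrσ₀ : r σ₀ = 1 + N := by rw [hNdef, add_sub_cancel]
  have hrσ₀' : r σ₀⁻¹ = 1 - N := by
    have h := map_inv_mul r σ₀
    calc r σ₀⁻¹ = r σ₀⁻¹ * ((1 + N) * (1 - N)) := by
          rw [show (1 + N) * (1 - N) = (1 : M2 k) by
            rw [add_mul, one_mul, mul_sub, mul_one, hN]; abel, mul_one]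
      _ = 1 - N := by rw [← mul_assoc, ← hrσ₀, h, one_mul]
  have hcommN : ∀ X : M2 k, X.trace = 0 → X * (1 + N) = (1 + N) * X → ∃ c : k, X = c • N :=
    fun X hX h => TWPrimes.exists_smul_of_commute h2 hX hNtr hN0 (by
      rw [mul_add, add_mul, mul_one, one_mul, add_left_cancel_iff] at h; exact h)
  -- coboundaries reach all of the orthogonal of `N`
  let sl : Submodule k (M2 k) := LinearMap.ker (Matrix.traceLinearMap (Fin 2) k k)
  have hsl : ∀ X, X ∈ sl ↔ X.trace = 0 := fun X => LinearMap.mem_ker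
  have hreach : ∀ Y : M2 k, Y.trace = 0 → (Y * N).trace = 0 →
      ∃ X : M2 k, cobdLin r X σ₀ = Y := by
    let T : sl →ₗ[k] sl :=
      { toFun := fun X => ⟨cobdLin r (X : M2 k) σ₀, (hsl _).mpr (trace_cobdLin r _ σ₀)⟩
        map_add' := fun X Y => Subtype.ext (congrFun (map_add (cobdLin r) (X : M2 k) Y) σ₀)
        map_smul' := fun c X => Subtype.ext (congrFun (map_smul (cobdLin r) c (X : M2 k)) σ₀) }
    let φ : sl →ₗ[k] k := (Matrix.traceLinearMap (Fin 2) k k).comp
      ((LinearMap.mulRight k N).comp sl.subtype)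
    have hker : finrank k (LinearMap.ker T) ≤ 1 := by
      rw [← (Submodule.equivSubtypeMap sl (LinearMap.ker T)).finrank_eq.symm]
      refine (Submodule.finrank_mono (t := k ∙ N) ?_).trans (finrank_span_singleton hN0).le
      rintro _ ⟨X, hX, rfl⟩
      have hX' : r σ₀ * (X : M2 k) * r σ₀⁻¹ = X :=
        sub_eq_zero.mp (congrArg Subtype.val (LinearMap.mem_ker.mp hX))
      have h := congrArg (fun Z => Z * r σ₀) hX'
      simp only [mul_assoc, map_inv_mul, mul_one] at h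
      obtain ⟨c, hc⟩ := hcommN _ ((hsl _).mp X.2) (by rw [← hrσ₀]; exact h.symm)
      exact Submodule.mem_span_singleton.mpr ⟨c, hc.symm⟩
    have hle : LinearMap.range T ≤ LinearMap.ker φ := by
      rintro _ ⟨X, rfl⟩
      rw [LinearMap.mem_ker]
      show ((r σ₀ * (X : M2 k) * r σ₀⁻¹ - (X : M2 k)) * N).trace = 0
      have e : r σ₀⁻¹ * N = N * r σ₀⁻¹ := by
        rw [hrσ₀']; noncomm_ring
      rw [sub_mul, Matrix.trace_sub, mul_assoc, e, ← mul_assoc, mul_assoc (r σ₀) (X : M2 k) N,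
        trace_conj_map, sub_self]
    have hφ : LinearMap.ker φ ≠ ⊤ := by
      intro htop
      have hall : ∀ Z : M2 k, (Z * N).trace = 0 := by
        intro Z
        have hZ : (Z - (Z.trace / 2) • 1) ∈ sl := (hsl _).mpr (by
          rw [Matrix.trace_sub, Matrix.trace_smul, Matrix.trace_one, Fintype.card_fin, smul_eq_mul]
          push_cast; field_simp; ring)
        have h : φ ⟨_, hZ⟩ = 0 := LinearMap.mem_ker.mp (htop ▸ Submodule.mem_top)
        change ((Z - (Z.trace / 2) • (1 : M2 k)) * N).trace = 0 at h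
        rwa [sub_mul, Matrix.trace_sub, smul_mul_assoc, one_mul, Matrix.trace_smul, hNtr,
          smul_zero, sub_zero] at h
      refine hN0 (Matrix.ext fun i j => ?_)
      have h := hall (Matrix.single j i 1)
      rwa [Matrix.trace_single_mul, one_smul] at h
    have heq : LinearMap.range T = LinearMap.ker φ := by
      refine Submodule.eq_of_le_of_finrank_le hle ?_
      have h1 := T.finrank_range_add_finrank_ker
      have h2' := Submodule.finrank_lt hφ
      omega
    intro Y hY hYN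
    have hmem : (⟨Y, (hsl _).mpr hY⟩ : sl) ∈ LinearMap.ker φ := LinearMap.mem_ker.mpr hYN
    rw [← heq] at hmem
    obtain ⟨X, hX⟩ := hmem
    exact ⟨X, congrArg Subtype.val hX⟩
  -- normalised classes
  let ev : (Gal → M2 k) →ₗ[k] M2 k := LinearMap.proj σ₀
  set V₀ : Submodule k (Gal → M2 k) :=
    (V ⊔ LinearMap.range (cobdLin r)) ⊓ LinearMap.ker ev with hV₀
  have hV : V ≤ V₀ ⊔ cobdOn r D := by
    intro b hb
    have hbσ : (b σ₀ * N).trace = 0 := by
      have h := hb0 b hb σ₀ hσ₀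
      rwa [hrσ₀, mul_add, mul_one, Matrix.trace_add, htr b hb σ₀, zero_add] at h
    obtain ⟨X, hX⟩ := hreach (b σ₀) (htr b hb σ₀) hbσ
    refine Submodule.mem_sup.mpr ⟨b - cobdLin r X, ⟨sub_mem (Submodule.mem_sup_left hb)
      (Submodule.mem_sup_right (LinearMap.mem_range_self _ X)), ?_⟩, cobdLin r X,
      cobdLin_mem_cobdOn h2 D X, sub_add_cancel _ _⟩
    show b σ₀ - cobdLin r X σ₀ = 0
    rw [hX, sub_self]
  have hV₀' : ∀ b ∈ V₀, IsAdCocycle r b ∧ (∀ σ, (b σ).trace = 0) ∧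
      (∀ σ : Gal, (∀ x ∈ L', σ x = x) → b σ = 0) ∧ b σ₀ = 0 := by
    rintro b ⟨hb, hbσ₀⟩
    obtain ⟨u, hu, _, ⟨X, rfl⟩, rfl⟩ := Submodule.mem_sup.mp hb
    refine ⟨(hcoc u hu).add (isAdCocycle_cobdLin r X),
      fun σ => by rw [Pi.add_apply, Matrix.trace_add, htr u hu, trace_cobdLin, add_zero],
      fun σ hσ => ?_, hbσ₀⟩
    have h1 := hrL' σ hσ
    have h1' : r σ⁻¹ = 1 := by have h := map_inv_mul r σ; rwa [h1, mul_one] at h
    rw [Pi.add_apply, (hmemK σ hσ).2 u hu, cobdLin_apply, h1, h1', one_mul, mul_one, sub_self,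
      add_zero]
  have hI0 : ∀ b ∈ V₀, ∀ τ ∈ I, b τ = 0 := by
    intro b hb τ hτ
    obtain ⟨hc, -, hlev', h0⟩ := hV₀' b hb
    obtain ⟨m, hm⟩ := hgen τ hτ
    rw [hc.eq_of_agree hlev' hm, hc.pow_eq_zero h0]
  obtain ⟨F, hF⟩ := exists_isFrobeniusAt hA hq
  have hFD : F ∈ D := hF.1
  have hconjI : ∀ s ∈ D, s * σ₀ * s⁻¹ ∈ I := fun s hs => by
    have h := (mem_inertia_smul_iff (g := s)).mpr hσ₀
    rwa [show s • padicPlace q = padicPlace q from hs] at h
  have hscale : ∀ s ∈ D, ∃ m : ℕ, (m : k) ≠ 0 ∧ r s * N * r s⁻¹ = (m : k) • N ∧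
      r (s * σ₀ * s⁻¹) = 1 + (m : k) • N := by
    intro s hs
    obtain ⟨m, hm⟩ := hgen _ (hconjI s hs)
    have e := map_eq_of_agree hrL' hm
    rw [hrpow] at e
    have e' : r s * N * r s⁻¹ = (m : k) • N := by
      have e2 := e
      rw [map_mul, map_mul, hrσ₀, mul_add, mul_one, add_mul, map_mul_inv] at e2
      exact add_left_cancel e2
    refine ⟨m, fun h0 => hN0 ?_, e', e⟩
    rw [h0, zero_smul] at e'
    calc N = r s⁻¹ * (r s * N * r s⁻¹) * r s := by
          rw [← mul_assoc, ← mul_assoc, map_inv_mul, one_mul, mul_assoc, map_inv_mul, mul_one]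
      _ = 0 := by rw [e', mul_zero, zero_mul]
  have hline : ∀ b ∈ V₀, ∀ s ∈ D, ∃ c : k, b s = c • N := by
    intro b hb s hs
    obtain ⟨hc, htr', -, h0⟩ := hV₀' b hb
    obtain ⟨m, hm0, -, e⟩ := hscale s hs
    have h := hc.conj s σ₀
    rw [hI0 b hb _ (hconjI s hs), h0, mul_zero, zero_mul, zero_add, eq_comm, sub_eq_zero] at h
    have h' : b s * (1 + (m : k) • N) = (1 + (m : k) • N) * b s := by
      rw [← e]
      conv_lhs => rw [h]
      rw [mul_assoc, map_inv_mul, mul_one]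
    refine hcommN _ (htr' s) ?_
    rw [mul_add, add_mul, mul_one, one_mul, add_left_cancel_iff] at h' ⊢
    rw [mul_smul_comm, smul_mul_assoc] at h'
    exact smul_right_injective (M2 k) hm0 h'
  have hvanish : ∀ b : Gal → M2 k, IsAdCocycle r b → (∀ σ : Gal, (∀ x ∈ L', σ x = x) → b σ = 0) →
      b F = 0 → (∀ τ ∈ I, b τ = 0) → ∀ s ∈ D, b s = 0 := by
    intro b hc hlev' hbF hbI s hs
    obtain ⟨i, τ, hτ, he⟩ := exists_frobenius_mul_inertia L' hF hs
    rw [hc.eq_of_agree hlev' he, hc, hbI τ hτ, hc.pow_eq_zero hbF]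
    simp
  obtain ⟨m, hm0, hmN, -⟩ := hscale F hFD
  by_cases hm1 : (m : k) = 1
  · have hfix : N ∈ fixedOn r D := by
      refine ⟨hNtr, fun s hs => ?_⟩
      obtain ⟨i, τ, hτ, he⟩ := exists_frobenius_mul_inertia L' hF hs
      obtain ⟨j, hj⟩ := hgen τ hτ
      have hs1 : r s = r F ^ i * (1 + (j : k) • N) := by
        rw [map_eq_of_agree hrL' he, map_mul, map_eq_of_agree hrL' hj, hrpow, map_pow]
      have hF' : r F * N = N * r F := by
        have h := congrArg (fun Z => Z * r F) hmN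
        simp only [hm1, one_smul, mul_assoc, map_inv_mul, mul_one] at h
        exact h
      have hs2 : r s * N = N * r s := by
        rw [hs1]
        exact (Commute.mul_left (Commute.pow_left hF' i)
          ((Commute.one_left N).add_left ((Commute.refl N).smul_left _)))
      rw [hs2, mul_assoc, map_mul_inv, mul_one]
    let e := LinearEquiv.toSpanNonzeroSingleton k (M2 k) N hN0
    have hbF : ∀ b : V₀, (b : Gal → M2 k) F ∈ k ∙ N := fun b => by
      obtain ⟨c, hc⟩ := hline b b.2 F hFD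
      exact Submodule.mem_span_singleton.mpr ⟨c, hc.symm⟩
    let Λ : V₀ →ₗ[k] (k ∙ N : Submodule k (M2 k)) :=
      LinearMap.codRestrict _ ((LinearMap.proj F).comp V₀.subtype) hbF
    refine (finrank_le_inf_add hV Λ fun b hb => ?_).trans (Nat.add_le_add_left
      (Submodule.finrank_mono ((Submodule.span_singleton_le_iff_mem _ _).mpr hfix)) _)
    obtain ⟨hc, -, hlev', -⟩ := hV₀' b b.2
    exact ⟨0, by simp, fun s hs => by
      rw [hvanish b hc hlev' (congrArg Subtype.val hb) (hI0 b b.2) s hs]; simp⟩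
  · let Λ : V₀ →ₗ[k] (⊥ : Submodule k (M2 k)) := 0
    refine (finrank_le_inf_add hV Λ fun b _ => ?_).trans
      (Nat.add_le_add_left (by rw [finrank_bot]; exact Nat.zero_le _) _)
    obtain ⟨hc, -, hlev', -⟩ := hV₀' b b.2
    obtain ⟨c, hbc⟩ := hline b b.2 F hFD
    set X : M2 k := (c / ((m : k) - 1)) • N with hX
    have hXI : ∀ τ ∈ I, cobdLin r X τ = 0 := by
      intro τ hτ
      obtain ⟨j, hj⟩ := hgen τ hτ
      have hcm : r τ * N = N * r τ := by
        rw [map_eq_of_agree hrL' hj, hrpow]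
        exact ((Commute.one_left N).add_left ((Commute.refl N).smul_left _))
      rw [cobdLin_apply, hX, mul_smul_comm, smul_mul_assoc, hcm, mul_assoc, map_mul_inv, mul_one,
        sub_self]
    have hXF : cobdLin r X F = (b : Gal → M2 k) F := by
      rw [cobdLin_apply, hX, mul_smul_comm, smul_mul_assoc, hmN, hbc, smul_smul, ← sub_smul]
      congr 1
      have : (m : k) - 1 ≠ 0 := sub_ne_zero.mpr hm1
      field_simp
    have hXlev : ∀ σ : Gal, (∀ x ∈ L', σ x = x) → cobdLin r X σ = 0 := fun σ hσ => by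
      have h1 := hrL' σ hσ
      have h1' : r σ⁻¹ = 1 := by have h := map_inv_mul r σ; rwa [h1, mul_one] at h
      rw [cobdLin_apply, h1, h1', one_mul, mul_one, sub_self]
    refine ⟨X, by rw [hX, Matrix.trace_smul, hNtr, smul_zero], fun s hs => ?_⟩
    have h0 := hvanish ((b : Gal → M2 k) - cobdLin r X) (hc.sub (isAdCocycle_cobdLin r X))
      (fun σ hσ => by rw [Pi.sub_apply, hlev' σ hσ, hXlev σ hσ, sub_zero])
      (by rw [Pi.sub_apply, hXF, sub_self])
      (fun τ hτ => by rw [Pi.sub_apply, hI0 b b.2 τ hτ, hXI τ hτ, sub_zero]) s hs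
    rw [Pi.sub_apply, sub_eq_zero] at h0
    exact h0

end Fermat.Agent.CFT.Tangent
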