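import Fermat.Agent.CFT.Tangent.LevelSetup
import Fermat.Agent.CFT.Tangent.KummerMatrix
import Fermat.Agent.CFT.Tangent.LocalBounds
import Fermat.Agent.CFT.Euler.LocalFormation
import Fermat.Agent.CFT.Idele.Fundamental
import Fermat.Agent.CFT.Idele.KummerHom
import Fermat.Agent.RT.Lift.Levels.Bound

/-!
The count of first order deformations at auxiliary primes detecting the Kummer classes.
-/

set_option autoImplicit false
set_option synthInstance.maxHeartbeats 200000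
set_option maxHeartbeats 1000000
set_option linter.unusedSectionVars false
set_option linter.style.haveILetI false

noncomputable section

namespace Fermat.Agent.CFT.Tangent

open ExtCitation Fermat.Agent.Arith Fermat.Agent.Deform IntermediateField Module
open Fermat.Agent.CFT.Idele Fermat.Agent.CFT.Duality Fermat.Agent.CFT.Euler

local instance factPrimeCoreCount (q : Nat.Primes) : Fact (q : ℕ).Prime := ⟨q.2⟩

variable {k : Type} [Field k] [Finite k] (p : ℕ) [hp : Fact p.Prime] [CharP k p]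
  (r : GQ →* M2 k)

omit [Field k] [Finite k] [CharP k p] in
theorem exists_card_eq_pow (M : Type*) [AddCommGroup M] [Finite M] (hM : ∀ x : M, p • x = 0) :
    ∃ a : ℕ, Nat.card M = p ^ a := by
  letI : Module (ZMod p) M := AddCommGroup.zmodModule (G := M) (n := p) hM
  haveI : Module.Finite (ZMod p) M := Module.Finite.of_finite
  exact ⟨finrank (ZMod p) M, by
    rw [Module.natCard_eq_pow_finrank (K := ZMod p) (V := M), Nat.card_zmod]⟩

omit [Field k] [Finite k] [CharP k p] in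
theorem lpN_le_of_card_le (M N : Type*) [AddCommGroup M] [Finite M] [AddCommGroup N] [Finite N]
    (hM : ∀ x : M, p • x = 0) (hN : ∀ x : N, p • x = 0) (hle : Nat.card M ≤ Nat.card N) :
    lpN p (Nat.card M) ≤ lpN p (Nat.card N) := by
  obtain ⟨a, ha⟩ := exists_card_eq_pow p M hM
  obtain ⟨b, hb⟩ := exists_card_eq_pow p N hN
  rw [ha, hb] at hle ⊢
  exact lpN_mono p (pow_dvd_pow p ((Nat.pow_le_pow_iff_right hp.out.one_lt).mp hle))
    (pow_ne_zero _ hp.out.ne_zero)

omit [Finite k] in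
theorem nsmul_eq_zero_k (x : k) : p • x = 0 := by
  rw [nsmul_eq_mul, CharP.cast_eq_zero k p, zero_mul]

/-- The local excess at `q`. -/
def excess (T' : Finset ℕ) (e : ℕ) (q : ℕ) : ℤ :=
  (if q = p then (e : ℤ) else 0) - if q ∈ T' then (RT.Lift.localH0 r q : ℤ) else 0

theorem sum_excess (T' : Finset ℕ) (e : ℕ) (T : Finset Nat.Primes) (hpT : (⟨p, hp.out⟩ : Nat.Primes) ∈ T)
    (hT' : ∀ v ∈ T', ∃ hv : v.Prime, (⟨v, hv⟩ : Nat.Primes) ∈ T) :
    ∑ v : T, excess p r T' e ((v : Nat.Primes) : ℕ) =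
      (e : ℤ) - ((∑ v ∈ T', RT.Lift.localH0 r v : ℕ) : ℤ) := by
  classical
  rw [Finset.sum_coe_sort T (fun v : Nat.Primes => excess p r T' e (v : ℕ))]
  simp only [excess, Finset.sum_sub_distrib]
  congr 1
  · exact (Finset.sum_eq_single (⟨p, hp.out⟩ : Nat.Primes)
      (fun q _ hq => if_neg fun e => hq (Subtype.ext e)) (fun h => absurd hpT h)).trans (if_pos rfl)
  · rw [← Finset.sum_filter, Nat.cast_sum]
    refine Finset.sum_bij (fun q _ => (q : ℕ)) (fun q hq => (Finset.mem_filter.mp hq).2)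
      (fun q _ q' _ e => Subtype.ext e) (fun v hv => ?_) fun q _ => rfl
    obtain ⟨hv', hmem⟩ := hT' v hv
    exact ⟨⟨v, hv'⟩, Finset.mem_filter.mpr ⟨hmem, hv⟩, rfl⟩

/-- The local bound at a prime of the level. -/
theorem finrank_le_excess (hp2 : p ≠ 2) (hrfin : GaloisFactorsThroughFiniteLevel r)
    (Smin T' : Finset ℕ) (hpS : p ∈ Smin) (hdisj : Disjoint Smin T')
    (hunr : ∀ q : ℕ, q.Prime → q ∉ Smin → ∀ A : ValuationSubring QBar, A.LiesOverPrime q →
      ∀ σ ∈ A.inertiaSubgroupIn ℚ, r σ = 1)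
    (hSmin : ∀ q ∈ Smin, q ≠ p → ∀ [Fact q.Prime],
      (∀ τ ∈ (padicPlace q).inertiaSubgroupIn ℚ, (r τ).trace = 2 ∧ (r τ).det = 1) ∧
        ∃ τ ∈ (padicPlace q).inertiaSubgroupIn ℚ, r τ ≠ 1)
    (V : Submodule k (Gal → M2 k)) [Module.Finite k V]
    (hcoc : ∀ b ∈ V, IsAdCocycle r b ∧ IsFiniteLevel b ∧ ∀ σ, (b σ).trace = 0)
    (htrS : ∀ q ∈ Smin, q ≠ p → ∀ A : ValuationSubring QBar, A.LiesOverPrime q →
      ∀ σ ∈ A.inertiaSubgroupIn ℚ, ∀ b ∈ V, (b σ * r σ).trace = 0)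
    (hT : ∀ v ∈ T', ∀ [Fact v.Prime], ∀ b ∈ V,
      b ∈ cobdOn r ((padicPlace v).decompositionSubgroup ℚ))
    {e : ℕ} (hp' : finrank k V ≤ finrank k (V ⊓ cobdOn r ((padicPlace p).decompositionSubgroup ℚ) :
        Submodule k (Gal → M2 k)) +
      finrank k (fixedOn r ((padicPlace p).decompositionSubgroup ℚ)) + e)
    (q : ℕ) [Fact q.Prime]
    (hb0 : q ∉ Smin → q ∉ T' → ∀ b ∈ V, ∀ τ ∈ (padicPlace q).inertiaSubgroupIn ℚ, b τ = 0) :
    (finrank k V : ℤ) - finrank k (V ⊓ cobdOn r ((padicPlace q).decompositionSubgroup ℚ) :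
        Submodule k (Gal → M2 k)) -
      finrank k (fixedOn r ((padicPlace q).decompositionSubgroup ℚ)) ≤ excess p r T' e q := by
  have h2 : (2 : k) ≠ 0 := fun h0 => hp2 ((Nat.prime_dvd_prime_iff_eq hp.out Nat.prime_two).mp
    ((CharP.cast_eq_zero_iff k p 2).mp (by exact_mod_cast h0)))
  have hA := Local.padicPlace_liesOverPrime q
  unfold excess
  by_cases hT' : q ∈ T'
  · have hne : q ≠ p := fun e => Finset.disjoint_left.mp hdisj hpS (e ▸ hT')
    rw [if_neg hne, if_pos hT', RT.Lift.localH0_of_prime r q]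
    have hV : V ⊓ cobdOn r ((padicPlace q).decompositionSubgroup ℚ) = V :=
      inf_eq_left.mpr fun b hb => hT q hT' b hb
    rw [hV]
    omega
  rw [if_neg hT']
  by_cases hqp : q = p
  · subst hqp
    rw [if_pos rfl]
    omega
  rw [if_neg hqp]
  by_cases hqS : q ∈ Smin
  · obtain ⟨h1, h2'⟩ := hSmin q hqS hqp
    have := finrank_le_unipotent p h2 hqp hrfin V (fun b hb => (hcoc b hb).1)
      (fun b hb => (hcoc b hb).2.1) (fun b hb => (hcoc b hb).2.2) h1 h2'
      fun b hb τ hτ => htrS q hqS hqp _ hA τ hτ b hb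
    omega
  · have := finrank_le_unramified hrfin V (fun b hb => (hcoc b hb).1)
      (fun b hb => (hcoc b hb).2.1) (fun b hb => (hcoc b hb).2.2)
      (hunr q Fact.out hqS _ hA) (hb0 hqS hT')
    omega

/-- The bound with a free slack `e` in the local condition at `p`. -/
def LiftCoreAtSlack {k : Type} [Field k] (p : ℕ) [Fact p.Prime] (r : Gal →* M2 k)
    (Smin T : Finset ℕ) {r' : ℕ} (qv : Fin r' → ℕ) : Prop :=
  ∀ (e : ℕ) (V : Submodule k (Gal → M2 k)), Module.Finite k V →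
    (∀ b ∈ V, IsAdCocycle r b ∧ IsFiniteLevel b ∧ ∀ σ, (b σ).trace = 0) →
    (∀ q : ℕ, q.Prime → q ∉ Smin → q ∉ T → (∀ i, qv i ≠ q) →
      ∀ A : ValuationSubring QBar, A.LiesOverPrime q →
        ∀ σ ∈ A.inertiaSubgroupIn ℚ, ∀ b ∈ V, b σ = 0) →
    (∀ q ∈ Smin, q ≠ p → ∀ A : ValuationSubring QBar, A.LiesOverPrime q →
      ∀ σ ∈ A.inertiaSubgroupIn ℚ, ∀ b ∈ V, (b σ * r σ).trace = 0) →
    (∀ v ∈ T, ∀ [Fact v.Prime], ∀ b ∈ V,
      b ∈ cobdOn r ((padicPlace v).decompositionSubgroup ℚ)) →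
    finrank k V ≤ finrank k (V ⊓ cobdOn r ((padicPlace p).decompositionSubgroup ℚ) :
        Submodule k (Gal → M2 k)) +
      finrank k (fixedOn r ((padicPlace p).decompositionSubgroup ℚ)) + e →
    (∀ b ∈ V, ∀ X, b = cobdLin r X → b = 0) →
    finrank k V + ∑ v ∈ T, RT.Lift.localH0 r v + 1 ≤ r' + e

omit [Finite k] [CharP k p] in
/-- Slack one gives the plain bound. -/
theorem LiftCoreAtSlack.liftCoreAt {Smin T : Finset ℕ} {r' : ℕ} {qv : Fin r' → ℕ}
    (h : LiftCoreAtSlack p r Smin T qv) : RT.Lift.LiftCoreAt p r Smin T qv := by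
  intro V hV hcoc hram htr hT hp' hindep
  have := h 1 V hV hcoc hram htr hT hp' hindep
  omega

variable {K : IntermediateField ℚ QBar} [FiniteDimensional ℚ K] [Normal ℚ K]
  [Fintype (K ≃ₐ[ℚ] K)] (hK : ∀ σ, res K σ = 1 → r σ = 1)

/-- **The count at detecting primes.** -/
theorem finrank_add_le (hp2 : p ≠ 2) (hrfin : GaloisFactorsThroughFiniteLevel r)
    (hr : TWPrimes.TWHyp r)
    (hcyc : ∀ (σ : GQ) (n : ℕ), (∀ μ : QBar, μ ^ p = 1 → σ μ = μ ^ n) → (r σ).det = (n : k))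
    (hKr : ∀ σ, r σ = 1 → res K σ = 1) (hζK : ((zetaP p : QBarˣ) : QBar) ∈ K)
    (Smin T' : Finset ℕ) (hpS : p ∈ Smin) (hdisj : Disjoint Smin T')
    (hunr : ∀ q : ℕ, q.Prime → q ∉ Smin → ∀ A : ValuationSubring QBar, A.LiesOverPrime q →
      ∀ σ ∈ A.inertiaSubgroupIn ℚ, r σ = 1)
    (hSmin : ∀ q ∈ Smin, q ≠ p → ∀ [Fact q.Prime],
      (∀ τ ∈ (padicPlace q).inertiaSubgroupIn ℚ, (r τ).trace = 2 ∧ (r τ).det = 1) ∧
        ∃ τ ∈ (padicPlace q).inertiaSubgroupIn ℚ, r τ ≠ 1)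
    (T : Finset Nat.Primes) (hpT : (⟨p, hp.out⟩ : Nat.Primes) ∈ T)
    (hgen : ∀ f : J K, ∃ a : Additive Kˣ, ∀ q ∉ T, ∀ σ,
      Idele.val (f + diag K a).toMul q σ ∈ Local.unitGroup (E K q))
    (hKur : ∀ q ∉ T, Local.inertia (E K q) = ⊥)
    (hST : ∀ q : Nat.Primes, ((q : ℕ) ∈ Smin ∨ (q : ℕ) ∈ T') → q ∈ T)
    (hT'prime : ∀ v ∈ T', v.Prime)
    {ι : Type} [Fintype ι] {ε : CFT.Lat (K ≃ₐ[ℚ] K) ι →+ AdMod (galRep r hK)}
    (hε : Presentation p ε) {r' : ℕ} (qv : Fin r' → ℕ) (hqinj : Function.Injective qv)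
    (hqv : ∀ i, (qv i).Prime ∧ qv i ≠ p ∧ p ∣ qv i - 1)
    (hqT : ∀ i, ∀ q ∈ T, ((q : Nat.Primes) : ℕ) ≠ qv i)
    (hqfrob : ∀ i, ∀ [Fact (qv i).Prime], ∃ φ ∈ (padicPlace (qv i)).decompositionSubgroup ℚ,
      (r φ).det = 1 ∧ (r φ).trace ^ 2 ≠ 4)
    (hdetect : ∀ w : equivHom (C := TUnits K T) hε.isStable_ker,
      (∀ q : Nat.Primes, (q : ℕ) ∈ Set.range qv → ∀ [Fintype (decomp K q)],
        ∃ Y : equivHom (C := LocUnits K q) ((latPres hε).restrict (decomp K q)).hK,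
          ∀ s : ε.ker, Y.1 (AddSubgroup.inclusion (latPres hε).le s) = tLoc q (w.1 s)) →
      w ∈ ((latPres hε).res (TUnits K T)).range) :
    LiftCoreAtSlack p r Smin T' qv := by
  classical
  intro e V _ hcoc hram htrS hT hp' hindep
  have h2 : (2 : k) ≠ 0 := fun h0 => hp2 ((Nat.prime_dvd_prime_iff_eq hp.out Nat.prime_two).mp
    ((CharP.cast_eq_zero_iff k p 2).mp (by exact_mod_cast h0)))
  haveI : NumberField K := ⟨⟩
  -- the auxiliary primes
  let Q : Finset Nat.Primes := Finset.univ.image fun i => (⟨qv i, (hqv i).1⟩ : Nat.Primes)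
  have hQmem : ∀ q ∈ Q, ∃ i, qv i = (q : ℕ) := fun q hq => by
    obtain ⟨i, -, rfl⟩ := Finset.mem_image.mp hq
    exact ⟨i, rfl⟩
  have hQcard : Fintype.card Q = r' := by
    rw [Fintype.card_coe]
    exact (Finset.card_image_of_injective _ fun i j e => hqinj (congrArg Subtype.val e)).trans
      (by rw [Finset.card_univ, Fintype.card_fin])
  let T₁ : Finset Nat.Primes := T ∪ Q
  have hQT : ∀ q ∈ Q, q ∉ T := fun q hq hqT' => by
    obtain ⟨i, hi⟩ := hQmem q hq
    exact hqT i q hqT' hi.symm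
  have hsub : ∀ q ∉ T₁, q ∉ T := fun q hq h => hq (Finset.mem_union_left _ h)
  have hζ := zetaP_spec p
  -- the Kummer level
  obtain ⟨L, _, _, h, -, hLur, hk, -, -, hLlast⟩ := exists_kummerExtension (p := p) (T := T₁)
    (K := K) hp2 hζ hζK (Finset.mem_union_left _ hpT) fun q hq => hKur q (hsub q hq)
  have hζ' : IsPrimitiveRoot (⟨(zetaP p : QBar), hζK⟩ : K) p :=
    hζ.of_map_of_injective (f := K.val) Subtype.val_injective
  have hζL : IsPrimitiveRoot (⟨(zetaP p : QBar), h hζK⟩ : L) p :=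
    hζ.of_map_of_injective (f := L.val) Subtype.val_injective
  obtain ⟨uK, huK⟩ := exists_fundamental K hp2 hζ'
  obtain ⟨uL, huL⟩ := exists_fundamental L hp2 hζL
  haveI : Fintype (infStab K) := Fintype.ofFinite _
  haveI : Fintype (L ≃ₐ[ℚ] L) := Fintype.ofFinite _
  letI : ∀ q : Nat.Primes, Fintype (decomp K q) := fun q => Fintype.ofFinite _
  choose uE hE using fun q : T => exists_locUnits_formation K hp2 hζ' (q : Nat.Primes)
  -- the classes
  obtain ⟨j, hj⟩ := exists_levelClasses p r hK T₁ h hLlast V hcoc fun q hq A hA σ hσ b hb =>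
    hram q q.2 (fun hS => hsub q hq (hST q (Or.inl hS))) (fun hS => hsub q hq (hST q (Or.inr hS)))
      (fun i hi => hq (Finset.mem_union_right _
        (Finset.mem_image.mpr ⟨i, Finset.mem_univ _, Subtype.ext hi⟩))) A hA σ hσ b hb
  -- the archimedean term
  obtain ⟨g, M, hc, hM, hMt, hM0⟩ := exists_infStab_gen p r hK hcyc h2 hp2 hζK
  have hd' : lpN p (Nat.card k) ≤
      lpN p (Nat.card (fixDual p (infStab K) (AdMod (galRep r hK)))) := by
    haveI : Finite (AdMod (galRep r hK) →+ ZMod p) := finite_dual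
    exact lpN_le_of_card_le p k _ (nsmul_eq_zero_k p)
      (fun x => Subtype.ext (AddMonoidHom.ext fun a => by
        show p • (x.1 a) = 0
        rw [nsmul_eq_mul, ZMod.natCast_self, zero_mul]))
      (card_le_fixDual p r hK h2 (infStab K) g hc M hM hMt hM0)
  have hbound := selmer_bound (T := T) (T₁ := T₁) (Q := Q) hε h (huL := (stepAxioms L hp2 hζL).isClassFormation uL huL)
    (hk := hk) j.range (AdMod.nsmul_eq_zero p) hp2 hζ hζK (fixPts_eq_bot r hK hr)
    (tUnitsH1Zero_adMod p r hK hcyc h2 hr hKr hζK) (lpN p (Nat.card k)) hd' hpT hgen hKur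
    (fun q => Finset.mem_union) hQT
    (fun q hq => by
      obtain ⟨i, hi⟩ := hQmem q hq
      exact hi ▸ (hqv i).2.1)
    (fun q hq => by
      obtain ⟨i, hi⟩ := hQmem q hq
      exact hi ▸ (hqv i).2.2)
    (fun q hq => by
      obtain ⟨i, hi⟩ := hQmem q hq
      haveI : Fact (qv i).Prime := ⟨(hqv i).1⟩
      obtain ⟨φ, hφ, hd, ht⟩ := hqfrob i
      refine lpN_le_of_card_le p _ k (fun x => Subtype.ext (AdMod.nsmul_eq_zero p _))
        (nsmul_eq_zero_k p) (card_fixPts_le r hK h2 _ φ (mem_decomp_of_decomposition K q ?_) hd ht)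
      have e' : q = (⟨qv i, (hqv i).1⟩ : Nat.Primes) := Subtype.ext hi.symm
      subst e'
      exact hφ)
    (stepAxioms K hp2 hζ') ((stepAxioms K hp2 hζ').isClassFormation uK huK) uE hE hLur
    (fun a ha hc' => eq_zero_of_mem_cobdSub r hK h j hj hindep a ha hc')
    (fun w hw => hdetect w fun q hq inst => by
      obtain rfl : inst = Fintype.ofFinite (decomp K q) := Subsingleton.elim _ _
      obtain ⟨i, hi⟩ := hq
      exact hw ⟨q, Finset.mem_image.mpr ⟨i, Finset.mem_univ _, Subtype.ext hi⟩⟩)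
  rw [hQcard] at hbound
  haveI : Finite V := Module.finite_of_finite k
  have hW : lpN p (Nat.card j.range) = (finrank k V : ℤ) * lpN p (Nat.card k) := by
    rw [← lpN_card_eq (k := k) p V,
      Nat.card_congr (AddMonoidHom.ofInjective (levelClasses_injective r hK h j hj)).toEquiv]
  have hloc : ∀ v : T, lpN p ((locCobd h (v : Nat.Primes)).relIndex j.range) -
      lpN p (Nat.card (fixPts (decomp K (v : Nat.Primes)) (AdMod (galRep r hK)))) ≤
        excess p r T' e ((v : Nat.Primes) : ℕ) * lpN p (Nat.card k) := fun v => by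
    have h1 := lpN_relIndex_locCobd_le r p hK h j hj (v : Nat.Primes)
    have h3 := finrank_fixedOn_le r p hK (v : Nat.Primes)
    have h4 := mul_le_mul_of_nonneg_right (finrank_le_excess p r hp2 hrfin Smin T' hpS hdisj hunr
      hSmin V hcoc htrS hT hp' ((v : Nat.Primes) : ℕ) fun hS hT'' b hb τ hτ =>
        hram _ (v : Nat.Primes).2 hS hT'' (fun i hi => hqT i v v.2 hi.symm) _
          (Local.padicPlace_liesOverPrime _) τ hτ b hb) (lpN_card_pos (k := k) p).le
    rw [sub_mul] at h4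
    linarith
  have hsum := Finset.sum_le_sum (s := (Finset.univ : Finset T)) fun v _ => hloc v
  rw [Finset.sum_sub_distrib, ← Finset.sum_mul, sum_excess p r T' e T hpT fun v hv =>
    ⟨hT'prime v hv, hST ⟨v, hT'prime v hv⟩ (Or.inr hv)⟩] at hsum
  rw [hW] at hbound
  have hfinal : ((finrank k V : ℤ) + (∑ v ∈ T', RT.Lift.localH0 r v : ℕ) + 1) *
      lpN p (Nat.card k) ≤ ((r' : ℤ) + e) * lpN p (Nat.card k) := by
    rw [sub_mul] at hsum
    rw [add_mul, add_mul, add_mul, one_mul]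
    linarith
  have := le_of_mul_le_mul_right hfinal (lpN_card_pos (k := k) p)
  exact_mod_cast this

end Fermat.Agent.CFT.Tangent
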