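import Fermat.Agent.CFT.Tangent.KummerMatrix
import Fermat.Agent.CFT.Euler.SelmerPieces

/-!
Primes detecting the Kummer classes which do not extend to the whole lattice.
-/

set_option autoImplicit false
set_option synthInstance.maxHeartbeats 200000
set_option maxHeartbeats 1000000
set_option linter.unusedSectionVars false
set_option linter.style.haveILetI false

noncomputable section

namespace Fermat.Agent.CFT.Tangent

open Fermat.Agent.Arith Fermat.Agent.Deform Fermat.Agent.CFT.Euler Fermat.Agent.CFT.Idele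
open Fermat.Agent.CFT.Duality IntermediateField NumberField
open Fermat.Agent.CFT.Local

local instance factPrimeDetectPrimes (q : Nat.Primes) : Fact (q : ℕ).Prime := ⟨q.2⟩

variable {k : Type} [Field k] [Finite k] (p : ℕ) [hp : Fact p.Prime] [CharP k p]
  (r : GQ →* M2 k) {K : IntermediateField ℚ QBar} [FiniteDimensional ℚ K] [Normal ℚ K]
  (hK : ∀ σ, res K σ = 1 → r σ = 1)
  (hcyc : ∀ (σ : GQ) (a : ℕ), (∀ μ : QBar, μ ^ p = 1 → σ μ = μ ^ a) → (r σ).det = (a : k))

/-- The coboundaries of trace zero matrices. -/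
def cobdSpace : Submodule k (GQ → M2 k) :=
  (LinearMap.ker (Matrix.traceLinearMap (Fin 2) k k)).map
    (LinearMap.pi fun g => TWPrimes.ad r g - LinearMap.id)

omit [Finite k] in
theorem mem_cobdSpace {b : GQ → M2 k} :
    b ∈ cobdSpace r ↔ ∃ Z : M2 k, Z.trace = 0 ∧ ∀ g, b g = TWPrimes.cobd r Z g := by
  rw [cobdSpace, Submodule.mem_map]
  constructor
  · rintro ⟨Z, hZ, rfl⟩
    exact ⟨Z, hZ, fun g => rfl⟩
  · rintro ⟨Z, hZ, hb⟩
    exact ⟨Z, hZ, funext fun g => (hb g).symm⟩

variable {T : Finset Nat.Primes} (h2 : (2 : k) ≠ 0) [Fintype (K ≃ₐ[ℚ] K)]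
  (X : Pres p (K ≃ₐ[ℚ] K) (AdMod (galRep r hK))) (hfull : ∀ x : X.P, x ∈ X.K)

include hcyc in
/-- Classes differing by an extension have cohomologous Kummer cocycles. -/
theorem exists_cobd_sub (u u' : equivHom (C := TUnits K T) X.hS)
    (h : u' - u ∈ (X.res (TUnits K T)).range) :
    ∃ Z : M2 k, Z.trace = 0 ∧ ∀ σ, kumMat p r hK h2 X hfull u' σ =
      kumMat p r hK h2 X hfull u σ + TWPrimes.cobd r Z σ := by
  obtain ⟨Y₀, hY₀⟩ := h
  let D : X.K →+ Additive QBarˣ :=
    (root X u' hfull).comp X.K.subtype - (root X u hfull).comp X.K.subtype -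
      (TUnits.toBar K T).comp Y₀.1
  have hD : X.π.ker ≤ D.ker := fun x hx => by
    have hs : (x : X.P) ∈ X.S := (X.ker x).mp hx
    show root X u' hfull (x : X.P) - root X u hfull (x : X.P) - TUnits.toBar K T (Y₀.1 x) = 0
    rw [root_apply X u' hfull ⟨x, hs⟩, root_apply X u hfull ⟨x, hs⟩, ← map_sub, ← map_sub,
      show Y₀.1 x = u'.1 ⟨x, hs⟩ - u.1 ⟨x, hs⟩ from
        DFunLike.congr_fun (congrArg Subtype.val hY₀) ⟨(x : X.P), hs⟩,
      sub_self, map_zero]
  let e : AdMod (galRep r hK) →+ Additive QBarˣ :=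
    AddMonoidHom.liftOfSurjective X.π X.surj ⟨D, hD⟩
  have he : ∀ x, e (X.π x) = D x := fun x =>
    AddMonoidHom.liftOfRightInverse_comp_apply X.π _ _ ⟨D, hD⟩ x
  obtain ⟨Z, hZt, hZ⟩ := exists_deltaM_eq p (galRep r hK) h2 e fun a => by
    rw [← map_nsmul, AdMod.nsmul_eq_zero, map_zero]
  refine ⟨Z, hZt, fun σ => eq_of_deltaM p (galRep r hK) h2 (trace_kumMat p r hK h2 X hfull u' σ)
    ?_ (AddMonoidHom.ext fun a => ?_)⟩
  · rw [Matrix.trace_add, trace_kumMat, TWPrimes.cobd, Matrix.trace_sub, TWPrimes.trace_ad, hZt,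
      mul_zero, sub_zero, add_zero]
  · obtain ⟨x, rfl⟩ := X.surj a
    rw [map_add, AddMonoidHom.add_apply, deltaM_kumMat, deltaM_kumMat, TWPrimes.cobd, map_sub,
      AddMonoidHom.sub_apply, ← smul_deltaM p r hK hcyc, hZ, ← X.equi, he, he, kum_apply, kum_apply]
    show σ • root X u' hfull ((res K σ)⁻¹ • (x : X.P)) - root X u' hfull x =
      σ • root X u hfull ((res K σ)⁻¹ • (x : X.P)) - root X u hfull x +
      (σ • (root X u' hfull ((res K σ)⁻¹ • (x : X.P)) - root X u hfull ((res K σ)⁻¹ • (x : X.P)) -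
          TUnits.toBar K T (Y₀.1 (smulS X.hK (res K σ)⁻¹ x))) -
        (root X u' hfull (x : X.P) - root X u hfull (x : X.P) - TUnits.toBar K T (Y₀.1 x)))
    rw [Y₀.2, smul_sub, smul_sub, ← TUnits.toBar_smul, smul_inv_smul]
    abel

include hcyc in
/-- A local extension kills the trace function at elements of determinant one of the
decomposition group. -/
theorem phi_kumMat_eq_zero (u : equivHom (C := TUnits K T) X.hS) (q : Nat.Primes)
    [Fintype (decomp K q)] (Y : equivHom (C := LocUnits K q) (X.restrict (decomp K q)).hK)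
    (hY : ∀ s : X.S, Y.1 (AddSubgroup.inclusion X.le s) = tLoc q (u.1 s))
    {φ : GQ} (hφ : φ ∈ (padicPlace (q : ℕ)).decompositionSubgroup ℚ) (hd : (r φ).det = 1) :
    TWPrimes.phi r (kumMat p r hK h2 X hfull u) φ = 0 := by
  have h := exists_cobd_of_local p r hK hcyc h2 X hfull u q Y hY
  obtain ⟨Z, -, hZ⟩ := h
  rw [TWPrimes.phi, hZ φ hφ]
  exact TWPrimes.phi_cobd hd

/-- A maximal independent subfamily of a finite family. -/
theorem exists_spanning_subfamily {J V : Type*} [Finite J] [AddCommGroup V] [Module k V]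
    (v : J → V) :
    ∃ (m : ℕ) (f : Fin m → J), LinearIndependent k (v ∘ f) ∧
      ∀ j, ∃ c : Fin m → k, ∑ i, c i • v (f i) = v j := by
  obtain ⟨κ, a, ha, hsp, hli⟩ := exists_linearIndependent' k v
  haveI : Finite κ := Finite.of_injective a ha
  haveI : Fintype κ := Fintype.ofFinite κ
  let e : Fin (Fintype.card κ) ≃ κ := (Fintype.equivFin κ).symm
  refine ⟨_, a ∘ e, hli.comp e e.injective, fun j => ?_⟩
  refine (Submodule.mem_span_range_iff_exists_fun k).mp ?_
  rw [show (fun i => v ((a ∘ e) i)) = (v ∘ a) ∘ e from rfl, e.surjective.range_comp, hsp]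
  exact Submodule.subset_span ⟨j, rfl⟩

omit [Finite k] in
/-- The classes of extensions have finite index. -/
theorem finite_classQuot :
    Finite (equivHom (C := TUnits K T) X.hS ⧸ (X.res (TUnits K T)).range) := by
  have h := (X.finiteIndexHom (M := TUnits K T) (tUnits_modPFinite K T)).index
  exact @AddSubgroup.finite_quotient_of_finiteIndex _ _ _ ⟨h⟩

include hcyc in
/-- Finitely many Kummer cocycles, independent modulo coboundaries, span all of them. -/
theorem exists_class_basis :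
    ∃ (m : ℕ) (b : Fin m → GQ → M2 k),
      (∀ i, TWPrimes.IsCocycle r (b i)) ∧
      (∀ i, ∃ F : IntermediateField ℚ QBar, FiniteDimensional ℚ F ∧
        ∀ σ : GQ, (∀ x ∈ F, σ x = x) → b i σ = 0) ∧
      (∀ c : Fin m → k, ∀ Z : M2 k, Z.trace = 0 →
        (∀ g, ∑ i, c i • b i g = TWPrimes.cobd r Z g) → c = 0) ∧
      ∀ w : equivHom (C := TUnits K T) X.hS, ∃ (c : Fin m → k) (Z : M2 k), Z.trace = 0 ∧
        ∀ g, kumMat p r hK h2 X hfull w g = (∑ i, c i • b i g) + TWPrimes.cobd r Z g := by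
  haveI := finite_classQuot p r hK (T := T) X
  choose rep hrep using QuotientAddGroup.mk'_surjective (X.res (TUnits K T)).range
  have hsubfam := exists_spanning_subfamily (k := k) fun j =>
    (cobdSpace r).mkQ (kumMat p r hK h2 X hfull (rep j))
  obtain ⟨m, f, hli, hspan⟩ := hsubfam
  have hv : ∀ c : Fin m → k,
      ∑ i, c i • (cobdSpace r).mkQ (kumMat p r hK h2 X hfull (rep (f i))) =
        (cobdSpace r).mkQ (fun g => ∑ i, c i • kumMat p r hK h2 X hfull (rep (f i)) g) :=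
    fun c => by
      rw [show (fun g => ∑ i, c i • kumMat p r hK h2 X hfull (rep (f i)) g) =
        ∑ i, c i • kumMat p r hK h2 X hfull (rep (f i)) from funext fun g => by
          simp only [Finset.sum_apply, Pi.smul_apply], map_sum]
      exact Finset.sum_congr rfl fun i _ => (LinearMap.map_smul _ _ _).symm
  refine ⟨m, fun i => kumMat p r hK h2 X hfull (rep (f i)),
    fun i => isCocycle_kumMat p r hK hcyc h2 X hfull _,
    fun i => exists_level_kumMat p r hK h2 X hfull _, fun c Z hZ h => funext fun i => ?_,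
    fun w => ?_⟩
  · refine Fintype.linearIndependent_iff.mp hli c ?_ i
    refine (hv c).trans ?_
    exact (Submodule.Quotient.mk_eq_zero _).mpr ((mem_cobdSpace r).mpr ⟨Z, hZ, h⟩)
  · have hsub := exists_cobd_sub p r hK hcyc h2 X hfull
      (rep (QuotientAddGroup.mk' (X.res (TUnits K T)).range w)) w
      (QuotientAddGroup.eq_iff_sub_mem.mp (hrep _).symm)
    obtain ⟨Z₁, hZ₁t, hZ₁⟩ := hsub
    have hcj := hspan (QuotientAddGroup.mk' (X.res (TUnits K T)).range w)
    obtain ⟨c, hc⟩ := hcj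
    have hmem := (mem_cobdSpace r).mp ((Submodule.Quotient.eq _).mp (hc.symm.trans (hv c)))
    obtain ⟨Z₂, hZ₂t, hZ₂⟩ := hmem
    refine ⟨c, Z₁ + Z₂, by rw [Matrix.trace_add, hZ₁t, hZ₂t, add_zero], fun g => ?_⟩
    have hg := hZ₂ g
    rw [Pi.sub_apply] at hg
    rw [hZ₁ g, eq_add_of_sub_eq' hg]
    simp only [TWPrimes.cobd, map_add]
    abel

include hcyc h2 hfull in
/-- Auxiliary primes detecting the classes of any presentation which do not extend. -/
theorem exists_detecting_primes_pres (hr : TWPrimes.TWHyp r)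
    (hrfin : GaloisFactorsThroughFiniteLevel r) (S : Finset ℕ) :
    ∃ r' : ℕ, ∀ n : ℕ, ∃ qv : Fin r' → ℕ, Function.Injective qv ∧
      (∀ i, (qv i).Prime ∧ qv i ∉ S ∧ qv i ≠ p ∧ p ^ (n + 1) ∣ qv i - 1) ∧
      (∀ i, ∀ A : ValuationSubring QBar, A.LiesOverPrime (qv i) → ∀ φ : GQ,
        A.IsFrobeniusAt φ (qv i) →
          ∃ α β : k, α ≠ β ∧ (r φ).trace = α + β ∧ (r φ).det = α * β) ∧
      (∀ i, ∀ [Fact (qv i).Prime], ∃ φ ∈ (padicPlace (qv i)).decompositionSubgroup ℚ,
        (r φ).det = 1 ∧ (r φ).trace ^ 2 ≠ 4) ∧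
      ∀ w : equivHom (C := TUnits K T) X.hS,
        (∀ q : Nat.Primes, (q : ℕ) ∈ Set.range qv → ∀ [Fintype (decomp K q)],
          ∃ Y : equivHom (C := LocUnits K q) (X.restrict (decomp K q)).hK,
            ∀ s : X.S, Y.1 (AddSubgroup.inclusion X.le s) = tLoc q (w.1 s)) →
        w ∈ (X.res (TUnits K T)).range := by
  have hbasis := exists_class_basis p r hK hcyc h2 X hfull (T := T)
  obtain ⟨m, b, hb, hbfin, hind, hspan⟩ := hbasis
  refine ⟨m, fun n => ?_⟩
  have htw := TWPrimes.exists_taylorWilesPrimes p r hr hrfin hcyc b hb hbfin hind S n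
  obtain ⟨q, hinj, hq, -, hfrob, hdet⟩ := htw
  choose φ hφ using fun i => haveI : Fact (q i).Prime := ⟨(hq i).1⟩
    exists_isFrobeniusAt (padicPlace_liesOverPrime (q i)) (hq i).1
  refine ⟨q, hinj, hq, fun i A hA σ hσ => ?_, fun i _ => ⟨φ i, (hφ i).mem_decompositionSubgroup,
    (hfrob i _ (padicPlace_liesOverPrime (q i)) _ (hφ i)).1,
    (hfrob i _ (padicPlace_liesOverPrime (q i)) _ (hφ i)).2.1⟩, fun w hw => ?_⟩
  · obtain ⟨hd, ht, -⟩ := hfrob i A hA σ hσ
    obtain ⟨α, β, htr, hdt⟩ := hr.split σ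
    refine ⟨α, β, fun e => ht ?_, htr, hdt⟩
    rw [htr, e]
    rw [hd, e] at hdt
    linear_combination -4 * hdt
  · have hwspan := hspan w
    obtain ⟨c, Z, -, hkum⟩ := hwspan
    have hc0 : c = 0 := hdet (fun i => haveI : Fact (q i).Prime := ⟨(hq i).1⟩; padicPlace (q i)) φ
      (fun i => haveI : Fact (q i).Prime := ⟨(hq i).1⟩; padicPlace_liesOverPrime (q i)) hφ c
      fun i => by
        haveI : Fact (q i).Prime := ⟨(hq i).1⟩
        let qi : Nat.Primes := ⟨q i, (hq i).1⟩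
        haveI : Fintype (decomp K qi) := Fintype.ofFinite _
        obtain ⟨Y, hY⟩ := hw qi ⟨i, rfl⟩
        have hd : (r (φ i)).det = 1 := (hfrob i _ (padicPlace_liesOverPrime (q i)) _ (hφ i)).1
        have h0 := phi_kumMat_eq_zero p r hK hcyc h2 X hfull w qi Y hY
          (hφ i).mem_decompositionSubgroup hd
        rw [TWPrimes.phi, hkum, add_mul, Matrix.trace_add, Finset.sum_mul, Matrix.trace_sum,
          show (TWPrimes.cobd r Z (φ i) * r (φ i)).trace = 0 from TWPrimes.phi_cobd hd,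
          add_zero] at h0
        rw [← h0]
        exact Finset.sum_congr rfl fun j _ => by
          rw [smul_mul_assoc, Matrix.trace_smul, smul_eq_mul]
          rfl
    refine mem_range_of_kumMat p r hK hcyc h2 X hfull w Z fun g => ?_
    rw [hkum g, hc0]
    simp

/-- Auxiliary primes at which every class that does not extend is detected. -/
theorem exists_detecting_primes {k : Type} [Field k] [Finite k] (p : ℕ) [Fact p.Prime] [CharP k p]
    (r : GQ →* M2 k) {K : IntermediateField ℚ QBar} [FiniteDimensional ℚ K] [Normal ℚ K]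
    [Fintype (K ≃ₐ[ℚ] K)] (hK : ∀ σ, res K σ = 1 → r σ = 1) (hr : TWPrimes.TWHyp r)
    (hrfin : GaloisFactorsThroughFiniteLevel r)
    (hcyc : ∀ (σ : GQ) (a : ℕ), (∀ μ : QBar, μ ^ p = 1 → σ μ = μ ^ a) → (r σ).det = (a : k))
    (hp2 : p ≠ 2) (T : Finset Nat.Primes) {ι : Type} [Fintype ι]
    {ε : CFT.Lat (K ≃ₐ[ℚ] K) ι →+ AdMod (galRep r hK)} (hε : Presentation p ε) (S : Finset ℕ) :
    ∃ r' : ℕ, ∀ n : ℕ, ∃ qv : Fin r' → ℕ, Function.Injective qv ∧
      (∀ i, (qv i).Prime ∧ qv i ∉ S ∧ qv i ≠ p ∧ p ^ (n + 1) ∣ qv i - 1) ∧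
      (∀ i, ∀ A : ValuationSubring QBar, A.LiesOverPrime (qv i) → ∀ φ : GQ,
        A.IsFrobeniusAt φ (qv i) →
          ∃ α β : k, α ≠ β ∧ (r φ).trace = α + β ∧ (r φ).det = α * β) ∧
      (∀ i, ∀ [Fact (qv i).Prime], ∃ φ ∈ (padicPlace (qv i)).decompositionSubgroup ℚ,
        (r φ).det = 1 ∧ (r φ).trace ^ 2 ≠ 4) ∧
      ∀ w : equivHom (C := TUnits K T) hε.isStable_ker,
        (∀ q : Nat.Primes, (q : ℕ) ∈ Set.range qv → ∀ [Fintype (decomp K q)],
          ∃ Y : equivHom (C := LocUnits K q) ((latPres hε).restrict (decomp K q)).hK,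
            ∀ s : ε.ker, Y.1 (AddSubgroup.inclusion (latPres hε).le s) = tLoc q (w.1 s)) →
        w ∈ ((latPres hε).res (TUnits K T)).range := by
  have h2 : (2 : k) ≠ 0 := Ring.two_ne_zero (by rwa [ringChar.eq k p])
  exact exists_detecting_primes_pres p r hK hcyc h2 (latPres hε) (fun x => AddSubgroup.mem_top x)
    hr hrfin S

end Fermat.Agent.CFT.Tangent
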