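import Fermat.Agent.CFT.Tangent.OrdinaryBound
import Fermat.Agent.CFT.Flat.Tangent

/-!
# The bound at `p` for classes which are both flat and strictly ordinary

Flatness bounds the ramification of the cocycles in the ordinary line, so one class of the two
Kummer classes survives besides the coboundary.
-/

set_option autoImplicit false
set_option synthInstance.maxHeartbeats 200000
set_option linter.style.haveILetI false
set_option linter.unusedSectionVars false

noncomputable section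

namespace Fermat.Agent.CFT.Tangent

open Fermat.Agent.Deform Fermat.Agent.Arith Module Fermat.Agent.CFT.Flat

variable {p : ℕ} [hp : Fact p.Prime] {k : Type} [Field k] [Finite k] [CharP k p]
  {r : Gal →* M2 k}

/-- The determinant is nontrivial at a tame generator. -/
theorem det_tame_generator_ne_one [Algebra (ZMod p) k] (hp2 : p ≠ 2)
    (hcyc : ∀ (σ : Gal) (n : ℕ), (∀ μ : QBar, μ ^ p = 1 → σ μ = μ ^ n) → (r σ).det = (n : k))
    (ι : k →+* Res p) {τ : Gal} (hτ : τ ∈ inG p)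
    (hτprim : IsPrimitiveRoot (theta p τ) (e₀ p)) : (r τ).det ≠ 1 := fun h1 => by
  have h2 := iota_det hcyc ι hτ
  rw [h1, map_one] at h2
  have h3 := Nat.le_of_dvd (Nat.succ_pos p)
    ((isPrimitiveRoot_thetaBar p hτprim).dvd_of_pow_eq_one _ h2.symm)
  rw [e₀_eq] at h3
  have := hp.out.two_le
  have : (p + 1) * 2 ≤ (p + 1) * (p - 1) := Nat.mul_le_mul_left _ (by omega)
  omega

/-- Cyclotomic cocycles of bounded ramification: one class besides the coboundary. -/
theorem finrank_bdd_kummer_le (hp2 : p ≠ 2)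
    (hcyc : ∀ (σ : Gal) (n : ℕ), (∀ μ : QBar, μ ^ p = 1 → σ μ = μ ^ n) → (r σ).det = (n : k))
    (L : IntermediateField ℚ QBar) [Normal ℚ L] [FiniteDimensional ℚ L]
    (hL : ∀ σ : Gal, (∀ x ∈ L, σ x = x) → r σ = 1)
    (Z : Submodule k (Gal → k)) [Module.Finite k Z]
    (hZ : ∀ β ∈ Z, ∀ s ∈ decG p, ∀ t ∈ decG p, β (s * t) = (r s).det * β t + β s)
    (hlev : ∀ β ∈ Z, ∀ σ : Gal, (∀ x ∈ L, σ x = x) → β σ = 0)
    (hbdd : ∀ β ∈ Z, ∃ H : Subgroup Gal, IsLevel p H ∧ H ≤ tame p ∧ IsBdd p H ∧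
      ∀ g ∈ H, r g = 1 ∧ β g = 0) :
    finrank k Z ≤ finrank k (Z ⊓ scalarCobdOn (fun σ => (r σ).det) (decG p) :
      Submodule k (Gal → k)) + 1 := by
  classical
  letI : Algebra (ZMod p) k := ZMod.algebra k p
  haveI : FiniteDimensional (ZMod p) k := Module.Finite.of_finite
  obtain ⟨τ, hτ, hτprim, hgen⟩ := exists_tame_generator p
  haveI : IsAlgClosed (Res p) := residueField_isAlgClosed (padicPlace p)
  letI : Algebra (ZMod p) (Res p) := ZMod.algebra (Res p) p
  let ι : k →+* Res p :=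
    (IsAlgClosed.lift (R := ZMod p) (M := Res p) (S := k) : k →ₐ[ZMod p] Res p).toRingHom
  set a : Gal → k := fun σ => (r σ).det with ha
  have hmul : ∀ g h : Gal, a (g * h) = a g * a h := fun g h => by simp [ha, Matrix.det_mul]
  have hfix : ∀ g ∈ L.fixingSubgroup, r g = 1 := fun g hg =>
    hL g ((IntermediateField.mem_fixingSubgroup_iff _ _).mp hg)
  have haL : ∀ g ∈ L.fixingSubgroup, a g = 1 := fun g hg => by simp [ha, hfix g hg]
  obtain ⟨ht, hexp⟩ := char_tame (p := p) (χ := a) (fun g _ h _ => hmul g h) (by simp [ha]) L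
    fun g hg _ => haL g hg
  -- restriction to the decomposition group
  let R : (Gal → k) →ₗ[k] (Gal → k) :=
    LinearMap.pi fun g => if g ∈ decG p then LinearMap.proj g else 0
  have hon : ∀ (β : Gal → k) g, g ∈ decG p → R β g = β g := fun β g hg => by
    simp only [R, LinearMap.pi_apply, if_pos hg, LinearMap.proj_apply]
  have hoff : ∀ (β : Gal → k) g, g ∉ decG p → R β g = 0 := fun β g hg => by
    simp only [R, LinearMap.pi_apply, if_neg hg, LinearMap.zero_apply]
  set e : Gal → k := R fun g => a g - 1 with he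
  set T : Submodule k (Gal → k) := Z.map R ⊔ Submodule.span k {e} with hT
  haveI : Module.Finite k T := inferInstance
  haveI : Finite T := Module.finite_of_finite k
  haveI : Finite T.toAddSubgroup := ‹Finite T›
  have hcard := natCard_piece_le (p := p) (ι := ι) (τ := τ) (χ := a) (fun g _ h _ => hmul g h) ht
    (hexp τ hτ) T.toAddSubgroup (fun c hc => by
      obtain ⟨_, ⟨β, hβ, rfl⟩, _, hy, rfl⟩ := Submodule.mem_sup.mp hc
      obtain ⟨x, rfl⟩ := Submodule.mem_span_singleton.mp hy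
      rw [he, ← map_smul, ← map_add]
      obtain ⟨H, h1, h2, h3, h4⟩ := hbdd β hβ
      refine ⟨fun g hg h hh => ?_, hoff _, ⟨H, h1, h2, h3, fun g hg => ?_⟩,
        L, inferInstance, inferInstance, fun g hg hgD => ?_⟩
      · rw [hon _ _ ((decG p).mul_mem hg hh), hon _ _ hg, hon _ _ hh]
        simp only [Pi.add_apply, Pi.smul_apply, smul_eq_mul, hZ β hβ g hg h hh, ha]
        rw [map_mul, Matrix.det_mul]
        ring
      · rw [hon _ _ (inG_le_decG p (h1.le hg))]
        simp [ha, (h4 g hg).1, (h4 g hg).2]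
      · rw [hon _ _ hgD]
        simp [ha, hlev β hβ g ((IntermediateField.mem_fixingSubgroup_iff _ _).mp hg), hfix g hg])
    hτ hτprim hgen (a₀ := a τ) (iota_det hcyc ι hτ)
  rw [if_pos rfl, ← sq, show Nat.card T.toAddSubgroup = Nat.card T from rfl,
    Module.natCard_eq_pow_finrank (K := k) (V := T)] at hcard
  have hT2 : finrank k T ≤ 2 := (Nat.pow_le_pow_iff_right Finite.one_lt_card).mp hcard
  have he0 : e ≠ 0 := fun h0 => det_tame_generator_ne_one hp2 hcyc ι hτ hτprim (sub_eq_zero.mp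
    ((hon (fun g => a g - 1) τ (inG_le_decG p hτ)).symm.trans (congrFun h0 τ)))
  -- compare
  set E := Submodule.span k {e}
  set Λ : Z →ₗ[k] (Gal → k) ⧸ E := (E.mkQ.comp R).comp Z.subtype
  set Ψ : T →ₗ[k] (Gal → k) ⧸ E := E.mkQ.comp T.subtype
  have h1 := Λ.finrank_range_add_finrank_ker
  have h2 := Ψ.finrank_range_add_finrank_ker
  have h3 : finrank k (LinearMap.range Λ) ≤ finrank k (LinearMap.range Ψ) := by
    refine Submodule.finrank_mono ?_
    rintro _ ⟨β, rfl⟩
    exact ⟨⟨_, SetLike.le_def.mp le_sup_left (Submodule.mem_map_of_mem β.2)⟩, rfl⟩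
  have h4 : 1 ≤ finrank k (LinearMap.ker Ψ) := by
    refine Submodule.one_le_finrank_iff.mpr ((Submodule.ne_bot_iff _).mpr
      ⟨⟨e, SetLike.le_def.mp le_sup_right (Submodule.mem_span_singleton_self e)⟩, ?_,
        fun h => he0 (congrArg Subtype.val h)⟩)
    exact (Submodule.Quotient.mk_eq_zero E).mpr (Submodule.mem_span_singleton_self e)
  have h5 : finrank k (LinearMap.ker Λ) ≤
      finrank k (Z ⊓ scalarCobdOn a (decG p) : Submodule k (Gal → k)) := by
    rw [(Submodule.equivSubtypeMap Z (LinearMap.ker Λ)).finrank_eq]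
    refine Submodule.finrank_mono ?_
    rintro _ ⟨β, hmem, rfl⟩
    obtain ⟨x, hx⟩ := Submodule.mem_span_singleton.mp
      ((Submodule.Quotient.mk_eq_zero E).mp (LinearMap.mem_ker.mp hmem))
    refine ⟨β.2, x, fun s hs => ?_⟩
    have h := congrFun hx s
    rw [Pi.smul_apply, he, hon _ _ hs, hon _ _ hs, Submodule.subtype_apply, smul_eq_mul] at h
    show (β : Gal → k) s = _
    linear_combination -h
  omega

/-- Classes with a flat and a strictly ordinary first order lift have no slack at `p`. -/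
theorem finrank_le_flat_ordinary (hp2 : p ≠ 2) (h2 : (2 : k) ≠ 0)
    (hr : GaloisFactorsThroughFiniteLevel r)
    (hcyc : ∀ (σ : Gal) (n : ℕ), (∀ μ : QBar, μ ^ p = 1 → σ μ = μ ^ n) → (r σ).det = (n : k))
    (V : Submodule k (Gal → M2 k)) [Module.Finite k V]
    (hcoc : ∀ b ∈ V, IsAdCocycle r b) (hlev : ∀ b ∈ V, IsFiniteLevel b)
    (hord : ∀ b ∈ V, b ≠ 0 → ∃ (ρ : GaloisRepAdic (DualNumber k))
      (B : Basis (Fin 2) (DualNumber k) ρ.V), ρ.IsStrictOrdinaryAt p ∧ ρ.DetIsCyclotomic p ∧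
        ∀ σ, matOf ρ B σ = (1 + epsM (b σ)) * inlM (r σ))
    (hflat : ∀ b ∈ V, b ≠ 0 → ∃ (ρ : GaloisRepAdic (DualNumber k))
      (B : Basis (Fin 2) (DualNumber k) ρ.V), ρ.IsFlatAt p ∧
        ∀ σ, matOf ρ B σ = (1 + epsM (b σ)) * inlM (r σ)) :
    finrank k V ≤ finrank k (V ⊓ cobdOn r ((padicPlace p).decompositionSubgroup ℚ) :
        Submodule k (Gal → M2 k)) +
      finrank k (fixedOn r ((padicPlace p).decompositionSubgroup ℚ)) := by
  rcases eq_or_ne V ⊥ with rfl | hV
  · simp [finrank_bot]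
  obtain ⟨b₀, hb₀, hb₀ne⟩ := Submodule.exists_mem_ne_zero_of_ne_bot hV
  obtain ⟨N, H, hHtr, hNtr, hli, hN, hH, hline⟩ := exists_ordinary_line h2 hcyc V hV hord
  have hbdd : ∀ b ∈ V, ∃ G : Subgroup Gal, IsLevel p G ∧ G ≤ tame p ∧ IsBdd p G ∧
      ∀ g ∈ G, r g = 1 ∧ b g = 0 := by
    intro b hbV
    rcases eq_or_ne b 0 with rfl | hne
    · obtain ⟨ρ, B, hf, hm⟩ := hflat b₀ hb₀ hb₀ne
      obtain ⟨G, g1, g2, g3, g4⟩ := (hasOrderLift_of_flat ρ B hf hm).exists_bdd
      exact ⟨G, g1, g2, g3, fun g hg => ⟨(g4 g hg).1, rfl⟩⟩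
    · obtain ⟨ρ, B, hf, hm⟩ := hflat b hbV hne
      exact (hasOrderLift_of_flat ρ B hf hm).exists_bdd
  refine finrank_le_of_line_bound h2 hr (fun σ => (r σ).det) V hcoc hlev hHtr hNtr hli hN hH hline
    0 fun L _ _ hL Z _ hZ hlevZ hsupp => ?_
  refine finrank_bdd_kummer_le hp2 hcyc L hL Z hZ hlevZ fun β hβ => ?_
  obtain ⟨v, hv, hvβ⟩ := hsupp β hβ
  obtain ⟨G, g1, g2, g3, g4⟩ := hbdd v hv
  exact ⟨G, g1, g2, g3, fun g hg => ⟨(g4 g hg).1, hvβ g (g4 g hg).1 (g4 g hg).2⟩⟩

end Fermat.Agent.CFT.Tangent
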