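import Fermat.Agent.RT.Assembly.Bound
import Fermat.Agent.CFT.Tangent.Classes
import Fermat.Agent.CFT.Tangent.OrdinaryBound
import Fermat.Agent.CFT.TWPrimes.Residual
import Fermat.Agent.CFT.Flat.Tangent

/-!
# Presentations of the deformation rings at Taylor–Wiles primes, from the core bound

Given the Galois cohomological bound on first order deformations, the deformation rings with
Taylor–Wiles primes added are quotients of power series rings in as many variables as primes.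
-/

set_option autoImplicit false
set_option maxHeartbeats 1000000
set_option synthInstance.maxHeartbeats 200000
set_option linter.style.haveILetI false
set_option linter.unusedSectionVars false

noncomputable section

namespace Fermat.Agent.CFT.Tangent

open IsLocalRing Module Polynomial Fermat.Agent.Deform Fermat.Agent.Arith
open scoped Pointwise

variable {𝒪 : Type} [CommRing 𝒪] [IsDomain 𝒪] [IsDiscreteValuationRing 𝒪]
  [IsAdicComplete (maximalIdeal 𝒪) 𝒪] [Finite (ResidueField 𝒪)]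

theorem trace_det_of_charpoly {R : Type} [CommRing R] [Nontrivial R] {M : M2 R}
    (h : M.charpoly = (X - 1) ^ 2) : M.trace = 2 ∧ M.det = 1 := by
  rw [Matrix.charpoly_fin_two] at h
  constructor
  · have e := congrArg (fun P => Polynomial.coeff P 1) h
    simp [sub_sq, Polynomial.coeff_X_pow, Polynomial.coeff_X, Polynomial.coeff_C,
      Polynomial.coeff_one] at e
    linear_combination e
  · have e := congrArg (fun P => Polynomial.eval 0 P) h
    simp at e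
    linear_combination e

theorem charpoly_of_trace_det {k : Type} [Field k] {M : M2 k} {α β : k} (ht : M.trace = α + β)
    (hd : M.det = α * β) : M.charpoly = (X - C α) * (X - C β) := by
  rw [Matrix.charpoly_fin_two, ht, hd, map_add, map_mul]
  ring

theorem charpoly_matRes (ρ : ResidualGaloisRep (ResidueField 𝒪))
    (bb : Basis (Fin 2) (ResidueField 𝒪) ρ.V) (σ : Gal) :
    LinearMap.charpoly (ρ.ρ σ) = (matRes ρ bb σ).charpoly :=
  (LinearMap.charpoly_toMatrix (ρ.ρ σ) bb).symm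

theorem trace_det_matOf_of_unipotent {A : Type} [CommRing A] [IsLocalRing A] {ρ : GaloisRepAdic A}
    {q : ℕ} (h : ρ.IsUnipotentOnInertiaAt q) (B : Basis (Fin 2) A ρ.V) {P : ValuationSubring QBar}
    (hP : P.LiesOverPrime q) {σ : Gal} (hσ : σ ∈ P.inertiaSubgroupIn ℚ) :
    (matOf ρ B σ).trace = 2 ∧ (matOf ρ B σ).det = 1 :=
  trace_det_of_charpoly ((LinearMap.charpoly_toMatrix (ρ.ρ σ) B).trans (h P hP σ hσ))

theorem matOf_eq_one_of_unramified {A : Type} [CommRing A] [IsLocalRing A] {ρ : GaloisRepAdic A}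
    {q : ℕ} (h : ρ.IsUnramifiedAt q) (B : Basis (Fin 2) A ρ.V) {P : ValuationSubring QBar}
    (hP : P.LiesOverPrime q) {σ : Gal} (hσ : σ ∈ P.inertiaSubgroupIn ℚ) : matOf ρ B σ = 1 := by
  show LinearMap.toMatrixAlgEquiv B (ρ.ρ σ) = 1
  rw [h P hP σ hσ, map_one]

theorem eq_zero_of_matOf_eq_one {k : Type} [Field k] {r : Gal →* M2 k} {b : Gal → M2 k}
    {M : M2 (DualNumber k)} {σ : Gal} (hM : M = (1 + epsM (b σ)) * inlM (r σ)) (h1 : M = 1) :
    b σ = 0 := by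
  have e := hM.symm.trans h1
  have h0 : r σ = 1 := by simpa using congrArg fstM e
  have h2 := congrArg sndM e
  simp [h0] at h2
  exact h2

theorem trace_mul_eq_zero {k : Type} [Field k] {r : Gal →* M2 k} {b : Gal → M2 k}
    {M : M2 (DualNumber k)} {σ : Gal} (hM : M = (1 + epsM (b σ)) * inlM (r σ))
    (ht : M.trace = 2) : (b σ * r σ).trace = 0 := by
  have h1 : sndM M = b σ * r σ := by rw [hM]; simp
  rw [← h1]
  have h2 := congrArg TrivSqZeroExt.snd ht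
  simp only [Matrix.trace, Matrix.diag, Fin.sum_univ_two] at h2 ⊢
  have h20 : TrivSqZeroExt.snd (2 : DualNumber k) = 0 := TrivSqZeroExt.snd_natCast 2
  simpa [sndM, h20] using h2

/-- A tame-unipotent place where the residual representation is ramified. -/
theorem exists_inertia_ne_one (ρ : ResidualGaloisRep (ResidueField 𝒪))
    (bb : Basis (Fin 2) (ResidueField 𝒪) ρ.V) {q : ℕ} [Fact q.Prime]
    (h : ¬ ρ.IsUnramifiedAt q) :
    ∃ τ ∈ (padicPlace q).inertiaSubgroupIn ℚ, matRes ρ bb τ ≠ 1 := by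
  by_contra! hall
  refine h fun A hA σ hσ => ?_
  obtain ⟨g, hg⟩ := exists_smul_eq hA (Local.padicPlace_liesOverPrime q) (Fact.out : q.Prime)
  have h1 := hall (g * σ * g⁻¹) (hg ▸ (mem_inertia_smul_iff.mpr hσ))
  have h2 : matRes ρ bb σ = 1 := by
    rw [map_mul, map_mul] at h1
    calc matRes ρ bb σ
        = matRes ρ bb g⁻¹ * (matRes ρ bb g * matRes ρ bb σ * matRes ρ bb g⁻¹) *
            matRes ρ bb g := by
          rw [← map_mul, ← map_mul, ← map_mul, ← map_mul]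
          congr 1
          group
      _ = 1 := by rw [h1, mul_one, ← map_mul, inv_mul_cancel, map_one]
  exact (LinearMap.toMatrixAlgEquiv bb).injective (h2.trans (map_one _).symm)

variable {p : ℕ} [Fact p.Prime] {ρbar : ResidualGaloisRep (ResidueField 𝒪)}
  {𝒟 : ∀ ⦃A : Type⦄ [CommRing A] [IsLocalRing A] [Algebra 𝒪 A], GaloisRepAdic A → Prop}

/-- The residual representation of a deformation is unipotent where the deformations are. -/
theorem trace_det_matRes_of_deformationRingData (DQ : GaloisRep.DeformationRingData 𝒪 ρbar 𝒟)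
    {q : ℕ} (hu : DQ.ρ.IsUnipotentOnInertiaAt q) (bb : Basis (Fin 2) (ResidueField 𝒪) ρbar.V)
    {P : ValuationSubring QBar} (hP : P.LiesOverPrime q) {σ : Gal}
    (hσ : σ ∈ P.inertiaSubgroupIn ℚ) :
    (matRes ρbar bb σ).trace = 2 ∧ (matRes ρbar bb σ).det = 1 := by
  obtain ⟨W, hW⟩ := exists_rigid ρbar DQ.absIrr bb
  let h : IsResAlg 𝒪 DQ.R := ⟨DQ.instIsLocalHom, DQ.residue_surjective⟩
  obtain ⟨B, hl⟩ := exists_lifts_basis hW h DQ.ρ DQ.residual_isEquiv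
  obtain ⟨ht, hd⟩ := trace_det_matOf_of_unipotent hu B hP hσ
  have e : (matOf DQ.ρ B σ).map (augment h) = matRes ρbar bb σ := by
    rw [← hW]
    ext i j
    exact hl σ i j
  rw [← e]
  constructor
  · rw [Matrix.trace_fin_two] at ht ⊢
    rw [Matrix.map_apply, Matrix.map_apply, ← map_add, ht, map_ofNat]
  · rw [← map_one (augment h), ← hd]
    exact (AlgHom.map_det (augment h) _).symm

/-- The common part of both presentations. -/
theorem surjective_of_core_aux [CharP (ResidueField 𝒪) p]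
    (bb : Basis (Fin 2) (ResidueField 𝒪) ρbar.V) {S Smin : Finset ℕ} {r' : ℕ} {qv : Fin r' → ℕ}
    (hcore : RT.Assembly.TangentCoreAt p (matRes ρbar bb) Smin ∅ qv)
    (hS : ∀ q ∈ Smin, q ∈ S) (hSp : ∀ q ∈ S, q.Prime)
    (DQ : GaloisRep.DeformationRingData 𝒪 ρbar 𝒟)
    (h𝒟 : ∀ (A : Type) [CommRing A] [IsLocalRing A] [Algebra 𝒪 A] (φ : DQ.R →ₐ[𝒪] A)
      (hφ : IsLocalHom (φ : DQ.R →+* A)), Function.Surjective φ →
        𝒟 (DQ.ρ.baseChangeAlong (φ : DQ.R →+* A) hφ))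
    (hdet : ∀ (A : Type) [CommRing A] [IsLocalRing A] [Algebra 𝒪 A] (ρ : GaloisRepAdic A),
      𝒟 ρ → ρ.DetIsCyclotomic p)
    (hunr : ∀ (A : Type) [CommRing A] [IsLocalRing A] [Algebra 𝒪 A] (ρ : GaloisRepAdic A),
      𝒟 ρ → ∀ q : ℕ, q.Prime → q ∉ Smin → (∀ i, qv i ≠ q) → ρ.IsUnramifiedAt q)
    (hunip : ∀ (A : Type) [CommRing A] [IsLocalRing A] [Algebra 𝒪 A] (ρ : GaloisRepAdic A),
      𝒟 ρ → ∀ q ∈ Smin, q.Prime → q ≠ p → ρ.IsUnipotentOnInertiaAt q)
    (hloc : ∀ V : Submodule (ResidueField 𝒪) (Gal → M2 (ResidueField 𝒪)),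
      Module.Finite (ResidueField 𝒪) V →
      (∀ b ∈ V, IsAdCocycle (matRes ρbar bb) b ∧ IsFiniteLevel b ∧ ∀ σ, (b σ).trace = 0) →
      (∀ b ∈ V, b ≠ 0 → IsTangentClass 𝒟 (matRes ρbar bb) b) →
      finrank (ResidueField 𝒪) V ≤
        finrank (ResidueField 𝒪) (V ⊓ cobdOn (matRes ρbar bb)
          ((padicPlace p).decompositionSubgroup ℚ) :
            Submodule (ResidueField 𝒪) (Gal → M2 (ResidueField 𝒪))) +
        finrank (ResidueField 𝒪) (fixedOn (matRes ρbar bb)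
          ((padicPlace p).decompositionSubgroup ℚ)) + 1) :
    ∃ γ : MvPowerSeries (Fin r') 𝒪 →ₐ[𝒪] DQ.R, Function.Surjective γ := by
  obtain ⟨V, hVfin, hsurj, hV, hcob⟩ := exists_tangent_classes DQ bb h𝒟
  letI := dualAlgebra 𝒪
  have htr : ∀ b ∈ V, ∀ σ, (b σ).trace = 0 := by
    intro b hb σ
    rcases eq_or_ne b 0 with rfl | hne
    · simp
    obtain ⟨ρ, B, hρ, hB⟩ := (hV b hb).2.2 hne
    exact trace_eq_zero_of_det p (hdet _ ρ hρ) hB σ
  have hcoc : ∀ b ∈ V, IsAdCocycle (matRes ρbar bb) b ∧ IsFiniteLevel b ∧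
      ∀ σ, (b σ).trace = 0 := fun b hb => ⟨(hV b hb).1, (hV b hb).2.1, htr b hb⟩
  refine hsurj r' ?_
  have key := hcore V hVfin hcoc (fun q hq hqS _ hqv A hA σ hσ b hb => ?_)
    (fun q hq hqp A hA σ hσ b hb => ?_) (fun v hv => absurd hv (Finset.notMem_empty v))
    (hloc V hVfin hcoc fun b hb hne => (hV b hb).2.2 hne) hcob
  · simpa using key
  · rcases eq_or_ne b 0 with rfl | hne
    · rfl
    obtain ⟨ρ, B, hρ, hB⟩ := (hV b hb).2.2 hne
    exact eq_zero_of_matOf_eq_one (hB σ)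
      (matOf_eq_one_of_unramified (hunr _ ρ hρ q hq hqS hqv) B hA hσ)
  · rcases eq_or_ne b 0 with rfl | hne
    · simp
    obtain ⟨ρ, B, hρ, hB⟩ := (hV b hb).2.2 hne
    exact trace_mul_eq_zero (hB σ)
      (trace_det_matOf_of_unipotent (hunip _ ρ hρ q hq (hSp q (hS q hq)) hqp) B hA hσ).1

set_option linter.unusedVariables false in
/-- Both presentations from the core bound. -/
theorem surjective_of_core (hcore : RT.Assembly.TangentCoreInput)
    (p : ℕ) [Fact p.Prime] (hp2 : p ≠ 2) (hp𝒪 : (p : 𝒪) ∈ maximalIdeal 𝒪)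
    (ρbar : ResidualGaloisRep (ResidueField 𝒪))
    (habs : ρbar.IsAbsolutelyIrreducible)
    (hdet : (GaloisRepAdic.ofResidualGaloisRep ρbar).DetIsCyclotomic p)
    (hsplit : ∀ σ : AlgebraicClosure ℚ ≃ₐ[ℚ] AlgebraicClosure ℚ,
      ∃ α β : ResidueField 𝒪, LinearMap.charpoly (ρbar.ρ σ) = (X - C α) * (X - C β))
    (hTW : ∀ (K : Type) [Field K] [Algebra (ResidueField 𝒪) K]
      (G : Subgroup (AlgebraicClosure ℚ ≃ₐ[ℚ] AlgebraicClosure ℚ)), G.index = 2 →
      ∀ V : Submodule K (ρbar.baseChange K).V,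
        (∀ σ ∈ G, ∀ x ∈ V, (ρbar.baseChange K).ρ σ x ∈ V) → V = ⊥ ∨ V = ⊤)
    (S Smin : Finset ℕ) (hpSmin : p ∈ Smin) (hSmin : Smin ⊆ S) (hS : ∀ q ∈ S, q.Prime)
    (hmin : ∀ q : ℕ, q.Prime → q ≠ p → (q ∈ Smin ↔ ¬ ρbar.IsUnramifiedAt q)) :
    (∃ r : ℕ, ∀ n : ℕ, ∃ qv : Fin r → ℕ, Function.Injective qv ∧
      (∀ i, (qv i).Prime ∧ qv i ∉ S ∧ p ^ (n + 1) ∣ qv i - 1) ∧
      (∀ i, ∀ P : ValuationSubring (AlgebraicClosure ℚ), P.LiesOverPrime (qv i) →
        ∀ φ : AlgebraicClosure ℚ ≃ₐ[ℚ] AlgebraicClosure ℚ, P.IsFrobeniusAt φ (qv i) →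
          ∃ α β : ResidueField 𝒪, α ≠ β ∧ LinearMap.charpoly (ρbar.ρ φ) = (X - C α) * (X - C β)) ∧
      ∀ DQ : GaloisRep.DeformationRingData 𝒪 ρbar (fun _A _ _ _ ρ =>
          GaloisRep.strictOrdinaryCondition 𝒪 p (Smin ∪ Finset.univ.image qv) ρ ∧
            ∀ q ∈ Smin, q.Prime → q ≠ p → ρ.IsUnipotentOnInertiaAt q),
        ∃ γ : MvPowerSeries (Fin r) 𝒪 →ₐ[𝒪] DQ.R, Function.Surjective γ) ∧
    (∃ r : ℕ, ∀ n : ℕ, ∃ qv : Fin r → ℕ, Function.Injective qv ∧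
      (∀ i, (qv i).Prime ∧ qv i ∉ S ∧ p ^ (n + 1) ∣ qv i - 1) ∧
      (∀ i, ∀ P : ValuationSubring (AlgebraicClosure ℚ), P.LiesOverPrime (qv i) →
        ∀ φ : AlgebraicClosure ℚ ≃ₐ[ℚ] AlgebraicClosure ℚ, P.IsFrobeniusAt φ (qv i) →
          ∃ α β : ResidueField 𝒪, α ≠ β ∧ LinearMap.charpoly (ρbar.ρ φ) = (X - C α) * (X - C β)) ∧
      ∀ DQ : GaloisRep.DeformationRingData 𝒪 ρbar (fun _A _ _ _ ρ =>
          GaloisRep.flatCondition 𝒪 p (Smin ∪ Finset.univ.image qv) ρ ∧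
            ∀ q ∈ Smin, q.Prime → q ≠ p → ρ.IsUnipotentOnInertiaAt q),
        ∃ γ : MvPowerSeries (Fin r) 𝒪 →ₐ[𝒪] DQ.R, Function.Surjective γ) := by
  classical
  have hp : p.Prime := Fact.out
  haveI : CharP (ResidueField 𝒪) p := (CharP.charP_iff_prime_eq_zero hp).2 (by
    rw [← map_natCast (residue 𝒪)]
    exact (residue_eq_zero_iff _).mpr hp𝒪)
  have h2 : (2 : ResidueField 𝒪) ≠ 0 := fun h0 => by
    have := (CharP.cast_eq_zero_iff (ResidueField 𝒪) p 2).mp (by exact_mod_cast h0)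
    exact hp2 ((Nat.prime_dvd_prime_iff_eq hp Nat.prime_two).mp this)
  let bb := Module.finBasisOfFinrankEq (ResidueField 𝒪) ρbar.V ρbar.finrank_eq
  set r := matRes ρbar bb with hr
  by_cases hU : ∀ q ∈ Smin, q ≠ p → ∀ P : ValuationSubring QBar, P.LiesOverPrime q →
      ∀ τ ∈ P.inertiaSubgroupIn ℚ, (r τ).trace = 2 ∧ (r τ).det = 1
  swap
  · have hvac : ∀ {𝒟 : ∀ ⦃A : Type⦄ [CommRing A] [IsLocalRing A] [Algebra 𝒪 A],
        GaloisRepAdic A → Prop} (DQ : GaloisRep.DeformationRingData 𝒪 ρbar 𝒟),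
        (∀ q ∈ Smin, q.Prime → q ≠ p → DQ.ρ.IsUnipotentOnInertiaAt q) → False := fun DQ h =>
      hU fun q hq hqp P hP τ hτ =>
        trace_det_matRes_of_deformationRingData DQ (h q hq (hS q (hSmin hq)) hqp) bb hP hτ
    exact ⟨⟨0, fun n => ⟨Fin.elim0, fun i => i.elim0, fun i => i.elim0, fun i => i.elim0,
        fun DQ => (hvac DQ DQ.isOfType.2).elim⟩⟩,
      ⟨0, fun n => ⟨Fin.elim0, fun i => i.elim0, fun i => i.elim0, fun i => i.elim0,
        fun DQ => (hvac DQ DQ.isOfType.2).elim⟩⟩⟩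
  have hfin : GaloisFactorsThroughFiniteLevel r := TWPrimes.finiteLevel_matRes ρbar bb
  have hcyc := TWPrimes.det_matRes_of_detIsCyclotomic ρbar bb p hdet
  have htw : TWPrimes.TWHyp r := TWPrimes.twHyp_matRes ρbar bb h2 habs hsplit
    (hTW (ResidueField 𝒪))
  obtain ⟨r', hr'⟩ := hcore (ResidueField 𝒪) p hp2 r hfin htw hcyc Smin ∅ S hpSmin hSmin
    (Finset.empty_subset _) (Finset.disjoint_empty_right _) hS
    (fun q hq hqS A hA σ hσ => by
      have hqp : q ≠ p := fun e => hqS (e ▸ hpSmin)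
      have hun : ρbar.IsUnramifiedAt q := not_not.mp fun h => hqS ((hmin q hq hqp).mpr h)
      show LinearMap.toMatrixAlgEquiv bb (ρbar.ρ σ) = 1
      rw [hun A hA σ hσ, map_one])
    (fun q hq hqp _ => ⟨fun τ hτ => hU q hq hqp _ (Local.padicPlace_liesOverPrime q) τ hτ,
      exists_inertia_ne_one ρbar bb ((hmin q (hS q (hSmin hq)) hqp).mp hq)⟩)
    (fun v hv => absurd hv (Finset.notMem_empty v))
  have hqvS : ∀ {qv : Fin r' → ℕ} {q : ℕ}, q ∉ Smin → (∀ i, qv i ≠ q) →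
      q ∉ Smin ∪ Finset.univ.image qv := fun {qv q} h1 h2 h => by
    rcases Finset.mem_union.mp h with h | h
    · exact h1 h
    · obtain ⟨i, -, hi⟩ := Finset.mem_image.mp h
      exact h2 i hi
  have hchar : ∀ {qv : Fin r' → ℕ}, (∀ i, ∀ A : ValuationSubring QBar,
      A.LiesOverPrime (qv i) → ∀ φ : Gal, A.IsFrobeniusAt φ (qv i) →
        ∃ α β : ResidueField 𝒪, α ≠ β ∧ (r φ).trace = α + β ∧ (r φ).det = α * β) →
      ∀ i, ∀ P : ValuationSubring (AlgebraicClosure ℚ), P.LiesOverPrime (qv i) →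
        ∀ φ : AlgebraicClosure ℚ ≃ₐ[ℚ] AlgebraicClosure ℚ, P.IsFrobeniusAt φ (qv i) →
          ∃ α β : ResidueField 𝒪, α ≠ β ∧
            LinearMap.charpoly (ρbar.ρ φ) = (X - C α) * (X - C β) :=
    fun h i P hP φ hφ => by
      obtain ⟨α, β, hne, ht, hd⟩ := h i P hP φ hφ
      exact ⟨α, β, hne, (charpoly_matRes ρbar bb φ).trans (charpoly_of_trace_det ht hd)⟩
  refine ⟨⟨r', fun n => ?_⟩, r', fun n => ?_⟩
  · obtain ⟨qv, hinj, hq, hfrob, hat⟩ := hr' n
    refine ⟨qv, hinj, hq, hchar hfrob, fun DQ => surjective_of_core_aux bb hat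
      (fun q hq => hSmin hq) hS DQ (fun A _ _ _ φ hφ _ => ?_) (fun A _ _ _ ρ h => h.1.1)
      (fun A _ _ _ ρ h q hq' h1 h2 => h.1.2.2 q hq' (hqvS h1 h2)) (fun A _ _ _ ρ h => h.2)
      (fun V _ hV hT => finrank_le_ordinary hp2 h2 hfin hcyc V (fun b hb => (hV b hb).1)
        (fun b hb => (hV b hb).2.1) fun b hb hne => ?_)⟩
    · obtain ⟨⟨h1, h2', h3⟩, h4⟩ := DQ.isOfType
      exact ⟨⟨DetIsCyclotomic.baseChange _ hφ h1, IsStrictOrdinaryAt.baseChange _ hφ h2',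
        fun q hq' hqS => IsUnramifiedAt.baseChange _ hφ (h3 q hq' hqS)⟩,
        fun q hq' hq1 hq2 => IsUnipotentOnInertiaAt.baseChange _ hφ (h4 q hq' hq1 hq2)⟩
    · obtain ⟨ρ, B, hρ, hB⟩ := hT b hb hne
      exact ⟨ρ, B, hρ.1.2.1, hρ.1.1, hB⟩
  · obtain ⟨qv, hinj, hq, hfrob, hat⟩ := hr' n
    refine ⟨qv, hinj, hq, hchar hfrob, fun DQ => surjective_of_core_aux bb hat
      (fun q hq => hSmin hq) hS DQ (fun A _ _ _ φ hφ hsur => ?_) (fun A _ _ _ ρ h => h.1.1)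
      (fun A _ _ _ ρ h q hq' h1 h2 => h.1.2.2 q hq' (hqvS h1 h2)) (fun A _ _ _ ρ h => h.2)
      (fun V _ hV hT => Flat.finrank_le_flat hp2 hfin hcyc htw.split V (fun b hb => (hV b hb).1)
        (fun b hb => (hV b hb).2.1) (fun b hb => (hV b hb).2.2) fun b hb hne => ?_)⟩
    · obtain ⟨⟨h1, h2', h3⟩, h4⟩ := DQ.isOfType
      exact ⟨⟨DetIsCyclotomic.baseChange _ hφ h1, IsFlatAt.baseChange _ hφ hsur h2',
        fun q hq' hqS => IsUnramifiedAt.baseChange _ hφ (h3 q hq' hqS)⟩,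
        fun q hq' hq1 hq2 => IsUnipotentOnInertiaAt.baseChange _ hφ (h4 q hq' hq1 hq2)⟩
    · obtain ⟨ρ, B, hρ, hB⟩ := hT b hb hne
      exact ⟨ρ, B, hρ.1.2.1, hB⟩

end Fermat.Agent.CFT.Tangent
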