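import Fermat.Agent.CFT.Tangent.AdModule
import Fermat.Agent.CFT.Tangent.LocalPlace
import Fermat.Agent.CFT.Idele.KummerHom
import Fermat.Agent.CFT.Idele.Decomp

/-!
# Global adjoint classes seen at the Kummer level

Decomposition elements at finite level, and the cocycles unramified outside a finite set as
cocycles of the maximal abelian extension of exponent `p` unramified outside it.
-/

set_option autoImplicit false
set_option synthInstance.maxHeartbeats 200000
set_option linter.unusedSectionVars false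
set_option linter.style.haveILetI false

noncomputable section

namespace Fermat.Agent.CFT.Tangent

open ExtCitation Fermat.Agent.Arith Fermat.Agent.Deform IntermediateField
open Fermat.Agent.CFT.Idele Fermat.Agent.CFT.Duality
open scoped Pointwise

local instance factPrimeLevelClasses (q : Nat.Primes) : Fact (q : ℕ).Prime := ⟨q.2⟩

section Decomposition

variable (K : IntermediateField ℚ QBar) [FiniteDimensional ℚ K] [Normal ℚ K] (q : Nat.Primes)

theorem mem_decomp_of_decomposition {σ : GQ}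
    (hσ : σ ∈ (padicPlace (q : ℕ)).decompositionSubgroup ℚ) : res K σ ∈ decomp K q :=
  (Local.mem_range_toGlobal_iff (q : ℕ) K (res K σ)).mpr fun x hx => by
    rw [res_apply]
    exact map_mem_of_mem_decomposition hσ hx

theorem exists_decomposition_of_mem_decomp {g : K ≃ₐ[ℚ] K} (hg : g ∈ decomp K q) :
    ∃ σ ∈ (padicPlace (q : ℕ)).decompositionSubgroup ℚ, res K σ = g := by
  obtain ⟨t, rfl⟩ := hg
  exact ⟨localGaloisToGlobal (q : ℕ) (t.liftNormal (PadicAlgCl (q : ℕ))),
    localGaloisToGlobal_mem_decompositionSubgroup (q : ℕ) _, rfl⟩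

end Decomposition

section Level

variable {k : Type} [Field k] (p : ℕ) [hp : Fact p.Prime] [CharP k p]
  {K L : IntermediateField ℚ QBar}

/-- A class unramified outside `T₁` is trivial on a group where all such characters are trivial. -/
theorem apply_eq_zero_of_level (r : GQ →* M2 k)
    (hK : ∀ σ ∈ K.fixingSubgroup, r σ = 1) (T₁ : Finset Nat.Primes) (h : K ≤ L)
    (hL : ∀ (φ : K.fixingSubgroup →* Multiplicative (ZMod p)) (F : IntermediateField ℚ QBar)
      [FiniteDimensional ℚ F],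
      (∀ s : K.fixingSubgroup, (s : GQ) ∈ F.fixingSubgroup → φ s = 1) →
      (∀ q ∉ T₁, ∀ A : ValuationSubring QBar, A.LiesOverPrime (q : ℕ) →
        ∀ s : K.fixingSubgroup, (s : GQ) ∈ A.inertiaSubgroupIn ℚ → φ s = 1) →
      ∀ s : K.fixingSubgroup, (s : GQ) ∈ L.fixingSubgroup → φ s = 1)
    (b : GQ → M2 k) (hb : IsAdCocycle r b) (hf : IsFiniteLevel b)
    (hram : ∀ q ∉ T₁, ∀ A : ValuationSubring QBar, A.LiesOverPrime (q : ℕ) →
      ∀ σ ∈ A.inertiaSubgroupIn ℚ, b σ = 0)
    {s : GQ} (hs : s ∈ L.fixingSubgroup) : b s = 0 := by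
  have hsK : s ∈ K.fixingSubgroup := IntermediateField.fixingSubgroup_antitone h hs
  have hA : ∀ a : M2 k, p • a = 0 := fun a => by
    ext i j
    simp
  letI : Module (ZMod p) (M2 k) := AddCommGroup.zmodModule (n := p) hA
  by_contra hne
  obtain ⟨l, hl, -⟩ := Submodule.exists_dual_map_eq_bot_of_notMem
    (p := (⊥ : Submodule (ZMod p) (M2 k))) (x := b s) (by simpa using hne) inferInstance
  refine hl ?_
  have hadd : ∀ u ∈ K.fixingSubgroup, ∀ v ∈ K.fixingSubgroup, b (u * v) = b u + b v :=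
    fun u hu v _ => by
      rw [hb u v, hK u hu, hK u⁻¹ (inv_mem hu), one_mul, mul_one, add_comm]
  let ψ : K.fixingSubgroup →* Multiplicative (ZMod p) :=
    MonoidHom.mk' (fun u => Multiplicative.ofAdd (l (b u))) fun u v => by
      rw [← ofAdd_add, ← map_add, ← hadd u u.2 v v.2]; rfl
  obtain ⟨F, hF, hF0⟩ := hf
  haveI := hF
  refine Multiplicative.ofAdd.injective (hL ψ F (fun u hu => ?_) (fun q hq A hA' u hu => ?_)
    ⟨s, hsK⟩ hs)
  · show Multiplicative.ofAdd (l (b u)) = 1
    rw [hF0 u ((IntermediateField.mem_fixingSubgroup_iff _ _).mp hu), map_zero, ofAdd_zero]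
  · show Multiplicative.ofAdd (l (b u)) = 1
    rw [hram q hq A hA' u hu, map_zero, ofAdd_zero]

variable [FiniteDimensional ℚ K] [Normal ℚ K] [FiniteDimensional ℚ L] [Normal ℚ L]

/-- The classes unramified outside `T₁` as cocycles of the level `L`. -/
theorem exists_levelClasses (r : GQ →* M2 k) (hK : ∀ σ, res K σ = 1 → r σ = 1)
    (T₁ : Finset Nat.Primes) (h : K ≤ L)
    (hL : ∀ (φ : K.fixingSubgroup →* Multiplicative (ZMod p)) (F : IntermediateField ℚ QBar)
      [FiniteDimensional ℚ F],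
      (∀ s : K.fixingSubgroup, (s : GQ) ∈ F.fixingSubgroup → φ s = 1) →
      (∀ q ∉ T₁, ∀ A : ValuationSubring QBar, A.LiesOverPrime (q : ℕ) →
        ∀ s : K.fixingSubgroup, (s : GQ) ∈ A.inertiaSubgroupIn ℚ → φ s = 1) →
      ∀ s : K.fixingSubgroup, (s : GQ) ∈ L.fixingSubgroup → φ s = 1)
    (V : Submodule k (GQ → M2 k))
    (hcoc : ∀ b ∈ V, IsAdCocycle r b ∧ IsFiniteLevel b ∧ ∀ σ, (b σ).trace = 0)
    (hram : ∀ q ∉ T₁, ∀ A : ValuationSubring QBar, A.LiesOverPrime (q : ℕ) →
      ∀ σ ∈ A.inertiaSubgroupIn ℚ, ∀ b ∈ V, b σ = 0) :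
    ∃ ι : V →+ levelCocycles (levelRes h) (AdMod (galRep r hK)),
      ∀ (b : V) (σ : GQ),
        AdMod.val ((ι b : (L ≃ₐ[ℚ] L) → AdMod (galRep r hK)) (res L σ)) =
          (b : GQ → M2 k) σ := by
  have hK' : ∀ σ ∈ K.fixingSubgroup, r σ = 1 := fun σ hσ => hK σ ((res_eq_one_iff K).mpr hσ)
  -- values only depend on the restriction
  have key : ∀ (b : V) (g : L ≃ₐ[ℚ] L) (σ : GQ), res L σ = g →
      (b : GQ → M2 k) (Idele.lift L g) = (b : GQ → M2 k) σ := fun b g σ hσ => by
    obtain ⟨hb, hf, -⟩ := hcoc b b.2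
    have ht : σ⁻¹ * Idele.lift L g ∈ L.fixingSubgroup :=
      (res_eq_one_iff L).mp (by rw [map_mul, map_inv, res_lift, hσ, inv_mul_cancel])
    have h0 := apply_eq_zero_of_level p r hK' T₁ h hL b hb hf
      (fun q hq A hA τ hτ => hram q hq A hA τ hτ b b.2) ht
    conv_lhs => rw [← mul_inv_cancel_left σ (Idele.lift L g)]
    rw [hb, h0, mul_zero, zero_mul, zero_add]
  let f : V → (L ≃ₐ[ℚ] L) → AdMod (galRep r hK) := fun b g =>
    AdMod.mk ((b : GQ → M2 k) (Idele.lift L g)) ((hcoc b b.2).2.2 _)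
  have hf : ∀ b, f b ∈ levelCocycles (levelRes h) (AdMod (galRep r hK)) := fun b g g' =>
    AdMod.val_injective (by
      show (b : GQ → M2 k) (Idele.lift L (g * g')) =
        AdMod.val (res K (Idele.lift L g) • f b g') + AdMod.val (f b g)
      rw [key b (g * g') (Idele.lift L g * Idele.lift L g')
        (by rw [map_mul, res_lift, res_lift]), (hcoc b b.2).1, val_res_smul]
      rfl)
  refine ⟨AddMonoidHom.mk' (fun b => ⟨f b, hf b⟩) fun b b' =>
    Subtype.ext (funext fun g => AdMod.val_injective rfl), fun b σ => ?_⟩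
  exact key b _ σ rfl

end Level

end Fermat.Agent.CFT.Tangent
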