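import Fermat.Agent.CFT.Tangent.AdModule
import Fermat.Agent.CFT.Tangent.LevelClasses
import Fermat.Agent.CFT.Euler.SelmerBound
import Fermat.Agent.CFT.Idele.FixedClasses

/-!
The set of auxiliary primes at the splitting field, and the comparison of counts with dimensions.
-/

set_option autoImplicit false
set_option synthInstance.maxHeartbeats 200000
set_option maxHeartbeats 1000000
set_option linter.unusedSectionVars false
set_option linter.style.haveILetI false

noncomputable section

namespace Fermat.Agent.CFT.Tangent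

open ExtCitation Fermat.Agent.Arith Fermat.Agent.Deform IntermediateField Module
open Fermat.Agent.CFT.Idele Fermat.Agent.CFT.Duality Fermat.Agent.CFT.Euler

local instance factPrimeLevelSetup (q : Nat.Primes) : Fact (q : ℕ).Prime := ⟨q.2⟩

/-- A finite set of primes generating the ideal classes. -/
theorem exists_hgen (K : IntermediateField ℚ QBar) [FiniteDimensional ℚ K] [Normal ℚ K]
    (T₀ : Finset Nat.Primes) :
    ∃ T : Finset Nat.Primes, T₀ ⊆ T ∧ ∀ f : J K, ∃ a : Additive Kˣ, ∀ q ∉ T, ∀ σ,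
      Idele.val (f + diag K a).toMul q σ ∈ Local.unitGroup (E K q) := by
  obtain ⟨T, hT, h⟩ := exists_finset_idl_classes (L := K) (K := K) le_rfl T₀
  refine ⟨T, hT, fun f => ?_⟩
  obtain ⟨c, hc, hcT⟩ := h f.toMul f.toMul.2
  let a : Kˣ := Units.mk0 (⟨(c : QBar), hc⟩ : K) fun e => c.ne_zero (congrArg Subtype.val e)
  have e : Units.map K.val.toRingHom.toMonoidHom a = c := Units.ext rfl
  refine ⟨Additive.ofMul a, fun q hq σ => ?_⟩
  rw [Local.mem_unitGroup, norm_val _ q (res_lift K σ)]
  show ‖((((f.toMul : idl K) : PreIdele) * prin (Units.map K.val.toRingHom.toMonoidHom a)) q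
    (Idele.lift K σ) : (Ω q)ˣ).val‖ = 1
  rw [e]
  exact hcT q hq _

variable {k : Type} [Field k] (r : GQ →* M2 k)

theorem zetaP_mem_splitField (p : ℕ) [hp : Fact p.Prime] [CharP k p]
    (hcyc : ∀ (σ : GQ) (n : ℕ), (∀ μ : QBar, μ ^ p = 1 → σ μ = μ ^ n) → (r σ).det = (n : k)) :
    ((zetaP p : QBarˣ) : QBar) ∈ splitField r := by
  refine (IntermediateField.mem_fixedField_iff _ _).mpr fun σ hσ => ?_
  obtain ⟨a, ha⟩ := exists_cycA p σ
  have h1 : (a : k) = ((1 : ℕ) : k) := by
    rw [← hcyc σ a ha, MonoidHom.mem_ker.mp hσ, Matrix.det_one, Nat.cast_one]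
  rw [ha _ (zetaP_spec p).pow_eq_one, pow_eq_pow_mod a (zetaP_spec p).pow_eq_one,
    (CharP.natCast_eq_natCast k p).mp h1, Nat.mod_eq_of_lt hp.out.one_lt, pow_one]

theorem inertia_eq_bot_splitField
    [FiniteDimensional ℚ (splitField r)] [Normal ℚ (splitField r)] (q : Nat.Primes)
    (hq : ∀ σ ∈ (padicPlace (q : ℕ)).inertiaSubgroupIn ℚ, r σ = 1) :
    Local.inertia (E (splitField r) q) = ⊥ := by
  refine (Local.inertia_eq_bot_iff (q : ℕ) (splitField r)).mpr fun g hg x => ?_
  exact ((IntermediateField.mem_fixedField_iff r.ker (x : QBar)).mp x.2) g (hq g hg)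

variable [Finite k] (p : ℕ) [hp : Fact p.Prime] [CharP k p]

theorem lpN_card_pos : 0 < lpN p (Nat.card k) := by
  haveI := Fintype.ofFinite k
  obtain ⟨n, -, hn⟩ := FiniteField.card k p
  rw [lpN, Nat.card_eq_fintype_card, hn, padicValNat.prime_pow]
  exact_mod_cast n.pos

theorem lpN_card_eq (M : Type*) [AddCommGroup M] [Module k M] [Module.Finite k M] :
    lpN p (Nat.card M) = (finrank k M : ℤ) * lpN p (Nat.card k) := by
  haveI := Fintype.ofFinite k
  rw [Module.natCard_eq_pow_finrank (K := k) (V := M), lpN, lpN,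
    padicValNat.pow]
  push_cast
  ring

variable {K : IntermediateField ℚ QBar} [FiniteDimensional ℚ K] [Normal ℚ K]
  (hK : ∀ σ, res K σ = 1 → r σ = 1)

/-- The fixed matrices of a decomposition group are invariants. -/
theorem finrank_fixedOn_le [Fintype (K ≃ₐ[ℚ] K)] (q : Nat.Primes) :
    (finrank k (fixedOn r ((padicPlace (q : ℕ)).decompositionSubgroup ℚ)) : ℤ) *
        lpN p (Nat.card k) ≤
      lpN p (Nat.card (fixPts (decomp K q) (AdMod (galRep r hK)))) := by
  rw [← lpN_card_eq]
  let F := fixedOn r ((padicPlace (q : ℕ)).decompositionSubgroup ℚ)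
  let f : F →+ fixPts (decomp K q) (AdMod (galRep r hK)) := AddMonoidHom.mk'
    (fun X => ⟨AdMod.mk (X : M2 k) ((mem_fixedOn r).mp X.2).1, fun g => by
      obtain ⟨σ, hσ, hσg⟩ := exists_decomposition_of_mem_decomp K q g.2
      refine AdMod.val_injective ?_
      show AdMod.val ((g : K ≃ₐ[ℚ] K) •
        AdMod.mk (ρ := galRep r hK) (X : M2 k) ((mem_fixedOn r).mp X.2).1) = _
      rw [← hσg, val_res_smul]
      exact ((mem_fixedOn r).mp X.2).2 σ hσ⟩)
    fun X Y => Subtype.ext (AdMod.val_injective rfl)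
  have hf : Function.Injective f := fun X Y h =>
    Subtype.ext (congrArg (fun z : fixPts (decomp K q) (AdMod (galRep r hK)) =>
      AdMod.val (z : AdMod (galRep r hK))) h)
  exact lpN_mono p (AddSubgroup.card_dvd_of_injective f hf) Nat.card_pos.ne'

variable {L : IntermediateField ℚ QBar} [FiniteDimensional ℚ L] [Normal ℚ L] (h : K ≤ L)
  {V : Submodule k (GQ → M2 k)} (ι : V →+ levelCocycles (levelRes h) (AdMod (galRep r hK)))
  (hι : ∀ (b : V) (σ : GQ),
    AdMod.val ((ι b : (L ≃ₐ[ℚ] L) → AdMod (galRep r hK)) (res L σ)) = (b : GQ → M2 k) σ)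

include hι in
theorem levelClasses_injective : Function.Injective ι := fun b b' e => Subtype.ext (funext fun σ => by
  rw [← hι, ← hι, e])

include hι in
theorem eq_zero_of_mem_cobdSub (hindep : ∀ b ∈ V, ∀ X, b = cobdLin r X → b = 0)
    (a : levelCocycles (levelRes h) (AdMod (galRep r hK))) (ha : a ∈ ι.range)
    (hc : a ∈ cobdSub h) : a = 0 := by
  obtain ⟨b, rfl⟩ := ha
  obtain ⟨x, hx⟩ := hc
  have e : (b : GQ → M2 k) = cobdLin r (AdMod.val x) := funext fun σ => by
    rw [← hι b σ, hx, levelRes_res, map_sub, val_res_smul]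
    rfl
  rw [show b = 0 from Subtype.ext (hindep _ b.2 _ e), map_zero]

include hι in
/-- The index of the locally trivial classes. -/
theorem lpN_relIndex_locCobd_le [Module.Finite k V] (q : Nat.Primes) :
    lpN p ((locCobd h q).relIndex ι.range) ≤
      ((finrank k V : ℤ) - finrank k (V ⊓ cobdOn r ((padicPlace (q : ℕ)).decompositionSubgroup ℚ) :
        Submodule k (GQ → M2 k))) * lpN p (Nat.card k) := by
  have hinj := levelClasses_injective r hK h ι hι
  haveI : Finite V := Module.finite_of_finite k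
  set W' := (V ⊓ cobdOn r ((padicPlace (q : ℕ)).decompositionSubgroup ℚ) :
    Submodule k (GQ → M2 k)) with hW'
  haveI : Finite W' := Finite.of_injective (Submodule.inclusion (inf_le_left : W' ≤ V))
    (Submodule.inclusion_injective _)
  haveI : Finite ι.range := Finite.of_surjective ι.rangeRestrict ι.rangeRestrict_surjective
  let C' := (locCobd h q).addSubgroupOf ι.range
  let g : W' →+ C' := AddMonoidHom.mk'
    (fun b => ⟨⟨ι ⟨(b : GQ → M2 k), b.2.1⟩, _, rfl⟩, by
      obtain ⟨X, hX, hb⟩ := (mem_cobdOn r).mp b.2.2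
      refine ⟨AdMod.mk X hX, fun g hg => AdMod.val_injective ?_⟩
      obtain ⟨σ, hσ, hσg⟩ := exists_decomposition_of_mem_decomp L q hg
      show AdMod.val ((ι ⟨(b : GQ → M2 k), b.2.1⟩ : (L ≃ₐ[ℚ] L) → AdMod (galRep r hK)) g) = _
      rw [← hσg, hι, levelRes_res, map_sub, val_res_smul]
      exact hb σ hσ⟩)
    fun b b' => Subtype.ext (Subtype.ext (map_add ι ⟨(b : GQ → M2 k), b.2.1⟩ ⟨b', b'.2.1⟩))
  have hg : Function.Injective g := fun b b' e => by
    have := hinj (congrArg (fun z : C' =>
      ((z : ι.range) : levelCocycles (levelRes h) (AdMod (galRep r hK)))) e)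
    exact Subtype.ext (congrArg (fun z : V => (z : GQ → M2 k)) this)
  have h1 : lpN p (Nat.card W') ≤ lpN p (Nat.card C') :=
    lpN_mono p (AddSubgroup.card_dvd_of_injective g hg) Nat.card_pos.ne'
  have h2 : lpN p (Nat.card C') + lpN p ((locCobd h q).relIndex ι.range) =
      lpN p (Nat.card ι.range) := by
    show lpN p (Nat.card C') + lpN p C'.index = _
    rw [← lpN_mul p Nat.card_pos.ne'
      (show C'.index ≠ 0 from AddSubgroup.index_ne_zero_of_finite),
      ← C'.card_mul_index]
  have h3 : Nat.card ι.range = Nat.card V :=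
    (Nat.card_congr (AddMonoidHom.ofInjective hinj).toEquiv).symm
  rw [h3, lpN_card_eq (k := k) p V] at h2
  rw [lpN_card_eq (k := k) p W'] at h1
  rw [sub_mul]
  linarith

end Fermat.Agent.CFT.Tangent
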