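import Fermat.Agent.CFT.Tangent.LocalKummer
import Fermat.Agent.CFT.Tangent.Classes
import Fermat.Prelude.Def_GaloisRep_StrictOrdinary

/-!
The local bound for strictly ordinary tangent classes at `p`.
-/

set_option autoImplicit false
set_option synthInstance.maxHeartbeats 200000
set_option linter.style.haveILetI false

noncomputable section

namespace Fermat.Agent.CFT.Tangent

open Fermat.Agent.Deform Fermat.Agent.Arith Module
open scoped Pointwise

variable {p : ℕ} [Fact p.Prime] {k : Type} [Field k] [Finite k] [CharP k p]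

/-- At most two classes of cyclotomic cocycles. -/
theorem finrank_kummer_le (hp2 : p ≠ 2) (a : Gal → k)
    (ha : ∀ (σ : Gal) (n : ℕ), (∀ μ : QBar, μ ^ p = 1 → σ μ = μ ^ n) → a σ = (n : k))
    (Z : Submodule k (Gal → k)) [Module.Finite k Z]
    (hZ : ∀ β ∈ Z, ∀ s ∈ (padicPlace p).decompositionSubgroup ℚ,
      ∀ t ∈ (padicPlace p).decompositionSubgroup ℚ, β (s * t) = a s * β t + β s)
    (L : IntermediateField ℚ QBar) [Normal ℚ L] [FiniteDimensional ℚ L]
    (hlev : ∀ β ∈ Z, ∀ σ : Gal, (∀ x ∈ L, σ x = x) → β σ = 0) :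
    finrank k Z ≤ finrank k (Z ⊓ scalarCobdOn a ((padicPlace p).decompositionSubgroup ℚ) :
      Submodule k (Gal → k)) + 2 := by
  haveI : NeZero p := ⟨(Fact.out : p.Prime).ne_zero⟩
  obtain ⟨ζ, hζ⟩ := HasEnoughRootsOfUnity.exists_primitiveRoot QBar p
  haveI : FiniteDimensional ℚ (IntermediateField.adjoin ℚ {ζ}) :=
    IntermediateField.adjoin.finiteDimensional (Algebra.IsIntegral.isIntegral ζ)
  haveI : Normal ℚ QBar := IsAlgClosure.normal ℚ QBar
  let M : IntermediateField ℚ QBar := L ⊔ IntermediateField.adjoin ℚ {ζ}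
  haveI : Normal ℚ (IntermediateField.normalClosure ℚ M QBar) := normalClosure.normal ℚ M QBar
  exact finrank_kummer_le_of_mem hp2 a ha Z hZ (IntermediateField.normalClosure ℚ M QBar) hζ
    (M.le_normalClosure ((le_sup_right (α := IntermediateField ℚ QBar) (a := L))
      (IntermediateField.subset_adjoin ℚ _ (Set.mem_singleton ζ))))
    fun β hβ σ hσ => hlev β hβ σ fun x hx =>
      hσ x (M.le_normalClosure (le_sup_left (α := IntermediateField ℚ QBar) hx))

variable {r : Gal →* M2 k}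

omit [Finite k] [CharP k p] in
/-- The bound from a stable line and a bound on the cocycles in it. -/
theorem finrank_le_of_line_bound (h2 : (2 : k) ≠ 0)
    (hr : GaloisFactorsThroughFiniteLevel r) (a : Gal → k)
    (V : Submodule k (Gal → M2 k)) [Module.Finite k V]
    (hcoc : ∀ b ∈ V, IsAdCocycle r b) (hlev : ∀ b ∈ V, IsFiniteLevel b)
    {N H : M2 k} (hHtr : H.trace = 0) (hNtr : N.trace = 0)
    (hli : LinearIndependent k ![N, H])
    (hN : ∀ s ∈ (padicPlace p).decompositionSubgroup ℚ, r s * N * r s⁻¹ = a s • N)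
    (hH : ∀ s ∈ (padicPlace p).decompositionSubgroup ℚ, ∃ u : k, r s * H * r s⁻¹ - H = u • N)
    (hb : ∀ b ∈ V, ∃ X : M2 k, ∀ s ∈ (padicPlace p).decompositionSubgroup ℚ,
      ∃ c : k, b s - cobdLin r X s = c • N) (m : ℕ)
    (hbound : ∀ (L : IntermediateField ℚ QBar) [Normal ℚ L] [FiniteDimensional ℚ L],
      (∀ σ : Gal, (∀ x ∈ L, σ x = x) → r σ = 1) →
      ∀ (Z : Submodule k (Gal → k)) [Module.Finite k Z],
        (∀ β ∈ Z, ∀ s ∈ (padicPlace p).decompositionSubgroup ℚ,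
          ∀ t ∈ (padicPlace p).decompositionSubgroup ℚ, β (s * t) = a s * β t + β s) →
        (∀ β ∈ Z, ∀ σ : Gal, (∀ x ∈ L, σ x = x) → β σ = 0) →
        (∀ β ∈ Z, ∃ v ∈ V, ∀ g, r g = 1 → v g = 0 → β g = 0) →
        finrank k Z ≤ finrank k (Z ⊓ scalarCobdOn a ((padicPlace p).decompositionSubgroup ℚ) :
          Submodule k (Gal → k)) + (m + 1)) :
    finrank k V ≤ finrank k (V ⊓ cobdOn r ((padicPlace p).decompositionSubgroup ℚ) :
        Submodule k (Gal → M2 k)) +
      finrank k (fixedOn r ((padicPlace p).decompositionSubgroup ℚ)) + m := by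
  classical
  set D := (padicPlace p).decompositionSubgroup ℚ with hDdef
  obtain ⟨L, hLf, hLn, hL⟩ := exists_common_level hr V hlev
  obtain ⟨φ, hφN, hφH⟩ : ∃ φ : M2 k →ₗ[k] k, φ N = 1 ∧ φ H = 0 := by
    have hNH : N ∉ Submodule.span k {H} := fun hmem => by
      obtain ⟨c, hc⟩ := Submodule.mem_span_singleton.mp hmem
      have h := (LinearIndependent.pair_iff.mp hli) 1 (-c)
        (by rw [one_smul, neg_smul, hc, add_neg_cancel])
      exact one_ne_zero h.1
    obtain ⟨f, hfN, hfH⟩ := Submodule.exists_dual_map_eq_bot_of_notMem hNH inferInstance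
    refine ⟨(f N)⁻¹ • f, ?_, ?_⟩
    · rw [LinearMap.smul_apply, smul_eq_mul, inv_mul_cancel₀ hfN]
    · have h1 := Submodule.mem_map_of_mem (f := f) (Submodule.mem_span_singleton_self H)
      rw [hfH, Submodule.mem_bot] at h1
      rw [LinearMap.smul_apply, h1, smul_zero]
  let lineSub : Submodule k (Gal → M2 k) :=
    { carrier := {b | ∀ s ∈ D, ∃ c : k, b s = c • N}
      add_mem' := fun {b c} hb hc s hs => by
        obtain ⟨x, hx⟩ := hb s hs
        obtain ⟨y, hy⟩ := hc s hs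
        exact ⟨x + y, by rw [Pi.add_apply, hx, hy, add_smul]⟩
      zero_mem' := fun s _ => ⟨0, by simp⟩
      smul_mem' := fun t b hb s hs => by
        obtain ⟨x, hx⟩ := hb s hs
        exact ⟨t * x, by rw [Pi.smul_apply, hx, smul_smul]⟩ }
  set V₀ : Submodule k (Gal → M2 k) := (V ⊔ LinearMap.range (cobdLin r)) ⊓ lineSub with hV₀
  have hV : V ≤ V₀ ⊔ cobdOn r D := by
    intro b hbV
    obtain ⟨X, hX⟩ := hb b hbV
    exact Submodule.mem_sup.mpr ⟨b - cobdLin r X, ⟨sub_mem (Submodule.mem_sup_left hbV)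
      (Submodule.mem_sup_right (LinearMap.mem_range_self _ X)), fun s hs => hX s hs⟩,
      cobdLin r X, cobdLin_mem_cobdOn h2 D X, sub_add_cancel _ _⟩
  let Ψ : V₀ →ₗ[k] (Gal → k) := (φ.compLeft Gal).comp V₀.subtype
  have hΨ : ∀ (b : V₀), ∀ s ∈ D, (b : Gal → M2 k) s = Ψ b s • N := fun b s hs => by
    obtain ⟨c, hc⟩ := b.2.2 s hs
    show _ = φ ((b : Gal → M2 k) s) • N
    rw [hc, map_smul, hφN, smul_eq_mul, mul_one]
  have hV₀' : ∀ b : V₀, IsAdCocycle r (b : Gal → M2 k) ∧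
      ∀ σ : Gal, (∀ x ∈ L, σ x = x) → (b : Gal → M2 k) σ = 0 := by
    rintro ⟨b, hb', -⟩
    obtain ⟨v, hv, _, ⟨X, rfl⟩, rfl⟩ := Submodule.mem_sup.mp hb'
    refine ⟨(hcoc v hv).add (isAdCocycle_cobdLin r X), fun σ hσ => ?_⟩
    obtain ⟨h1, h0⟩ := hL σ hσ
    have h1' : r σ⁻¹ = 1 := by have h := map_inv_mul r σ; rwa [h1, mul_one] at h
    show v σ + cobdLin r X σ = 0
    rw [h0 v hv, cobdLin_apply, h1, h1', one_mul, mul_one, sub_self, add_zero]
  let Z := LinearMap.range Ψ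
  set B := scalarCobdOn a D with hB
  have hZ : ∀ β ∈ Z, ∀ s ∈ D, ∀ t ∈ D, β (s * t) = a s * β t + β s := by
    rintro _ ⟨b, rfl⟩ s hs t ht
    show φ ((b : Gal → M2 k) (s * t)) = a s * φ ((b : Gal → M2 k) t) + φ ((b : Gal → M2 k) s)
    rw [(hV₀' b).1 s t, map_add, hΨ b t ht, mul_smul_comm, smul_mul_assoc, hN s hs, map_smul,
      map_smul, map_smul, hφN]
    simp only [smul_eq_mul, mul_one]
    rw [mul_comm]
  have hlevZ : ∀ β ∈ Z, ∀ σ : Gal, (∀ x ∈ L, σ x = x) → β σ = 0 := by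
    rintro _ ⟨b, rfl⟩ σ hσ
    show φ ((b : Gal → M2 k) σ) = 0
    rw [(hV₀' b).2 σ hσ, map_zero]
  have hsupp : ∀ β ∈ Z, ∃ v ∈ V, ∀ g, r g = 1 → v g = 0 → β g = 0 := by
    rintro _ ⟨b, rfl⟩
    obtain ⟨v, hv, _, ⟨X, rfl⟩, hvb⟩ := Submodule.mem_sup.mp b.2.1
    refine ⟨v, hv, fun g hg hvg => ?_⟩
    have hg' : r g⁻¹ = 1 := by have h := map_inv_mul r g; rwa [hg, mul_one] at h
    show φ ((b : Gal → M2 k) g) = 0
    rw [← hvb, Pi.add_apply, hvg, cobdLin_apply, hg, hg', one_mul, mul_one, sub_self, add_zero,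
      map_zero]
  let W := Z ⧸ B.comap Z.subtype
  have hW : finrank k W ≤ m + 1 := by
    have h1 := hbound L (fun σ hσ => (hL σ hσ).1) Z hZ hlevZ hsupp
    have h2' := (B.comap Z.subtype).finrank_quotient_add_finrank
    have h7 : finrank k (B.comap Z.subtype) = finrank k (Z ⊓ B : Submodule k (Gal → k)) :=
      ((Submodule.equivSubtypeMap Z _).trans
        (LinearEquiv.ofEq _ _ (Submodule.map_comap_subtype Z _))).finrank_eq
    show finrank k (Z ⧸ B.comap Z.subtype) ≤ m + 1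
    linarith [h1, h2', h7]
  let Λ₀ : V₀ →ₗ[k] W := (B.comap Z.subtype).mkQ.comp Ψ.rangeRestrict
  have hHmem : cobdLin r H ∈ V₀ :=
    ⟨Submodule.mem_sup_right (LinearMap.mem_range_self _ H), fun s hs => hH s hs⟩
  have hΛ₀ : ∀ b : V₀, Λ₀ b = 0 → ∃ c : k, ∀ s ∈ D, (b : Gal → M2 k) s = cobdLin r (c • N) s := by
    intro b hb0
    obtain ⟨c, hc⟩ := (Submodule.Quotient.mk_eq_zero _).mp hb0
    refine ⟨c, fun s hs => ?_⟩
    rw [hΨ b s hs, show Ψ b s = (a s - 1) * c from hc s hs, cobdLin_apply, mul_smul_comm,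
      smul_mul_assoc, hN s hs, smul_smul, ← sub_smul]
    ring_nf
  set w := Λ₀ ⟨_, hHmem⟩ with hw
  by_cases hw0 : w = 0
  · obtain ⟨c, hc⟩ := hΛ₀ _ hw0
    have hfix : H - c • N ∈ fixedOn r D := by
      refine ⟨by rw [Matrix.trace_sub, hHtr, Matrix.trace_smul, hNtr, smul_zero, sub_zero],
        fun s hs => sub_eq_zero.mp ?_⟩
      have h := hc s hs
      change cobdLin r H s = cobdLin r (c • N) s at h
      rw [cobdLin_apply, cobdLin_apply] at h
      rw [mul_sub, sub_mul]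
      rw [show r s * H * r s⁻¹ - r s * (c • N) * r s⁻¹ - (H - c • N) =
        (r s * H * r s⁻¹ - H) - (r s * (c • N) * r s⁻¹ - c • N) by abel, h, sub_self]
    have hne : H - c • N ≠ 0 := fun h0 => by
      have h := (LinearIndependent.pair_iff.mp hli) (-c) 1 (by rw [neg_smul, one_smul, ← h0]; abel)
      exact one_ne_zero h.2
    have h1 : 1 ≤ finrank k (fixedOn r D) := by
      rw [← finrank_span_singleton (K := k) hne]
      exact Submodule.finrank_mono ((Submodule.span_singleton_le_iff_mem _ _).mpr hfix)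
    refine (finrank_le_inf_add hV Λ₀ fun b hb0 => ?_).trans (by omega)
    obtain ⟨c', hc'⟩ := hΛ₀ b hb0
    exact ⟨c' • N, by rw [Matrix.trace_smul, hNtr, smul_zero], hc'⟩
  · have hW' : finrank k (W ⧸ Submodule.span k {w}) ≤ m := by
      have := (Submodule.span k {w}).finrank_quotient_add_finrank
      rw [finrank_span_singleton hw0] at this
      omega
    refine (finrank_le_inf_add hV ((Submodule.span k {w}).mkQ.comp Λ₀) fun b hb0 => ?_).trans
      (by omega)
    obtain ⟨t, ht⟩ := Submodule.mem_span_singleton.mp ((Submodule.Quotient.mk_eq_zero _).mp hb0)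
    obtain ⟨c, hc⟩ := hΛ₀ (b - t • ⟨_, hHmem⟩) (by
      rw [map_sub, map_smul, ← hw, ht, sub_self])
    refine ⟨c • N + t • H, by rw [Matrix.trace_add, Matrix.trace_smul, Matrix.trace_smul, hNtr,
      hHtr, smul_zero, smul_zero, add_zero], fun s hs => ?_⟩
    have h := hc s hs
    change (b : Gal → M2 k) s - t • cobdLin r H s = _ at h
    rw [sub_eq_iff_eq_add] at h
    rw [h, cobdLin_apply, cobdLin_apply, mul_add, add_mul, mul_smul_comm t, smul_mul_assoc t,
      smul_sub]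
    abel

/-- The bound from a stable line: `N` spans the twisted line and `H` is the diagonal element. -/
theorem finrank_le_of_line (hp2 : p ≠ 2) (h2 : (2 : k) ≠ 0)
    (hr : GaloisFactorsThroughFiniteLevel r) (a : Gal → k)
    (ha : ∀ (σ : Gal) (n : ℕ), (∀ μ : QBar, μ ^ p = 1 → σ μ = μ ^ n) → a σ = (n : k))
    (V : Submodule k (Gal → M2 k)) [Module.Finite k V]
    (hcoc : ∀ b ∈ V, IsAdCocycle r b) (hlev : ∀ b ∈ V, IsFiniteLevel b)
    {N H : M2 k} (hHtr : H.trace = 0) (hNtr : N.trace = 0)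
    (hli : LinearIndependent k ![N, H])
    (hN : ∀ s ∈ (padicPlace p).decompositionSubgroup ℚ, r s * N * r s⁻¹ = a s • N)
    (hH : ∀ s ∈ (padicPlace p).decompositionSubgroup ℚ, ∃ u : k, r s * H * r s⁻¹ - H = u • N)
    (hb : ∀ b ∈ V, ∃ X : M2 k, ∀ s ∈ (padicPlace p).decompositionSubgroup ℚ,
      ∃ c : k, b s - cobdLin r X s = c • N) :
    finrank k V ≤ finrank k (V ⊓ cobdOn r ((padicPlace p).decompositionSubgroup ℚ) :
        Submodule k (Gal → M2 k)) +
      finrank k (fixedOn r ((padicPlace p).decompositionSubgroup ℚ)) + 1 := by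
  refine finrank_le_of_line_bound h2 hr a V hcoc hlev hHtr hNtr hli hN hH hb 1
    fun L _ _ _ Z _ hZ hlevZ _ => ?_
  exact finrank_kummer_le hp2 a ha Z hZ L hlevZ

end Fermat.Agent.CFT.Tangent
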