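import Fermat.Agent.CFT.Tangent.CoreCount
import Fermat.Agent.CFT.Tangent.DetectPrimes
import Fermat.Agent.RT.Lift.Levels.Bound

/-!
Taylor–Wiles primes with the bound on first order deformations.
-/

set_option autoImplicit false
set_option synthInstance.maxHeartbeats 200000
set_option maxHeartbeats 1000000
set_option linter.style.haveILetI false

noncomputable section

namespace Fermat.Agent.CFT.Tangent

open ExtCitation Fermat.Agent.Arith Fermat.Agent.Deform IntermediateField Module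
open Fermat.Agent.CFT.Idele Fermat.Agent.CFT.Duality Fermat.Agent.CFT.Euler

local instance factPrimeTangentMain (q : Nat.Primes) : Fact (q : ℕ).Prime := ⟨q.2⟩

/-- Taylor–Wiles primes with the bound for every slack at `p`. -/
def LiftCoreInputSlack : Prop :=
  ∀ (k : Type) [Field k] [Finite k] (p : ℕ) [Fact p.Prime] [CharP k p], p ≠ 2 →
  ∀ r : Gal →* M2 k, GaloisFactorsThroughFiniteLevel r → CFT.TWPrimes.TWHyp r →
    (∀ (σ : Gal) (n : ℕ), (∀ μ : QBar, μ ^ p = 1 → σ μ = μ ^ n) → (r σ).det = (n : k)) →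
  ∀ Smin T S : Finset ℕ, p ∈ Smin → Smin ⊆ S → T ⊆ S → Disjoint Smin T → (∀ q ∈ S, q.Prime) →
    (∀ q : ℕ, q.Prime → q ∉ Smin → ∀ A : ValuationSubring QBar, A.LiesOverPrime q →
      ∀ σ ∈ A.inertiaSubgroupIn ℚ, r σ = 1) →
    (∀ q ∈ Smin, q ≠ p → ∀ [Fact q.Prime],
      (∀ τ ∈ (padicPlace q).inertiaSubgroupIn ℚ, (r τ).trace = 2 ∧ (r τ).det = 1) ∧
        ∃ τ ∈ (padicPlace q).inertiaSubgroupIn ℚ, r τ ≠ 1) →
    ∃ r' : ℕ, ∀ n : ℕ, ∃ qv : Fin r' → ℕ, Function.Injective qv ∧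
      (∀ i, (qv i).Prime ∧ qv i ∉ S ∧ p ^ (n + 1) ∣ qv i - 1) ∧
      (∀ i, ∀ A : ValuationSubring QBar, A.LiesOverPrime (qv i) →
        ∀ φ : Gal, A.IsFrobeniusAt φ (qv i) →
          ∃ α β : k, α ≠ β ∧ (r φ).trace = α + β ∧ (r φ).det = α * β) ∧
      LiftCoreAtSlack p r Smin T qv

/-- **Taylor–Wiles primes, for every slack at `p`.** -/
theorem liftCoreInputSlack : LiftCoreInputSlack := by
  intro k _ _ p hp _ hp2 r hrfin hr hcyc Smin T S hpS hSS hTS hdisj hSprime hunr hSmin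
  classical
  haveI := finiteDimensional_splitField r hrfin
  haveI := normal_splitField r hrfin
  haveI : Fintype (splitField r ≃ₐ[ℚ] splitField r) := Fintype.ofFinite _
  have hK : ∀ σ, res (splitField r) σ = 1 → r σ = 1 := fun σ => (apply_eq_one_iff r hrfin σ).mp
  let T₀ : Finset Nat.Primes := insert ⟨p, hp.out⟩
    (S.attach.image fun q => (⟨q.1, hSprime q.1 q.2⟩ : Nat.Primes))
  obtain ⟨T₁, hT₁, hgen⟩ := exists_hgen (splitField r) T₀
  have hS : ∀ (q : Nat.Primes), (q : ℕ) ∈ S → q ∈ T₁ := fun q hq =>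
    hT₁ (Finset.mem_insert_of_mem (Finset.mem_image.mpr ⟨⟨q, hq⟩, Finset.mem_attach _ _,
      Subtype.ext rfl⟩))
  haveI : Fintype (AdMod (galRep r hK)) := Fintype.ofFinite _
  obtain ⟨ε, hε⟩ := exists_presentation (G := splitField r ≃ₐ[ℚ] splitField r)
    (A := AdMod (galRep r hK)) (AdMod.nsmul_eq_zero p)
  obtain ⟨r', hr'⟩ := exists_detecting_primes p r hK hr hrfin hcyc hp2 T₁ hε
    (S ∪ T₁.image Subtype.val)
  refine ⟨r', fun n => ?_⟩
  obtain ⟨qv, hinj, hq, hsplit, hfrob, hdetect⟩ := hr' n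
  refine ⟨qv, hinj, fun i => ⟨(hq i).1, fun h => (hq i).2.1 (Finset.mem_union_left _ h),
    (hq i).2.2.2⟩, hsplit, ?_⟩
  exact finrank_add_le p r hK hp2 hrfin hr hcyc (fun σ => (apply_eq_one_iff r hrfin σ).mpr)
    (zetaP_mem_splitField r p hcyc) Smin T hpS hdisj hunr hSmin T₁
    (hT₁ (Finset.mem_insert_self _ _)) hgen
    (fun q hq' => inertia_eq_bot_splitField r q (hunr q q.2
      (fun h => hq' (hS q (hSS h))) _ (Local.padicPlace_liesOverPrime _)))
    (fun q hq' => hS q (hq'.elim (fun h => hSS h) fun h => hTS h))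
    (fun v hv => hSprime v (hTS hv)) hε qv hinj
    (fun i => ⟨(hq i).1, (hq i).2.2.1,
      dvd_trans (dvd_pow_self p n.succ_ne_zero) (hq i).2.2.2⟩)
    (fun i q hqT e => (hq i).2.1 (Finset.mem_union_right _
      (Finset.mem_image.mpr ⟨q, hqT, e⟩)))
    hfrob hdetect

/-- **Taylor–Wiles primes with the bound at places of unramified residual representation.** -/
theorem liftCoreInput : RT.Lift.LiftCoreInput := by
  intro k _ _ p _ _ hp2 r hrfin hr hcyc Smin T S hpS hSS hTS hdisj hSprime hunr hSmin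
  obtain ⟨r', h⟩ :=
    liftCoreInputSlack k p hp2 r hrfin hr hcyc Smin T S hpS hSS hTS hdisj hSprime hunr hSmin
  refine ⟨r', fun n => ?_⟩
  obtain ⟨qv, h1, h2, h3, h4⟩ := h n
  exact ⟨qv, h1, h2, h3, h4.liftCoreAt⟩

/-- **Taylor–Wiles primes relative to places with scalar decomposition groups.** -/
theorem tangentCoreInput : RT.Assembly.TangentCoreInput :=
  RT.Lift.tangentCoreInput_of_lift liftCoreInput

end Fermat.Agent.CFT.Tangent
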