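import Mathlib

/-!
Power series surjections onto complete Noetherian local algebras from generators of the
relative cotangent space.
-/

set_option autoImplicit false
set_option linter.style.haveILetI false

noncomputable section

namespace Fermat.Agent.CFT.Tangent

open IsLocalRing MvPowerSeries

variable {𝒪 : Type} [CommRing 𝒪] [IsLocalRing 𝒪] [IsAdicComplete (maximalIdeal 𝒪) 𝒪]
variable {R : Type} [CommRing R] [IsLocalRing R] [IsNoetherianRing R]
  [IsAdicComplete (maximalIdeal R) R] [Algebra 𝒪 R] [IsLocalHom (algebraMap 𝒪 R)]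

omit [IsAdicComplete (maximalIdeal R) R] in
/-- `R = 𝒪 + (s)` when `s` generates the maximal ideal modulo `𝔪_𝒪`. -/
theorem exists_sub_mem_span (hres : Function.Surjective (residue R ∘ algebraMap 𝒪 R)) {r : ℕ}
    (s : Fin r → R) (hs : ∀ i, s i ∈ maximalIdeal R)
    (hgen : maximalIdeal R ≤ Ideal.span (Set.range s) ⊔ (maximalIdeal 𝒪).map (algebraMap 𝒪 R))
    (x : R) : ∃ a : 𝒪, x - algebraMap 𝒪 R a ∈ Ideal.span (Set.range s) := by
  set I : Ideal R := Ideal.span (Set.range s)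
  have hI : I ≤ maximalIdeal R := Ideal.span_le.mpr (Set.range_subset_iff.mpr hs)
  have hIne : I ≠ ⊤ := fun h => (maximalIdeal.isMaximal R).ne_top (top_le_iff.mp (h ▸ hI))
  haveI : Nontrivial (R ⧸ I) := Ideal.Quotient.nontrivial_iff.mpr hIne
  haveI : IsLocalRing (R ⧸ I) :=
    IsLocalRing.of_surjective' (Ideal.Quotient.mk I) Ideal.Quotient.mk_surjective
  let f : 𝒪 →+* R ⧸ I := (Ideal.Quotient.mk I).comp (algebraMap 𝒪 R)
  haveI : IsHausdorff ((maximalIdeal 𝒪).map f) (R ⧸ I) := by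
    refine IsHausdorff.of_isLocalRing _ _ fun h => (maximalIdeal.isMaximal (R ⧸ I)).ne_top ?_
    refine top_le_iff.mp (h ▸ Ideal.map_le_iff_le_comap.mpr fun o ho => ?_)
    intro hu
    have : IsLocalHom (Ideal.Quotient.mk I) :=
      IsLocalHom.of_surjective _ Ideal.Quotient.mk_surjective
    exact ho (isUnit_of_map_unit (algebraMap 𝒪 R) o (isUnit_of_map_unit (Ideal.Quotient.mk I) _ hu))
  have hsurj : Function.Surjective f := by
    refine surjective_of_mk_map_comp_surjective f (I := maximalIdeal 𝒪) fun z => ?_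
    obtain ⟨y, rfl⟩ := Ideal.Quotient.mk_surjective z
    obtain ⟨y, rfl⟩ := Ideal.Quotient.mk_surjective y
    obtain ⟨a, ha⟩ := hres (residue R y)
    refine ⟨a, Ideal.Quotient.eq.mpr ?_⟩
    have h1 : algebraMap 𝒪 R a - y ∈ I ⊔ (maximalIdeal 𝒪).map (algebraMap 𝒪 R) :=
      hgen ((residue_eq_zero_iff _).mp (by rw [map_sub, sub_eq_zero]; exact ha))
    obtain ⟨u, hu, v, hv, huv⟩ := Submodule.mem_sup.mp h1
    show Ideal.Quotient.mk I (algebraMap 𝒪 R a) - Ideal.Quotient.mk I y ∈ _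
    rw [← map_sub, ← huv, map_add, Ideal.Quotient.eq_zero_iff_mem.mpr hu, zero_add,
      ← Ideal.map_map]
    exact Ideal.mem_map_of_mem _ hv
  obtain ⟨a, ha⟩ := hsurj (Ideal.Quotient.mk I x)
  exact ⟨a, Ideal.Quotient.eq.mp ha.symm⟩

/-- A power series surjection from generators of the relative cotangent space. -/
theorem exists_surjective_mvPowerSeries (hres : Function.Surjective (residue R ∘ algebraMap 𝒪 R))
    {r : ℕ} (s : Fin r → R) (hs : ∀ i, s i ∈ maximalIdeal R)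
    (hgen : maximalIdeal R ≤ Ideal.span (Set.range s) ⊔ (maximalIdeal 𝒪).map (algebraMap 𝒪 R)) :
    ∃ γ : MvPowerSeries (Fin r) 𝒪 →ₐ[𝒪] R, Function.Surjective γ := by
  set J := MvPolynomial.idealOfVars (Fin r) 𝒪
  let φ : MvPolynomial (Fin r) 𝒪 →ₐ[𝒪] R := MvPolynomial.aeval s
  have hJ : ∀ n, J ^ n ≤ (maximalIdeal R ^ n).comap φ := fun n => by
    refine le_trans (Ideal.pow_right_mono ?_ n) ?_ (b := (maximalIdeal R).comap φ ^ n)
    · rw [show J = Ideal.span (Set.range MvPolynomial.X) from rfl, Ideal.span_le]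
      rintro _ ⟨i, rfl⟩
      show φ (MvPolynomial.X i) ∈ maximalIdeal R
      rw [MvPolynomial.aeval_X]
      exact hs i
    · exact Ideal.le_comap_pow _ n
  let f : (n : ℕ) → MvPowerSeries (Fin r) 𝒪 →ₐ[𝒪] R ⧸ maximalIdeal R ^ n := fun n =>
    (Ideal.quotientMapₐ (maximalIdeal R ^ n) φ (hJ n)).comp
      ((truncTotalAlgHom (Fin r) 𝒪 n).restrictScalars 𝒪)
  have hf : ∀ {m n : ℕ} (hle : m ≤ n),
      (Ideal.Quotient.factorₐ 𝒪 (Ideal.pow_le_pow_right hle)).comp (f n) = f m := fun {m n} hle => by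
    refine AlgHom.ext fun p => Ideal.Quotient.eq.mpr ?_
    show φ (truncTotal n p) - φ (truncTotal m p) ∈ _
    rw [← map_sub]
    exact hJ m (truncTotal_sub_truncTotal_mem_pow_idealOfVars hle le_rfl p)
  let γ := IsAdicComplete.liftAlgHom (maximalIdeal R) f hf
  have hγ : ∀ p : MvPolynomial (Fin r) 𝒪, γ (p : MvPowerSeries (Fin r) 𝒪) = φ p := fun p => by
    refine sub_eq_zero.mp (IsHausdorff.haus' (I := maximalIdeal R) _ fun n => ?_)
    rw [SModEq.zero, smul_eq_mul, Ideal.mul_top, ← Ideal.Quotient.eq_zero_iff_mem, map_sub,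
      IsAdicComplete.mk_liftAlgHom, sub_eq_zero]
    show Ideal.Quotient.mk _ (φ (truncTotal n (p : MvPowerSeries (Fin r) 𝒪))) = _
    refine Ideal.Quotient.eq.mpr ?_
    rw [← map_sub]
    refine hJ n ((MvPolynomial.mem_pow_idealOfVars_iff' ..).mpr fun d hd => ?_)
    rw [MvPolynomial.coeff_sub, coeff_truncTotal _ hd, MvPolynomial.coeff_coe, sub_self]
  refine ⟨γ, ?_⟩
  set X' : Ideal (MvPowerSeries (Fin r) 𝒪) := Ideal.span (Set.range MvPowerSeries.X)
  have hmap : X'.map (γ : MvPowerSeries (Fin r) 𝒪 →+* R) = Ideal.span (Set.range s) := by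
    rw [Ideal.map_span, ← Set.range_comp]
    congr 1
    refine congrArg Set.range (funext fun i => ?_)
    show γ (MvPowerSeries.X i) = s i
    rw [← MvPolynomial.coe_X, hγ, MvPolynomial.aeval_X]
  haveI : IsHausdorff (X'.map (γ : MvPowerSeries (Fin r) 𝒪 →+* R)) R := by
    rw [hmap]
    exact IsHausdorff.of_isLocalRing _ _ fun h => (maximalIdeal.isMaximal R).ne_top
      (top_le_iff.mp (h ▸ Ideal.span_le.mpr (Set.range_subset_iff.mpr hs)))
  refine surjective_of_mk_map_comp_surjective (γ : MvPowerSeries (Fin r) 𝒪 →+* R) (I := X') ?_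
  intro z
  obtain ⟨x, rfl⟩ := Ideal.Quotient.mk_surjective z
  obtain ⟨a, ha⟩ := exists_sub_mem_span hres s hs hgen x
  refine ⟨((MvPolynomial.C a : MvPolynomial (Fin r) 𝒪) : MvPowerSeries (Fin r) 𝒪),
    Ideal.Quotient.eq.mpr ?_⟩
  show γ _ - x ∈ X'.map (γ : MvPowerSeries (Fin r) 𝒪 →+* R)
  rw [hγ, ← MvPolynomial.algebraMap_eq, AlgHom.commutes, hmap, ← neg_sub]
  exact neg_mem ha

end Fermat.Agent.CFT.Tangent
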