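import Fermat.Agent.CFT.Idele.Semilocal
import Fermat.Agent.CFT.Tangent.LocalBasic
import Fermat.Prelude.Def_GaloisRep_Residual

/-!
The splitting field of a matrix representation with finite image, and the representation of its
Galois group.
-/

set_option autoImplicit false
set_option linter.style.haveILetI false

noncomputable section

namespace Fermat.Agent.CFT.Tangent

open ExtCitation Fermat.Agent.Arith Fermat.Agent.Deform IntermediateField Fermat.Agent.CFT.Idele

variable {k : Type} [Field k] (r : GQ →* M2 k)

/-- The splitting field. -/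
def splitField : IntermediateField ℚ QBar := IntermediateField.fixedField r.ker

theorem isOpen_ker_of_finiteLevel (hr : GaloisFactorsThroughFiniteLevel r) :
    IsOpen (r.ker : Set GQ) := by
  obtain ⟨L, hL, h⟩ := hr
  haveI := hL
  exact Subgroup.isOpen_mono (fun σ hσ => h σ ((IntermediateField.mem_fixingSubgroup_iff L σ).mp hσ))
    (IntermediateField.fixingSubgroup_isOpen L)

theorem fixingSubgroup_splitField (hr : GaloisFactorsThroughFiniteLevel r) :
    (splitField r).fixingSubgroup = r.ker :=
  InfiniteGalois.fixingSubgroup_fixedField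
    ⟨r.ker, Subgroup.isClosed_of_isOpen _ (isOpen_ker_of_finiteLevel r hr)⟩

theorem finiteDimensional_splitField (hr : GaloisFactorsThroughFiniteLevel r) :
    FiniteDimensional ℚ (splitField r) :=
  (InfiniteGalois.isOpen_iff_finite _).mp
    (by rw [fixingSubgroup_splitField r hr]; exact isOpen_ker_of_finiteLevel r hr)

theorem normal_splitField (hr : GaloisFactorsThroughFiniteLevel r) : Normal ℚ (splitField r) := by
  haveI : IsGalois ℚ (splitField r) :=
    (InfiniteGalois.normal_iff_isGalois _).mp
      (by rw [fixingSubgroup_splitField r hr]; infer_instance)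
  exact IsGalois.to_normal

theorem apply_eq_one_iff (hr : GaloisFactorsThroughFiniteLevel r) [FiniteDimensional ℚ (splitField r)]
    [Normal ℚ (splitField r)] (σ : GQ) : res (splitField r) σ = 1 ↔ r σ = 1 := by
  rw [res_eq_one_iff, fixingSubgroup_splitField r hr, MonoidHom.mem_ker]

variable {K : IntermediateField ℚ QBar} [FiniteDimensional ℚ K] [Normal ℚ K]

/-- The representation of a Galois group through which `r` factors. -/
def galRep (hK : ∀ σ, res K σ = 1 → r σ = 1) : (K ≃ₐ[ℚ] K) →* M2 k :=
  { toFun := fun g => r (Idele.lift K g)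
    map_one' := hK _ (res_lift K 1)
    map_mul' := fun g g' => by
      rw [← r.map_mul]
      have h := hK ((Idele.lift K g * Idele.lift K g')⁻¹ * Idele.lift K (g * g')) (by
        rw [map_mul, map_inv, map_mul, res_lift, res_lift, res_lift, inv_mul_cancel])
      calc r (Idele.lift K (g * g'))
          = r ((Idele.lift K g * Idele.lift K g') *
            ((Idele.lift K g * Idele.lift K g')⁻¹ * Idele.lift K (g * g'))) := by
            rw [mul_inv_cancel_left]
        _ = r (Idele.lift K g * Idele.lift K g') := by rw [r.map_mul, h, mul_one] }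

omit [FiniteDimensional ℚ ↥K] in
theorem galRep_res (hK : ∀ σ, res K σ = 1 → r σ = 1) (σ : GQ) : galRep r hK (res K σ) = r σ := by
  have h := hK (σ⁻¹ * Idele.lift K (res K σ)) (by rw [map_mul, map_inv, res_lift, inv_mul_cancel])
  show r (Idele.lift K (res K σ)) = r σ
  calc r (Idele.lift K (res K σ)) = r (σ * (σ⁻¹ * Idele.lift K (res K σ))) := by
        rw [mul_inv_cancel_left]
    _ = r σ := by rw [map_mul, h, mul_one]

end Fermat.Agent.CFT.Tangent
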